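import Fermat.Agent.RED.Full.Spec
import Fermat.Agent.RED.Congruence.Norm
import Fermat.Agent.RED.Spec.Galois
import Fermat.Agent.RED.Reduction.ChartHom
import Fermat.Agent.JAC.XH.DiaCompat
import Fermat.Agent.JAC.XH.SwapEmb
import Fermat.Agent.JAC.XH.FrickeMaps

/-!
# Galois, diamonds and `T_ℓ` on reductions of functions of `X_H(N)`

The residual automorphisms and the automorphisms fixing `j` act on the special fibre, and the norm
of `T_ℓ f` reduces to the Kronecker congruence shape with a diamond translate.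
-/

set_option autoImplicit false

attribute [local instance 10000] SubalgebraClass.toAlgebra HahnSeries.powerSeriesAlgebra

noncomputable section

open ModularCurve AlgebraicCurve
open scoped MatrixGroups

namespace Fermat.RED.Full

open Fermat.MC Fermat.RED.Model CongruenceSubgroup

section General

variable {L : Type*} [Field L] {A : ValuationSubring L} {k : Type*} [Field k] {π : A →+* k}

/-- An automorphism fixing the coordinate `x` preserves its chart, the integral closure of
`A[x]`. -/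
theorem mem_chart_algEquiv {F : Type*} [Field F] [Algebra L F] (d : F ≃ₐ[L] F) {x : F}
    (hx : d x = x) {f : F} (hf : f ∈ chart A x) : d f ∈ chart A x := by
  obtain ⟨P, hP, hPf⟩ := hf
  refine ⟨P, hP, ?_⟩
  have h := congrArg d.toAlgHom.toRingHom (show P.eval₂ (ax A x) f = 0 from hPf)
  rw [Polynomial.hom_eval₂, map_zero] at h
  rw [show d.toAlgHom.toRingHom.comp (ax A x) = ax A x from Polynomial.ringHom_ext
    (fun a => by simp) (by simpa using hx)] at h
  exact h

/-- An automorphism fixing the coordinate preserves the kernel of reduction. -/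
theorem redF_algEquiv_eq_zero {F : Type*} [Field F] [Algebra L F] {ι : F →+* LaurentSeries L}
    {x : F} {n : ℕ} (h : GoodModel π ι x n) (d : F ≃ₐ[L] F) (hx : d x = x) {f : F}
    (hf : f ∈ chart A x) (h0 : redF π ι f = 0) : redF π ι (d f) = 0 := by
  obtain ⟨c, hc, g, hg, rfl⟩ := h.toPreModel.exists_eq_smul_of_redF_eq_zero hf h0
  rw [map_mul, AlgEquiv.commutes, redF_mul (h.toPreModel.int_algebraMap c.2)
    (h.toPreModel.int_chart _ (mem_chart_algEquiv d hx hg)), h.toPreModel.redF_algebraMap c.2,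
    Subtype.coe_eta, hc, map_zero, zero_mul]

end General

section Stable

variable {L : Type*} [Field L] [Algebra ℚ L] {A : ValuationSubring L}

/-- The residual automorphism of the inverse is the inverse. -/
theorem residueAut_inv {σ : L ≃ₐ[ℚ] L} (hσ : σ ∈ A.decompositionSubgroup ℚ) :
    residueAut (inv_mem hσ) = (residueAut hσ).symm :=
  RingEquiv.ext fun _ => rfl

/-- The special fibre is stable under the residual automorphisms. -/
theorem coeffMap_residueAut_mem (F₀ : IntermediateField ℚ (LaurentSeries ℚ)) {σ : L ≃ₐ[ℚ] L}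
    (hσ : σ ∈ A.decompositionSubgroup ℚ) {x : LaurentSeries (IsLocalRing.ResidueField A)}
    (hx : x ∈ specField (IsLocalRing.residue A) (laurentBaseChange L F₀).val.toRingHom) :
    coeffMap (residueAut hσ : IsLocalRing.ResidueField A →+* IsLocalRing.ResidueField A) x ∈
      specField (IsLocalRing.residue A) (laurentBaseChange L F₀).val.toRingHom := by
  set T := specField (IsLocalRing.residue A) (laurentBaseChange L F₀).val.toRingHom
  set τ : IsLocalRing.ResidueField A →+* IsLocalRing.ResidueField A :=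
    (residueAut hσ).toRingHom
  refine IntermediateField.adjoin_induction (IsLocalRing.ResidueField A)
    (p := fun x _ => coeffMap τ x ∈ T) (fun y hy => ?_) (fun c => ?_)
    (fun _ _ _ _ h h' => by rw [map_add]; exact add_mem h h')
    (fun _ _ h => by rw [map_inv₀]; exact inv_mem h)
    (fun _ _ _ _ h h' => by rw [map_mul]; exact mul_mem h h') hx
  · obtain ⟨f, hf, rfl⟩ := hy
    obtain ⟨w, hw, hwr⟩ := exists_lift_of_int (π := IsLocalRing.residue A) hf
    obtain ⟨σA, h1, h2⟩ := exists_residue_conj hσ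
    have e : ((arithmeticGalois F₀ σ • f : laurentBaseChange L F₀) : LaurentSeries L) =
        coeffMap A.subtype (coeffMap σA w) := by
      rw [coe_arithmeticGalois_smul, hw, coeffMap_coeffMap, coeffMap_coeffMap]
      exact coeffMap_congr (RingHom.ext fun a => (h1 a).symm) w
    have hint : (laurentBaseChange L F₀).val.toRingHom (arithmeticGalois F₀ σ • f) ∈
        intSeries A := ⟨_, e.symm⟩
    have hmem := redF_mem_specField (IsLocalRing.residue A)
      (laurentBaseChange L F₀).val.toRingHom (arithmeticGalois F₀ σ • f)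
    obtain ⟨w', hw', hwr'⟩ := exists_lift_of_int (π := IsLocalRing.residue A) hint
    rw [hwr', show w' = coeffMap σA w from
      coeffMap_subtype_injective A (hw'.symm.trans e)] at hmem
    rw [hwr, coeffMap_coeffMap]
    rw [coeffMap_coeffMap] at hmem
    convert hmem using 1
    exact coeffMap_congr (RingHom.ext fun a => (h2 a).symm) w
  · rw [coeffMap_algebraMap]
    exact IntermediateField.algebraMap_mem _ _

/-- The residual automorphism on the special fibre. -/
def galAut (F₀ : IntermediateField ℚ (LaurentSeries ℚ)) {σ : L ≃ₐ[ℚ] L}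
    (hσ : σ ∈ A.decompositionSubgroup ℚ) :
    SemilinearAut (IsLocalRing.ResidueField A)
      (specField (IsLocalRing.residue A) (laurentBaseChange L F₀).val.toRingHom) :=
  coeffAut _ (residueAut hσ) (fun _ h => coeffMap_residueAut_mem F₀ hσ h) fun _ h => by
    rw [← residueAut_inv hσ]
    exact coeffMap_residueAut_mem F₀ (inv_mem hσ) h

/-- `galAut` acts on expansions through the coefficients. -/
theorem coe_galAut_smul (F₀ : IntermediateField ℚ (LaurentSeries ℚ)) {σ : L ≃ₐ[ℚ] L}
    (hσ : σ ∈ A.decompositionSubgroup ℚ)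
    (z : specField (IsLocalRing.residue A) (laurentBaseChange L F₀).val.toRingHom) :
    ((galAut F₀ hσ • z :
      specField (IsLocalRing.residue A) (laurentBaseChange L F₀).val.toRingHom) :
        LaurentSeries (IsLocalRing.ResidueField A)) =
      coeffMap (residueAut hσ : IsLocalRing.ResidueField A →+* IsLocalRing.ResidueField A) z :=
  rfl

end Stable

section RedAut

variable {M : ℕ} [NeZero M] {G : Subgroup SL(2, ℤ)} [Lvl.LevelGen G] (hG : Gamma M ≤ G)
variable {L : Type*} [Field L] [IsAlgClosed L] [Algebra ℚ L] (ι : L →+* ℂ)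
variable {A : ValuationSubring L} {k : Type*} [Field k] [IsAlgClosed k] {π : A →+* k}
variable (hL : LevelOK π M)

/-- An automorphism fixing `j`, on reductions of chart elements. -/
def redAutS (d : Lvl.FL G L ≃ₐ[L] Lvl.FL G L) (hd : d (Lvl.jL G L) = Lvl.jL G L) :
    SS hG ι hL →+* SS hG ι hL :=
  RingHom.liftOfSurjective (chartRed hG ι hL).rangeRestrict (RingHom.rangeRestrict_surjective _)
    ⟨(chartRed hG ι hL).rangeRestrict.comp
      ((d.toAlgHom.toRingHom.comp (chart A (Lvl.jL G L)).subtype).codRestrict _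
        fun f => mem_chart_algEquiv d hd f.2),
      fun f hf => by
        rw [RingHom.mem_ker] at hf ⊢
        refine Subtype.ext (Subtype.ext ?_)
        exact redF_algEquiv_eq_zero (goodModel_FL hG ι hL) d hd f.2
          (congrArg (fun z : SS hG ι hL => ((z : KSp G π) : LaurentSeries k)) hf)⟩

/-- `redAutS` sends the reduction of `f` to the reduction of `d f`. -/
theorem redAutS_apply (d : Lvl.FL G L ≃ₐ[L] Lvl.FL G L) (hd : d (Lvl.jL G L) = Lvl.jL G L)
    (f : chart A (Lvl.jL G L)) :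
    redAutS hG ι hL d hd ((chartRed hG ι hL).rangeRestrict f) =
      (chartRed hG ι hL).rangeRestrict ⟨d f, mem_chart_algEquiv d hd f.2⟩ :=
  RingHom.liftOfRightInverse_comp_apply _ _ _ _ f

include hG ι hL in
/-- An automorphism fixing `j` acts on the special fibre. -/
theorem exists_redAut (d : Lvl.FL G L ≃ₐ[L] Lvl.FL G L) (hd : d (Lvl.jL G L) = Lvl.jL G L) :
    ∃ e : SemilinearAut k (KSp G π), ∀ f ∈ chart A (Lvl.jL G L), ∀ z : KSp G π,
      (z : LaurentSeries k) = redF π (Lvl.FL G L).val.toRingHom f →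
        ((e • z : KSp G π) : LaurentSeries k) = redF π (Lvl.FL G L).val.toRingHom (d f) := by
  let := isFractionRing_SS hG ι hL
  have hd' : d.symm (Lvl.jL G L) = Lvl.jL G L := by rw [AlgEquiv.symm_apply_eq, hd]
  -- `d` and its inverse act on the reductions of chart elements, hence on their fraction field
  let φ : SS hG ι hL ≃+* SS hG ι hL :=
    RingEquiv.ofRingHom (redAutS hG ι hL d hd) (redAutS hG ι hL d.symm hd')
      (RingHom.ext fun s => by
        obtain ⟨f, rfl⟩ := RingHom.rangeRestrict_surjective _ s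
        rw [RingHom.comp_apply, redAutS_apply, redAutS_apply]
        exact congrArg _ (Subtype.ext (d.apply_symm_apply _)))
      (RingHom.ext fun s => by
        obtain ⟨f, rfl⟩ := RingHom.rangeRestrict_surjective _ s
        rw [RingHom.comp_apply, redAutS_apply, redAutS_apply]
        exact congrArg _ (Subtype.ext (d.symm_apply_apply _)))
  let ψ : KSp G π ≃+* KSp G π :=
    IsFractionRing.ringEquivOfRingEquiv (K := KSp G π) (L := KSp G π) φ
  have hψ : ∀ f : chart A (Lvl.jL G L),
      ψ (chartRed hG ι hL f) = chartRed hG ι hL ⟨d f, mem_chart_algEquiv d hd f.2⟩ := fun f => by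
    refine (IsFractionRing.ringEquivOfRingEquiv_algebraMap (K := KSp G π) (L := KSp G π) φ
      ((chartRed hG ι hL).rangeRestrict f)).trans ?_
    change algebraMap (SS hG ι hL) (KSp G π) (redAutS hG ι hL d hd _) = _
    rw [redAutS_apply]
    rfl
  -- the constants are reductions of constants, so they are fixed
  have hconst : ∀ c : k, ψ (algebraMap k (KSp G π) c) = algebraMap k (KSp G π) c := fun c => by
    obtain ⟨⟨a, ha⟩, rfl⟩ := hL.surj c
    have e : algebraMap k (KSp G π) (π ⟨a, ha⟩) =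
        chartRed hG ι hL ⟨_, algebraMap_mem_chart (Lvl.jL G L) ha⟩ :=
      Subtype.ext ((goodModel_FL hG ι hL).toPreModel.redF_algebraMap ha).symm
    rw [e, hψ]
    exact congrArg _ (Subtype.ext (d.commutes a))
  refine ⟨SemilinearAut.ofAlgAut (AlgEquiv.ofRingEquiv (f := ψ) hconst), fun f hf z hz => ?_⟩
  obtain rfl : z = chartRed hG ι hL ⟨f, hf⟩ := Subtype.ext hz
  change ((ψ (chartRed hG ι hL ⟨f, hf⟩) : KSp G π) : LaurentSeries k) = _
  rw [hψ]
  rfl

end RedAut

section NormGeneral

variable {L : Type*} [Field L] [CharZero L] [IsAlgClosed L] {ℓ : ℕ} [NeZero ℓ]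
variable {S S' : IntermediateField L (LaurentSeries L)}
  [Fermat.FF.IsFunctionField L S] [Fermat.FF.IsFunctionField L S']

/-- The norm along a correspondence of degree `ℓ + 1`, its expansion at the second cusp being
known after embedding the constants. -/
theorem qExpand_normAlong_eq_of_map {C : Type*} [Field C] (φ : L →+* C) (α β : S →ₐ[L] S')
    (hα : ∀ g, (α g : LaurentSeries L) = g)
    (hβ : ∀ g, (β g : LaurentSeries L) = qExpand L ℓ (g : LaurentSeries L))
    (d : S ≃ₐ[L] S) (e₀ : S' →+* LaurentSeries C)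
    (hα₀ : ∀ g, e₀ (α g) = qExpand C ℓ (coeffMap φ (g : LaurentSeries L)))
    (hβ₀ : ∀ g, e₀ (β g) = coeffMap φ (d g : LaurentSeries L))
    {ζ : Lˣ} (hζ : IsPrimitiveRoot (ζ : L) ℓ) (hℓ : 1 < ℓ)
    (hcard : finrankAlong L α = ℓ + 1) {y : S} (hy : d y = y)
    (hy' : (y : LaurentSeries L).coeff (-1) ≠ 0) (f : S) :
    qExpand L ℓ ((JAC.normAlong α (β f) : S) : LaurentSeries L) =
      qExpand L ℓ (qExpand L ℓ (f : LaurentSeries L)) *
        ∏ i : Fin ℓ, twist (ζ ^ (i : ℕ)) ((d f : S) : LaurentSeries L) := by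
  have hζC : IsPrimitiveRoot ((Units.map (φ : L →* C) ζ : Cˣ) : C) ℓ :=
    hζ.map_of_injective φ.injective
  have key := qExpand_normAlong_eq α β ((coeffMap φ).comp S.val.toRingHom)
    ((coeffMap φ).comp S'.val.toRingHom) e₀ (fun g => d g)
    (fun g => congrArg (coeffMap φ) (hα g))
    (fun g => (congrArg (coeffMap φ) (hβ g)).trans (ModularCurve.coeffMap_qExpand _ _ _))
    hα₀ hβ₀ hζC hℓ hcard (y := y)
    (by
      change (coeffMap φ ((d y : S) : LaurentSeries L)).coeff (-1) ≠ 0
      rw [hy, coeffMap_coeff]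
      exact (_root_.map_ne_zero φ).mpr hy') f
  refine coeffMap_injective φ φ.injective ?_
  simp only [map_mul, map_prod, ModularCurve.coeffMap_qExpand, coeffMap_twist, map_pow]
  exact key

end NormGeneral

section Norm

open Fermat.JAC.XH
open Fermat.JAC.X0 (Qbar embC)

variable {N : ℕ} [NeZero N] {H : Subgroup (ZMod N)ˣ} [Lvl.NegMem H] {ℓ : ℕ}

/-- The first degeneracy map from level `N ℓ` to level `N` has degree `ℓ + 1`, for `ℓ ∤ N`. -/
theorem finrankAlong_alphaH_bar [NeZero ℓ] (hℓ : ℓ.Prime) (hℓN : ¬ ℓ ∣ N) :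
    finrankAlong Qbar (alphaH N H ℓ Qbar) = ℓ + 1 := by
  have hC := psiG_eq_finrankAlong (up_le N H ℓ)
  rw [finrankAlong_alphaH N H ℓ hℓ, if_neg hℓN] at hC
  have h1 := JAC.degree_zeroDiv_map (alphaH N H ℓ Qbar) (Lvl.jL (Lvl.GammaH N H) Qbar)
  rw [show alphaH N H ℓ Qbar (Lvl.jL (Lvl.GammaH N H) Qbar) =
      Lvl.jL (Lvl.GammaH (N * ℓ) (upH N H ℓ)) Qbar from inclFL_jL Qbar _,
    Fermat.FF.degree_zeroDiv (Lvl.transcendental_jL _),
    Fermat.FF.degree_zeroDiv (Lvl.transcendental_jL _), (Lvl.finrank_FL _ embC).1,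
    (Lvl.finrank_FL _ embC).1, hC] at h1
  exact (Nat.eq_of_mul_eq_mul_right (Lvl.psiG_pos _) (by exact_mod_cast h1)).symm

/-- An expansion of level `N ℓ` at a second cusp over `∞`: it turns the pullback of `f` by `α`
into `f(q ^ ℓ)` and the pullback by `β` into the diamond translate `⟨ℓ⟩⁻¹ f`. -/
theorem exists_otherExpansion [NeZero ℓ] (hN : ℓ.Coprime N) :
    ∃ e₀ : Lvl.FL (Lvl.GammaH (N * ℓ) (upH N H ℓ)) Qbar →+* LaurentSeries ℂ,
      (∀ f, e₀ (alphaH N H ℓ Qbar f) = qExpand ℂ ℓ (coeffMap embC (f : LaurentSeries Qbar))) ∧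
      ∀ f, e₀ (betaH N H ℓ Qbar f) = coeffMap embC
        (Lvl.diamondHom H embC (ZMod.unitOfCoprime ℓ hN)⁻¹ f : LaurentSeries Qbar) := by
  obtain ⟨x, b, hxy⟩ := (Nat.Coprime.isCoprime hN : IsCoprime (ℓ : ℤ) (N : ℤ))
  have hdet : (ℓ : ℤ) * x - N * (-b) = 1 := by linear_combination hxy
  set G' := Lvl.GammaH (N * ℓ) (upH N H ℓ)
  set δ : Gamma0 N := ⟨_, swapMat_mem N ℓ x (-b) hdet⟩
  -- the expansion after a translation by the matrix exchanging the two cusps over `∞`
  set τ₀ := Lvl.tau G' embC (swapEv N H ℓ x (-b) hdet) (swapEv_injective N H ℓ x (-b) hdet)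
  have hδ : Lvl.gamma0Units N δ = ZMod.unitOfCoprime ℓ hN := Units.ext (by
    rw [Lvl.coe_gamma0Units, ZMod.coe_unitOfCoprime]
    simp [δ, swapMat])
  have hβ : ∀ u, τ₀ (betaH N H ℓ Qbar u) = coeffMap embC (u : LaurentSeries Qbar) := fun u => by
    obtain ⟨a, c, -, hac⟩ := IsFractionRing.div_surjective (A := Lvl.W (Lvl.GammaH N H))
      (Lvl.toKW (Lvl.GammaH N H) embC u)
    rw [betaH_eq ℓ embC, Lvl.tau_div (a := Lvl.scaleW (scaleLe_up N H ℓ) a)
      (b := Lvl.scaleW (scaleLe_up N H ℓ) c)]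
    · rw [swapEv_scale, swapEv_scale, ← Lvl.qK_algebraMap, ← Lvl.qK_algebraMap, ← map_div₀, hac,
        Lvl.qK_toKW]
    · rw [Lvl.RatMap.toKW_mapL, ← hac, map_div₀, Lvl.RatMap.homK_algebraMap,
        Lvl.RatMap.homK_algebraMap]
      rfl
  have hα : ∀ u, τ₀ (alphaH N H ℓ Qbar u) =
      qExpand ℂ ℓ (coeffMap embC (Lvl.diamond embC δ u : LaurentSeries Qbar)) := fun u => by
    obtain ⟨a, c, -, hac⟩ := IsFractionRing.div_surjective (A := Lvl.W (Lvl.GammaH N H))
      (Lvl.toKW (Lvl.GammaH N H) embC u)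
    rw [alphaH_eq ℓ embC, Lvl.tau_div
      (a := Subalgebra.inclusion (Lvl.W_anti (up_le N H ℓ)) a)
      (b := Subalgebra.inclusion (Lvl.W_anti (up_le N H ℓ)) c)]
    · rw [swapEv_incl, swapEv_incl, ← map_div₀, ← Lvl.qK_algebraMap, ← Lvl.qK_algebraMap,
        ← map_div₀]
      refine congrArg _ (Eq.trans ?_ (Lvl.qK_toKW _ embC _))
      refine congrArg _ ?_
      show _ = Lvl.toKW _ _ (Lvl.diamond embC δ u)
      rw [Lvl.toKW_diamond, ← hac, map_div₀, Lvl.RatMap.homK_algebraMap,
        Lvl.RatMap.homK_algebraMap]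
      rfl
    · rw [Lvl.RatMap.toKW_mapL, ← hac, map_div₀, Lvl.RatMap.homK_algebraMap,
        Lvl.RatMap.homK_algebraMap]
      rfl
  -- a diamond at level `N ℓ` moves the diamond from the first map to the second
  obtain ⟨d', hd1, hd2⟩ := exists_diamond_up (H := H) ℓ embC (ZMod.unitOfCoprime ℓ hN)⁻¹
  refine ⟨τ₀.comp d'.toAlgHom.toRingHom, fun f => ?_, fun f => ?_⟩
  · change τ₀ (d' (alphaH N H ℓ Qbar f)) = _
    rw [hd1, hα, ← Lvl.diamondHom_gamma0Units, hδ, ← AlgEquiv.mul_apply, ← map_mul,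
      mul_inv_cancel, map_one, AlgEquiv.one_apply]
  · change τ₀ (d' (betaH N H ℓ Qbar f)) = _
    rw [hd2, hβ]

variable {A : ValuationSubring Qbar} {k : Type*} [Field k] {π : A →+* k}

/-- The norm of `T_ℓ` reduces to `f̄ (q ^ ℓ)` times the Frobenius of the reduction of the
diamond translate. -/
theorem exists_reduction_normAlong [Fact ℓ.Prime] [CharP k ℓ] (hN : ℓ.Coprime N)
    (f : Lvl.FL (Lvl.GammaH N H) Qbar) (y yd : LaurentSeries A)
    (hy : (f : LaurentSeries Qbar) = coeffMap A.subtype y)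
    (hyd : (Lvl.diamondHom H embC (ZMod.unitOfCoprime ℓ hN)⁻¹ f : LaurentSeries Qbar) =
      coeffMap A.subtype yd) :
    haveI : NeZero ℓ := ⟨(Fact.out : ℓ.Prime).ne_zero⟩
    ∃ y' : LaurentSeries A,
      ((JAC.normAlong (alphaH N H ℓ Qbar) (betaH N H ℓ Qbar f) : Lvl.FL (Lvl.GammaH N H) Qbar) :
          LaurentSeries Qbar) = coeffMap A.subtype y' ∧
        coeffMap π y' = qExpand k ℓ (coeffMap π y) * coeffMap (frobenius k ℓ) (coeffMap π yd) := by
  have hℓ : ℓ.Prime := Fact.out
  have : NeZero ℓ := ⟨hℓ.ne_zero⟩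
  have hℓN : ¬ ℓ ∣ N := hℓ.coprime_iff_not_dvd.mp hN
  obtain ⟨e₀, hα₀, hβ₀⟩ := exists_otherExpansion (H := H) hN
  obtain ⟨ζ, hζ⟩ := exists_isPrimitiveRoot_unit Qbar ℓ (Nat.cast_ne_zero.mpr hℓ.ne_zero)
  have hζ' : IsPrimitiveRoot (ζ : Qbar) ℓ := IsPrimitiveRoot.coe_units_iff.mpr hζ
  refine exists_reduction_of_norm (yd := yd) hζ' ?_
  rw [← hy, ← hyd]
  exact qExpand_normAlong_eq_of_map embC (alphaH N H ℓ Qbar) (betaH N H ℓ Qbar)
    (coe_inclFL Qbar (up_le N H ℓ)) (coe_scaleFL Qbar (scaleLe_up N H ℓ))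
    (Lvl.diamondHom H embC (ZMod.unitOfCoprime ℓ hN)⁻¹) e₀ hα₀ hβ₀ hζ' hℓ.one_lt
    (finrankAlong_alphaH_bar hℓ hℓN) (y := Lvl.jL (Lvl.GammaH N H) Qbar) (diamondHom_jL ..)
    (by
      change (coeffEmb Qbar jq).coeff (-1 : ℤ) ≠ 0
      rw [coeffEmb_coeff, coeff_jq_neg_one, map_one]
      exact one_ne_zero) f

end Norm

end Fermat.RED.Full
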