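import Fermat.Agent.RED.Full.Congruence
import Fermat.Agent.RED.Reduction.Divisible
import Fermat.Agent.RED.Reduction.X0
import Fermat.Agent.RED.Spec.Specialization
import Fermat.Agent.JAC.XH.Input

/-!
# Eichler-Shimura data of `X_H(N)`

Reduction of divisor classes of `X_H(N)` at `ℓ ∤ N` carries Galois, diamonds and `T_ℓ` to the
special fibre. So torsion of order a power of `p` is unramified outside `N p` and Frobenius
satisfies the congruence relation: `esData`, the input of `GR/AttachProof`.
-/

set_option autoImplicit false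

attribute [local instance 10000] SubalgebraClass.toAlgebra HahnSeries.powerSeriesAlgebra

noncomputable section

open ModularCurve AlgebraicCurve
open scoped MatrixGroups

namespace Fermat.RED

section Abstract

/-- The algebra behind the congruence relation: let `g` be the reduction of `s` and `e` that of
`D⁻¹`, where `D` commutes with `s`. If `T` reduces to `ℓ g⁻¹ + g e`, then `s² - T D s + ℓ D`
reduces to zero. -/
theorem relation_of_congruence {J P : Type*} [AddCommGroup J] [AddCommGroup P] (red : J →+ P)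
    (s T D D' : J → J) (g gi e : P → P) (ℓ : ℕ) (hred : ∀ x, red (s x) = g (red x))
    (hgi : ∀ a, gi (g a) = a) (hD : ∀ x, D' (D x) = x) (hDs : ∀ x, D' (s x) = s (D' x))
    (hDs' : ∀ x, D (s x) = s (D x)) (hD' : ∀ x, red (D' x) = e (red x))
    (hT : ∀ x, red (T x) = ℓ • gi (red x) + g (e (red x))) (x : J) :
    red (s (s x)) - red (T (D (s x))) + ℓ • red (D x) = 0 := by
  have h1 : red (s x) = e (g (red (D x))) := by
    conv_lhs => rw [← hD x, ← hDs, hD', hred]
  rw [hred, h1, hDs', hT, hred, hgi]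
  abel

/-- If `m` kills `x` and `s` preserves that, `m` kills `s² x - T s x + l • E x`. -/
theorem nsmul_relation_eq_zero {J : Type*} [AddCommGroup J] (s : J → J) (T E : AddMonoid.End J)
    {m : ℕ} (l : ℕ) {x : J} (hs : ∀ c, m • c = 0 → m • s c = 0) (hx : m • x = 0) :
    m • (s (s x) - T (s x) + l • E x) = 0 := by
  rw [nsmul_add, nsmul_sub, hs _ (hs _ hx), ← map_nsmul T, hs _ hx, map_zero, ← mul_nsmul',
    mul_comm, mul_nsmul', ← map_nsmul E, hx, map_zero, nsmul_zero, sub_zero, zero_add]

/-- `red (y - a + ℓ • b) = 0`, computed after rewriting `a` and `b`. -/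
private theorem map_sub_add_nsmul_eq_zero {J P : Type*} [AddCommGroup J] [AddCommGroup P]
    (red : J →+ P) (ℓ : ℕ) {y a b a' b' : J} (ha : a = a') (hb : b = b')
    (h : red y - red a' + ℓ • red b' = 0) : red (y - a + ℓ • b) = 0 := by
  rwa [ha, hb, map_add, map_sub, map_nsmul]

/-- If `red y` is the translate of `red x` by `g = 1`, then `red (y - x) = 0`. -/
private theorem map_sub_eq_zero_of_smul {J P M : Type*} [AddCommGroup J] [AddCommGroup P]
    [Monoid M] [MulAction M P] (red : J →+ P) {x y : J} {g : M} (hy : red y = g • red x)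
    (hg : g = 1) : red (y - x) = 0 := by
  rw [map_sub, hy, hg, one_smul, sub_self]

/-- The actions of `f u⁻¹` and `f u` cancel. -/
private theorem map_inv_smul_map_smul {G M X : Type*} [Group G] [Monoid M] [MulAction M X]
    (f : G →* M) (u : G) (c : X) : f u⁻¹ • f u • c = c := by
  rw [← mul_smul, ← map_mul, inv_mul_cancel, map_one, one_smul]

/-- A product acts as the composite. -/
private theorem map_mul_apply_eq {R E : Type*} [Semiring R] [AddCommGroup E]
    (φ : R →+* AddMonoid.End E) {t d e : R} (ht : t = d * e) (x : E) : φ t x = φ d (φ e x) := by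
  rw [ht, map_mul]; rfl

end Abstract

section RedPic

open IsSeriesReduction

variable {L : Type*} [Field L] {A : ValuationSubring L}
variable {k : Type*} [Field k] {π : A →+* k}
variable {S : IntermediateField L (LaurentSeries L)} {T : IntermediateField k (LaurentSeries k)}
variable {r : Place L S → Place k T} (hr : IsSeriesReduction A π S T r)

/-- Reduction of divisor classes. -/
def IsSeriesReduction.classMap : Pic0 L S →+ Pic0 k T :=
  QuotientAddGroup.lift _
    ((QuotientAddGroup.mk' _).comp
      (((Finsupp.mapDomain.addMonoidHom r).comp Divisor.degZero.subtype).codRestrict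
        Divisor.degZero fun D => Divisor.mem_degZero.mpr
          ((hr.degree_mapDomain _).trans (Divisor.mem_degZero.mp D.2))))
    fun D hD => by
      rw [AddMonoidHom.mem_ker, AddMonoidHom.comp_apply, QuotientAddGroup.mk'_apply,
        QuotientAddGroup.eq_zero_iff, AddSubgroup.mem_addSubgroupOf]
      exact hr.mapDomain_mem_principal hD

/-- The reduction of the class of a divisor is the class of its image. -/
theorem IsSeriesReduction.classMap_mk (D : Divisor.degZero (K := L) (F := S)) :
    hr.classMap (Pic0.mk D) = Pic0.mk (⟨Finsupp.mapDomain r (D : Divisor L S),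
      Divisor.mem_degZero.mpr ((hr.degree_mapDomain _).trans (Divisor.mem_degZero.mp D.2))⟩ :
        Divisor.degZero (K := k) (F := T)) := rfl

/-- Reduction is injective on torsion prime to the residue characteristic. -/
theorem IsSeriesReduction.eq_zero_of_classMap {m : ℕ} (hm : (m : k) ≠ 0) {x : Pic0 L S}
    (hx : m • x = 0) (h : hr.classMap x = 0) : x = 0 := by
  obtain ⟨D, rfl⟩ := Pic0.mk_surjective x
  rw [hr.classMap_mk, Pic0.mk, QuotientAddGroup.eq_zero_iff, AddSubgroup.mem_addSubgroupOf] at h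
  rw [Pic0.mk, ← QuotientAddGroup.mk_nsmul, QuotientAddGroup.eq_zero_iff,
    AddSubgroup.mem_addSubgroupOf, AddSubgroupClass.coe_nsmul] at hx
  rw [Pic0.mk, QuotientAddGroup.eq_zero_iff, AddSubgroup.mem_addSubgroupOf]
  exact hr.torsion m hm D (Divisor.mem_degZero.mp D.2) hx h

variable [IsAlgClosed L] [FF.IsFunctionField L S]

/-- Reduction of classes intertwines a semilinear automorphism with its reduction. -/
theorem IsSeriesReduction.classMap_smul (hdiv : PicDivisible L S) {x : S} {d : ℕ}
    (h : Model.GoodModel π S.val.toRingHom x d)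
    {s : SemilinearAut L S} {g : SemilinearAut k T}
    (hsg : ∀ f ∈ Model.chart A x, ∀ z : T,
      (z : LaurentSeries k) = Model.redF π S.val.toRingHom f →
      ∃ y' : LaurentSeries A, ((s • f : S) : LaurentSeries L) = coeffMap A.subtype y' ∧
        ((g • z : T) : LaurentSeries k) = coeffMap π y')
    (hT : ∀ f : S, Model.redF π S.val.toRingHom f ∈ T) (c : Pic0 L S) :
    hr.classMap (s • c) = g • hr.classMap c := by
  obtain ⟨D, rfl⟩ := Pic0.mk_surjective c
  exact (congrArg hr.classMap (SemilinearAut.pic0_smul_mk s D)).trans <|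
    (congrArg Pic0.mk (Subtype.ext
      (mapDomain_smul_chart hr hdiv h hsg hT (Divisor.mem_degZero.mp D.2)))).trans
      (SemilinearAut.pic0_smul_mk g _).symm

/-- Reduction turns a correspondence of the congruence shape into `ℓ g⁻¹ + g e` on classes. -/
theorem IsSeriesReduction.classMap_correspondence (hdiv : PicDivisible L S) {x : S} {d : ℕ}
    (h : Model.GoodModel π S.val.toRingHom x d) (hT : ∀ f : S, Model.redF π S.val.toRingHom f ∈ T)
    {S' : Type*} [Field S'] [Algebra L S'] [FF.IsFunctionField L S'] (α β : S →ₐ[L] S')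
    (ℓ : ℕ) (g e : SemilinearAut k T)
    (hN : ∀ f ∈ Model.chart A x, ∀ z : T,
      (z : LaurentSeries k) = Model.redF π S.val.toRingHom f → z ≠ 0 →
      ∃ y' : LaurentSeries A,
        ((JAC.normAlong α (β f) : S) : LaurentSeries L) = coeffMap A.subtype y' ∧
        ((((g⁻¹ • z) ^ ℓ * (g • e • z) : T)) : LaurentSeries k) = coeffMap π y')
    (c : Pic0 L S) :
    hr.classMap (JAC.pushPic α (JAC.pullPic β c)) =
      ℓ • (g⁻¹ • hr.classMap c) + g • e • hr.classMap c := by
  obtain ⟨D, rfl⟩ := Pic0.mk_surjective c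
  have hD := Divisor.mem_degZero.mp D.2
  have hpull : JAC.pullDiv β (D : Divisor L S) ∈ Divisor.degZero := by
    rw [Divisor.mem_degZero, JAC.degree_pullDiv, hD, mul_zero]
  have hpush : JAC.pushDiv α (JAC.pullDiv β (D : Divisor L S)) ∈ Divisor.degZero := by
    rw [Divisor.mem_degZero, JAC.degree_pushDiv]
    exact Divisor.mem_degZero.mp hpull
  refine (congrArg hr.classMap ((congrArg (JAC.pushPic α) (JAC.pullPic_mk β D hpull)).trans
    (JAC.pushPic_mk α ⟨_, hpull⟩ hpush))).trans ?_
  refine congrArg Pic0.mk (Subtype.ext ?_)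
  have key := mapDomain_correspondence_chart hr hdiv h hT
    ((JAC.pushDiv α).comp (JAC.pullDiv β)) (fun f => JAC.normAlong α (β f)) ℓ g e
    (fun E f hf hE P => by
      rw [AddMonoidHom.comp_apply,
        show E = FF.divOf L f from Finsupp.ext fun Q => (hE Q).trans (FF.divOf_apply f Q).symm,
        JAC.pullDiv_divOf, JAC.pushDiv_divOf α ((_root_.map_ne_zero _).mpr hf), FF.divOf_apply])
    hN hD
  exact key

end RedPic

namespace Full

open Fermat.MC Fermat.JAC.XH
open Fermat.JAC.X0 (Qbar embC)

variable {N : ℕ} [NeZero N] {H : Subgroup (ZMod N)ˣ} [Lvl.NegMem H]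

local notation "G" => Lvl.GammaH N H
local notation "FH" => Lvl.FL (Lvl.GammaH N H) Qbar
local notation "J" => Pic0 Qbar (Lvl.FL (Lvl.GammaH N H) Qbar)
local notation "Γℚ" => (AlgebraicClosure ℚ ≃ₐ[ℚ] AlgebraicClosure ℚ)

/-- The classes of degree zero of `X_H(N)` form a divisible group. -/
theorem picDivisible_FL : PicDivisible Qbar FH :=
  fun _ hn x => exists_nsmul_eq_of_constExt (F := Lvl.FL G ℂ) hn x

variable (N H) in
/-- The reduction data of `X_H(N)` at a place. -/
structure RedData (A : ValuationSubring (AlgebraicClosure ℚ)) where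
  /-- The reduction of places. -/
  r : Place Qbar FH → Place (IsLocalRing.ResidueField A)
    (Model.specField (IsLocalRing.residue A) (Lvl.FL G Qbar).val.toRingHom)
  /-- It is a reduction of series. -/
  isRed : IsSeriesReduction A (IsLocalRing.residue A) (Lvl.FL G Qbar)
    (Model.specField (IsLocalRing.residue A) (Lvl.FL G Qbar).val.toRingHom) r
  /-- The model of the function field is good. -/
  good : Model.GoodModel (IsLocalRing.residue A) (Lvl.FL G Qbar).val.toRingHom (Lvl.jL G Qbar)
    (Lvl.psiG G)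

variable {ℓ : ℕ} {A : ValuationSubring (AlgebraicClosure ℚ)}

/-- Reduction data exist at the places over the primes not dividing `N`. -/
theorem exists_redData (hℓ : ℓ.Prime) (hℓN : ¬ ℓ ∣ N) (hA : A.LiesOverPrime ℓ) :
    Nonempty (RedData N H A) := by
  have := Model.isAlgClosed_residue A
  obtain ⟨h, hn, hn'⟩ := goodModel_normal_GammaH (N := N) (H := H) embC
    (π := IsLocalRing.residue A) IsLocalRing.residue_surjective
    (Model.natCast_ne_zero_residue A hℓ hA hℓN)
  have := h.toPreModel.isFunctionField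
  obtain ⟨r, hr⟩ := exists_seriesReduction h hn hn' rfl
  exact ⟨⟨r, hr, h⟩⟩

variable (R : RedData N H A)

/-- Reduction of classes commutes with the decomposition group. -/
theorem RedData.classMap_galois [IsAlgClosed (IsLocalRing.ResidueField A)] {σ : Γℚ}
    (hσ : σ ∈ A.decompositionSubgroup ℚ) (c : J) :
    R.isRed.classMap (σ • c) = galAut (Lvl.FQ G) hσ • R.isRed.classMap c := by
  rw [galois_smul_pic0_def]
  refine R.isRed.classMap_smul picDivisible_FL R.good (fun f hf z hz => ?_)
    (fun f => Model.redF_mem_specField _ _ f) c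
  have hy0 := exists_lift_of_int (π := IsLocalRing.residue A)
    (R.good.toPreModel.int_chart f hf)
  obtain ⟨y, hy, hyr⟩ := hy0
  exact intertwines_arithmeticGalois (Lvl.FQ G) hσ rfl (fun z => rfl) f y z hy (hz.trans hyr)

/-- The diamond operator reduces to an automorphism of the special field. -/
theorem exists_diaRed (hℓ : ℓ.Prime) (hℓN : ¬ ℓ ∣ N) (hA : A.LiesOverPrime ℓ)
    [IsAlgClosed (IsLocalRing.ResidueField A)] (u : (ZMod N)ˣ) :
    ∃ e : SemilinearAut (IsLocalRing.ResidueField A)
      (Model.specField (IsLocalRing.residue A) (Lvl.FL G Qbar).val.toRingHom),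
      ∀ f ∈ Model.chart A (Lvl.jL G Qbar),
        ∀ z : Model.specField (IsLocalRing.residue A) (Lvl.FL G Qbar).val.toRingHom,
        (z : LaurentSeries (IsLocalRing.ResidueField A)) =
          Model.redF (IsLocalRing.residue A) (Lvl.FL G Qbar).val.toRingHom f →
        ((e • z : Model.specField (IsLocalRing.residue A) (Lvl.FL G Qbar).val.toRingHom) :
            LaurentSeries (IsLocalRing.ResidueField A)) =
          Model.redF (IsLocalRing.residue A) (Lvl.FL G Qbar).val.toRingHom
            (Lvl.diamondHom H embC u f) := by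
  have hM := exists_aux_level (π := IsLocalRing.residue A) (N := N)
    IsLocalRing.residue_surjective (Model.natCast_ne_zero_residue A hℓ hA hℓN)
  obtain ⟨c, M, -, -, -, hNM, hL, hM0⟩ := hM
  have : NeZero M := ⟨hM0⟩
  exact exists_redAut ((Lvl.Gamma_le_of_dvd hNM).trans Lvl.Gamma_le_GammaH) embC hL
    (Lvl.diamondHom H embC u) (diamondHom_jL N embC H u)

/-- Reduction of classes commutes with the diamond. -/
theorem RedData.classMap_diamond [IsAlgClosed (IsLocalRing.ResidueField A)] {u : (ZMod N)ˣ}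
    {e : SemilinearAut (IsLocalRing.ResidueField A)
      (Model.specField (IsLocalRing.residue A) (Lvl.FL G Qbar).val.toRingHom)}
    (he : ∀ f ∈ Model.chart A (Lvl.jL G Qbar),
        ∀ z : Model.specField (IsLocalRing.residue A) (Lvl.FL G Qbar).val.toRingHom,
        (z : LaurentSeries (IsLocalRing.ResidueField A)) =
          Model.redF (IsLocalRing.residue A) (Lvl.FL G Qbar).val.toRingHom f →
        ((e • z : Model.specField (IsLocalRing.residue A) (Lvl.FL G Qbar).val.toRingHom) :
            LaurentSeries (IsLocalRing.ResidueField A)) =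
          Model.redF (IsLocalRing.residue A) (Lvl.FL G Qbar).val.toRingHom
            (Lvl.diamondHom H embC u f)) (c : J) :
    R.isRed.classMap (SemilinearAut.ofAlgAut (Lvl.diamondHom H embC u) • c) =
      e • R.isRed.classMap c := by
  refine R.isRed.classMap_smul picDivisible_FL R.good (fun f hf z hz => ?_)
    (fun f => Model.redF_mem_specField _ _ f) c
  have hy0 := exists_lift_of_int (π := IsLocalRing.residue A)
    (R.good.toPreModel.int_chart _
      (mem_chart_algEquiv (Lvl.diamondHom H embC u) (diamondHom_jL N embC H u) hf))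
  obtain ⟨y', hy', hyr'⟩ := hy0
  exact ⟨y', hy', (he f hf z hz).trans hyr'⟩

/-- The congruence relation on classes: `T_ℓ` reduces to `ℓ g⁻¹ + g e`, for `g` the Frobenius of
the special field and `e` the reduction of the diamond `⟨ℓ⟩⁻¹`. -/
theorem RedData.classMap_hecke [IsAlgClosed (IsLocalRing.ResidueField A)] [Fact ℓ.Prime]
    [CharP (IsLocalRing.ResidueField A) ℓ]
    [PerfectRing (IsLocalRing.ResidueField A) ℓ] (hN : ℓ.Coprime N) {σ : Γℚ}
    (hσ : A.IsFrobeniusAt σ ℓ)
    {e : SemilinearAut (IsLocalRing.ResidueField A)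
      (Model.specField (IsLocalRing.residue A) (Lvl.FL G Qbar).val.toRingHom)}
    (he : ∀ f ∈ Model.chart A (Lvl.jL G Qbar),
        ∀ z : Model.specField (IsLocalRing.residue A) (Lvl.FL G Qbar).val.toRingHom,
        (z : LaurentSeries (IsLocalRing.ResidueField A)) =
          Model.redF (IsLocalRing.residue A) (Lvl.FL G Qbar).val.toRingHom f →
        ((e • z : Model.specField (IsLocalRing.residue A) (Lvl.FL G Qbar).val.toRingHom) :
            LaurentSeries (IsLocalRing.ResidueField A)) =
          Model.redF (IsLocalRing.residue A) (Lvl.FL G Qbar).val.toRingHom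
            (Lvl.diamondHom H embC (ZMod.unitOfCoprime ℓ hN)⁻¹ f)) (c : J) :
    haveI : NeZero ℓ := ⟨(Fact.out : ℓ.Prime).ne_zero⟩
    R.isRed.classMap (JAC.pushPic (alphaH N H ℓ Qbar) (JAC.pullPic (betaH N H ℓ Qbar) c)) =
      ℓ • ((galAut (Lvl.FQ G) hσ.mem_decompositionSubgroup)⁻¹ • R.isRed.classMap c) +
        galAut (Lvl.FQ G) hσ.mem_decompositionSubgroup • e • R.isRed.classMap c := by
  have : NeZero ℓ := ⟨(Fact.out : ℓ.Prime).ne_zero⟩
  refine R.isRed.classMap_correspondence picDivisible_FL R.good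
    (fun f => Model.redF_mem_specField _ _ f) _ _ ℓ _ e (fun f hf z hz _ => ?_) c
  -- `obtain` from a local hypothesis skips a slow search for the proof term in the goal
  have hy0 := exists_lift_of_int (π := IsLocalRing.residue A)
    (R.good.toPreModel.int_chart f hf)
  obtain ⟨y, hy, hyr⟩ := hy0
  have hyd0 := exists_lift_of_int (π := IsLocalRing.residue A)
    (R.good.toPreModel.int_chart _ (mem_chart_algEquiv
      (Lvl.diamondHom H embC (ZMod.unitOfCoprime ℓ hN)⁻¹) (diamondHom_jL N embC H _) hf))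
  obtain ⟨yd, hyd, hydr⟩ := hyd0
  have h0 := exists_reduction_normAlong (H := H) (π := IsLocalRing.residue A) hN f y yd
    hy hyd
  obtain ⟨y', h1, h2⟩ := h0
  have hg : ∀ z : Model.specField (IsLocalRing.residue A) (Lvl.FL G Qbar).val.toRingHom,
      ((galAut (Lvl.FQ G) hσ.mem_decompositionSubgroup • z :
          Model.specField (IsLocalRing.residue A) (Lvl.FL G Qbar).val.toRingHom) :
        LaurentSeries (IsLocalRing.ResidueField A)) =
      coeffMap (frobenius (IsLocalRing.ResidueField A) ℓ) z := fun z =>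
    (coe_galAut_smul (Lvl.FQ G) hσ.mem_decompositionSubgroup z).trans (coeffMap_congr
      (RingHom.ext fun a => (RingEquiv.congr_fun (residueAut_eq_frobenius hσ) a).trans
        (frobeniusEquiv_apply _ ℓ a)) _)
  have hw := (he f hf z hz).trans hydr
  have hz' := hz.trans hyr
  refine ⟨y', h1, ?_⟩
  rw [coe_frobenius_norm _ hg, hw, hz', h2]

omit R in
/-- **The congruence relation in reduction.** -/
theorem RedData.classMap_congruence (R : RedData N H A) (hℓ : ℓ.Prime) (hℓN : ¬ ℓ ∣ N)
    (hA : A.LiesOverPrime ℓ) {σ : Γℚ} (hσ : A.IsFrobeniusAt σ ℓ) (c : J) :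
    R.isRed.classMap (σ • σ • c - (heckeGens N H).act (tES N H ℓ) (σ • c) +
      ℓ • (heckeGens N H).act (epsES N H ℓ) c) = 0 := by
  have hN : ℓ.Coprime N := hℓ.coprime_iff_not_dvd.mpr hℓN
  have : Fact ℓ.Prime := ⟨hℓ⟩
  have : NeZero ℓ := ⟨hℓ.ne_zero⟩
  have := Model.isAlgClosed_residue A
  have := charP_residue hℓ hA
  obtain ⟨e, he⟩ := exists_diaRed (H := H) hℓ hℓN hA (ZMod.unitOfCoprime ℓ hN)⁻¹
  -- translate `tES` and `epsES` into the correspondence and the diamond `D`
  let u := ZMod.unitOfCoprime ℓ hN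
  let g := galAut (Lvl.FQ G) hσ.mem_decompositionSubgroup
  let D : (ZMod N)ˣ → J → J := fun v c => SemilinearAut.ofAlgAut (Lvl.diamondHom H embC v) • c
  have hDσ : ∀ v c, σ • D v c = D v (σ • c) := fun v c => by
    have := galois_gens N H σ (dOp N H v) (Or.inr ⟨v, rfl⟩) c
    rwa [act_dOp, act_dOp] at this
  have hDD : ∀ c, D u⁻¹ (D u c) = c :=
    map_inv_smul_map_smul (SemilinearAut.ofAlgAut.comp (Lvl.diamondHom H embC)) u
  have heps : ∀ c : J, (heckeGens N H).act (epsES N H ℓ) c = D u c := fun c =>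
    (congrArg (fun t => (heckeGens N H).act t c) (dif_pos hN)).trans (act_dOp N H u c)
  have htE : tES N H ℓ = tOp N H ⟨ℓ, hℓ⟩ * epsES N H ℓ := dif_pos hℓ
  have ht : ∀ c : J, (heckeGens N H).act (tES N H ℓ) c =
      JAC.pushPic (alphaH N H ℓ Qbar) (JAC.pullPic (betaH N H ℓ Qbar) (D u c)) := fun c =>
    (map_mul_apply_eq (heckeGens N H).act htE c).trans
      ((act_tOp N H ⟨ℓ, hℓ⟩ _).trans (congrArg _ (congrArg _ (heps c))))
  refine map_sub_add_nsmul_eq_zero R.isRed.classMap ℓ (ht (σ • c)) (heps c) ?_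
  exact relation_of_congruence R.isRed.classMap (σ • ·)
    (fun c => JAC.pushPic (alphaH N H ℓ Qbar) (JAC.pullPic (betaH N H ℓ Qbar) c)) (D u) (D u⁻¹)
    (g • ·) (g⁻¹ • ·) (e • ·) ℓ (fun c => R.classMap_galois hσ.mem_decompositionSubgroup c)
    (inv_smul_smul g) hDD (fun c => (hDσ u⁻¹ c).symm) (fun c => (hDσ u c).symm)
    (fun c => R.classMap_diamond he c) (fun c => R.classMap_hecke hN hσ he c) c

variable (p : ℕ)

/-- Inertia at a place over `ℓ ∤ N p` fixes the torsion classes of `p`-power order, as their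
reduction is injective. -/
theorem smul_eq_of_inertia (hℓ : ℓ.Prime) (hℓNp : ¬ ℓ ∣ N * p) (hA : A.LiesOverPrime ℓ) {σ : Γℚ}
    (hσ : σ ∈ A.inertiaSubgroupIn ℚ) {x : J} (hx : ∃ n : ℕ, p ^ n • x = 0) : σ • x = x := by
  have hℓN : ¬ ℓ ∣ N := fun h => hℓNp (h.mul_right p)
  have hℓp : ¬ ℓ ∣ p := fun h => hℓNp (h.mul_left N)
  have := Model.isAlgClosed_residue A
  obtain ⟨R⟩ := exists_redData (H := H) hℓ hℓN hA
  obtain ⟨hdec, hres⟩ := residueAut_eq_refl hσ
  obtain ⟨n, hn⟩ := hx
  refine sub_eq_zero.mp (R.isRed.eq_zero_of_classMap (m := p ^ n)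
    (Model.natCast_ne_zero_residue A hℓ hA fun h => hℓp (hℓ.dvd_of_dvd_pow h)) ?_ ?_)
  · rw [nsmul_sub, galois_smul_pic0_def, nsmul_smul_eq_zero N H hn, hn, sub_zero]
  · refine map_sub_eq_zero_of_smul R.isRed.classMap (R.classMap_galois hdec x) ?_
    exact Subtype.ext (Prod.ext (RingEquiv.ext fun z => Subtype.ext
      (by
        change coeffMap _ _ = _
        rw [hres]
        exact coeffMap_id _)) hres)

/-- The congruence relation of Frobenius on `p`-power torsion. -/
theorem frobenius_relation (hℓ : ℓ.Prime) (hℓNp : ¬ ℓ ∣ N * p) (hA : A.LiesOverPrime ℓ) {σ : Γℚ}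
    (hσ : A.IsFrobeniusAt σ ℓ) {x : J} (hx : ∃ n : ℕ, p ^ n • x = 0) :
    σ • σ • x - (heckeGens N H).act (tES N H ℓ) (σ • x) +
      ℓ • (heckeGens N H).act (epsES N H ℓ) x = 0 := by
  have hℓN : ¬ ℓ ∣ N := fun h => hℓNp (h.mul_right p)
  have hℓp : ¬ ℓ ∣ p := fun h => hℓNp (h.mul_left N)
  obtain ⟨R⟩ := exists_redData (H := H) hℓ hℓN hA
  obtain ⟨n, hn⟩ := hx
  -- reduction is injective on this torsion, so the relation may be checked after it
  refine R.isRed.eq_zero_of_classMap (m := p ^ n)
    (Model.natCast_ne_zero_residue A hℓ hA fun h => hℓp (hℓ.dvd_of_dvd_pow h)) ?_ ?_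
  · have hsm : ∀ c : J, p ^ n • c = 0 → p ^ n • (σ • c) = 0 := fun c hc => by
      rw [galois_smul_pic0_def]; exact nsmul_smul_eq_zero N H hc _
    exact nsmul_relation_eq_zero (σ • ·) _ _ ℓ hsm hn
  · exact R.classMap_congruence hℓ hℓN hA hσ x

end Full

namespace Full

open Fermat.MC Fermat.JAC.XH
open Fermat.JAC.X0 (Qbar embC)

/-- The Eichler–Shimura data of `X_H(N)`. -/
def esData (N : ℕ) [NeZero N] (H : Subgroup (ZMod N)ˣ) [Lvl.NegMem H] (p : ℕ) [Fact p.Prime] :
    Fermat.GR.ESData (heckeGens N H).R (Pic0 Qbar (Lvl.FL (Lvl.GammaH N H) Qbar)) N p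
      (tES N H) (epsES N H) :=
  Fermat.JAC.XH.esData N H p
    (fun _ hℓ hℓNp _ hA _ hσ _ hx => smul_eq_of_inertia p hℓ hℓNp hA hσ hx)
    (fun _ hℓ hℓNp _ hA _ hσ _ hx => frobenius_relation p hℓ hℓNp hA hσ hx)

end Full

end Fermat.RED
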