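import Fermat.Agent.RED.Full.Level
import Fermat.Agent.RED.Model.Branches
import Fermat.Agent.RED.Model.X0Normal
import Fermat.Agent.MC.Lvl.Fibres
import Fermat.Agent.MC.Lvl.Diamond

/-!
# Good reduction of `X_H(N)` at the primes not dividing `N`

The branches of the special fibre at infinity bound its poles of `j`, so the genus is constant for
levels inside `Γ₀(4)` or `Γ₀(9)`; by descent the model of `X_H(N)` is good and normal
(`goodModel_normal_GammaH`). This is the input of the congruence relation (`Congruence`, `Eichler`)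
and of flatness (`RED/Flat/GammaH`).
-/

set_option autoImplicit false
set_option linter.unusedSectionVars false
-- headroom: the searches for algebras over subrings run close to the default depth
set_option maxRecDepth 1024

attribute [local instance 10000] SubalgebraClass.toAlgebra HahnSeries.powerSeriesAlgebra
-- before the two above: the searches for algebras over subrings are slow
attribute [local instance 10001] Algebra.ofSubsemiring

noncomputable section

open Polynomial
open ModularCurve (qExpand jqModC)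
open scoped MatrixGroups

namespace Fermat.RED.Full

open Fermat.MC CongruenceSubgroup

variable {M : ℕ} [NeZero M] {G : Subgroup SL(2, ℤ)} [Lvl.LevelGen G] (hG : Gamma M ≤ G)
variable {L : Type*} [Field L] [IsAlgClosed L] [Algebra ℚ L] (ι : L →+* ℂ)
variable {A : ValuationSubring L} {k : Type*} [Field k] {π : A →+* k} (hL : LevelOK π M)

variable (G π) in
/-- The special fibre field of level `G`. -/
abbrev KSp : IntermediateField k (LaurentSeries k) :=
  Model.specField π (Lvl.FL G L).val.toRingHom

/-- Reduction on the chart, into the special fibre. -/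
def chartRed : Model.chart A (Lvl.jL G L) →+* KSp G π where
  toFun f := Model.redS π (Lvl.FL G L).val.toRingHom f
  map_one' := Model.redS_one _ _
  map_mul' f g := Model.redS_mul (int_chart hG ι hL f.2) (int_chart hG ι hL g.2)
  map_zero' := Model.redS_zero _ _
  map_add' f g := Model.redS_add (int_chart hG ι hL f.2) (int_chart hG ι hL g.2)

/-- `chartRed` is the reduction of the expansion. -/
theorem coe_chartRed (f : Model.chart A (Lvl.jL G L)) :
    (chartRed hG ι hL f : LaurentSeries k) = Model.redF π (Lvl.FL G L).val.toRingHom f := rfl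

/-- Reduction of a conjugate. -/
def conjRed (q : Lvl.Coset G) : Model.chart A (Lvl.jL G L) →+* LaurentSeries k :=
  (rho ι hL).comp ((galO A M ι (toGal M q.out)).comp
    (((theta hG ι).comp (Model.chart A (Lvl.jL G L)).subtype).codRestrict _
      fun f => theta_mem hG ι f.2))

/-- `conjRed` gives `redConj`. -/
theorem conjRed_apply (q : Lvl.Coset G) (f : Model.chart A (Lvl.jL G L)) :
    conjRed hG ι hL q f = redConj hG ι hL f q := rfl

variable [IsAlgClosed k]

include hG ι hL in
/-- The reduction of a conjugate vanishes exactly with the reduction. -/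
theorem redConj_eq_zero_iff (f : Model.chart A (Lvl.jL G L)) (q : Lvl.Coset G) :
    redConj hG ι hL f q = 0 ↔ chartRed hG ι hL f = 0 := by
  rw [redConj, cz, rho_galO_eq_zero_iff hL, rho_thetaO, _root_.map_eq_zero, ← coe_chartRed hG ι hL,
    ZeroMemClass.coe_eq_zero]

/-- The ring of reductions of chart elements. -/
abbrev SS : Subring (KSp G π) := (chartRed hG ι hL).range

/-- A branch on the ring of reductions. -/
def branchS (q : Lvl.Coset G) : SS hG ι hL →+* LaurentSeries k :=
  RingHom.liftOfSurjective (chartRed hG ι hL).rangeRestrict (RingHom.rangeRestrict_surjective _)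
    ⟨conjRed hG ι hL q, fun f hf => by
      rw [RingHom.mem_ker] at hf ⊢
      rw [conjRed_apply, redConj_eq_zero_iff]
      exact congrArg Subtype.val hf⟩

/-- A branch sends the reduction of an element to the reduced conjugate. -/
theorem branchS_apply (q : Lvl.Coset G) (f : Model.chart A (Lvl.jL G L)) :
    branchS hG ι hL q ((chartRed hG ι hL).rangeRestrict f) = redConj hG ι hL f q :=
  (RingHom.liftOfRightInverse_comp_apply _ _ _ _ f).trans (conjRed_apply hG ι hL q f)

/-- A branch is injective on the ring of reductions. -/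
theorem branchS_injective (q : Lvl.Coset G) : Function.Injective (branchS hG ι hL q) := by
  rw [injective_iff_map_eq_zero]
  intro s hs
  obtain ⟨f, rfl⟩ := RingHom.rangeRestrict_surjective _ s
  rw [branchS_apply, redConj_eq_zero_iff] at hs
  exact Subtype.ext hs

include hG ι hL in
/-- The special field is the fraction field of the reduced chart. -/
theorem isFractionRing_SS : IsFractionRing (SS hG ι hL) (KSp G π) := by
  have h := goodModel_FL hG ι hL
  -- given directly, as the search for it takes a long time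
  have : FaithfulSMul (SS hG ι hL) (KSp G π) :=
    (faithfulSMul_iff_algebraMap_injective _ _).mpr Subtype.val_injective
  refine IsFractionRing.of_field _ _ fun z => ?_
  obtain ⟨y, hyc, hys, hyi⟩ := h.basis
  obtain ⟨D, hD, C', e⟩ := h.toPreModel.exists_sum_of_mem hyc hys hyi z.2
  choose P hP using fun i => Polynomial.map_surjective π hL.surj (C' i)
  obtain ⟨PD, hPD⟩ := Polynomial.map_surjective π hL.surj D
  set num : Model.chart A (Lvl.jL G L) :=
    ∑ i, ⟨_, Model.ax_mem_chart _ (P i)⟩ * ⟨y i, hyc i⟩
  set den : Model.chart A (Lvl.jL G L) := ⟨_, Model.ax_mem_chart _ PD⟩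
  refine ⟨(chartRed hG ι hL).rangeRestrict num, (chartRed hG ι hL).rangeRestrict den, ?_⟩
  change z = chartRed hG ι hL num / chartRed hG ι hL den
  have hden : (chartRed hG ι hL den : LaurentSeries k) =
      aeval (Model.redF π (Lvl.FL G L).val.toRingHom (Lvl.jL G L)) D := by
    rw [coe_chartRed, h.toPreModel.redF_ax, hPD]
  have hden0 : chartRed hG ι hL den ≠ 0 := fun h0 => by
    rw [h0, ZeroMemClass.coe_zero] at hden
    exact hD (transcendental_iff.mp h.transc _ hden.symm)
  refine eq_div_of_mul_eq hden0 (Subtype.ext ?_)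
  rw [MulMemClass.coe_mul, hden, mul_comm]
  simp only [num, map_sum, map_mul, AddSubmonoidClass.coe_finsetSum, MulMemClass.coe_mul,
    coe_chartRed, h.toPreModel.redF_ax, hP]
  exact e

/-- A branch on the special fibre, as a ring map. -/
def branchK (q : Lvl.Coset G) : KSp G π →+* LaurentSeries k :=
  letI := isFractionRing_SS hG ι hL
  IsFractionRing.lift (A := SS hG ι hL) (K := KSp G π) (branchS_injective hG ι hL q)

/-- `branchK` extends `branchS`. -/
theorem branchK_chartRed (q : Lvl.Coset G) (f : Model.chart A (Lvl.jL G L)) :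
    branchK hG ι hL q (chartRed hG ι hL f) = redConj hG ι hL f q := by
  let := isFractionRing_SS hG ι hL
  rw [← branchS_apply]
  exact IsFractionRing.lift_algebraMap (K := KSp G π) (branchS_injective hG ι hL q)
    ((chartRed hG ι hL).rangeRestrict f)

include hG ι hL in
/-- Two maps agreeing on the reductions of chart elements are equal. -/
theorem ringHom_ext_chartRed {R : Type*} [Field R] {f g : KSp G π →+* R}
    (h : ∀ x, f (chartRed hG ι hL x) = g (chartRed hG ι hL x)) : f = g := by
  let := isFractionRing_SS hG ι hL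
  refine IsFractionRing.ringHom_ext (A := SS hG ι hL) fun s => ?_
  obtain ⟨x, rfl⟩ := RingHom.rangeRestrict_surjective _ s
  exact h x

/-- The reduced conjugates of a polynomial in `j` are that polynomial in the expansion of `j`
in `q ^ M`. -/
theorem redConj_ax (q : Lvl.Coset G) (D : A[X]) :
    redConj hG ι hL ⟨_, Model.ax_mem_chart (Lvl.jL G L) D⟩ q =
      qExpand k M (aeval (jqModC k) (D.map π)) := by
  rw [redConj, cz, show thetaO hG ι (⟨_, Model.ax_mem_chart (Lvl.jL G L) D⟩ :
      Model.chart A (Lvl.jL G L)) = axO A M ι D from Subtype.ext (theta_ax hG ι D), galO_axO,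
    rho_axO]

/-- A branch of the special fibre at infinity. -/
def branch (q : Lvl.Coset G) : KSp G π →ₐ[k] LaurentSeries k :=
  { branchK hG ι hL q with
    commutes' := fun c => by
      obtain ⟨⟨a, ha⟩, rfl⟩ := hL.surj c
      have e : algebraMap k (KSp G π) (π ⟨a, ha⟩) =
          chartRed hG ι hL ⟨_, Model.ax_mem_chart (Lvl.jL G L) (Polynomial.C ⟨a, ha⟩)⟩ := by
        refine Subtype.ext ?_
        rw [coe_chartRed, (goodModel_FL hG ι hL).toPreModel.redF_ax, map_C, aeval_C]
        rfl
      change branchK hG ι hL q (algebraMap k (KSp G π) (π ⟨a, ha⟩)) = _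
      rw [e, branchK_chartRed, redConj_ax, map_C, aeval_C]
      exact (ModularCurve.qExpandAlgHomC k M).commutes _ }

/-- A branch sends the reduction of an element to the reduced conjugate. -/
theorem branch_chartRed (q : Lvl.Coset G) (f : Model.chart A (Lvl.jL G L)) :
    branch hG ι hL q (chartRed hG ι hL f) = redConj hG ι hL f q :=
  branchK_chartRed hG ι hL q f

/-- Every branch sends `j` to its expansion in `q ^ M`. -/
theorem branch_redS_jL (q : Lvl.Coset G) :
    branch hG ι hL q (Model.redS π (Lvl.FL G L).val.toRingHom (Lvl.jL G L)) =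
      jb k 1 M := by
  have e : Model.redS π (Lvl.FL G L).val.toRingHom (Lvl.jL G L) =
      chartRed hG ι hL ⟨_, Model.ax_mem_chart (Lvl.jL G L) (X : A[X])⟩ := by
    refine Subtype.ext ?_
    rw [coe_chartRed, Model.coe_redS]
    simp [Model.ax]
  rw [e, branch_chartRed, redConj_ax, Polynomial.map_X, aeval_X, jb_one]

include hG ι hL in
/-- The branches, one for each coset, form a branch family over `j`. -/
theorem isBranchFamily :
    Cusps.IsBranchFamily (Model.redS π (Lvl.FL G L).val.toRingHom (Lvl.jL G L))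
      (branch hG ι hL) where
  transc := (goodModel_FL hG ι hL).transcendental_redS
  agree q q' := by rw [branch_redS_jL, branch_redS_jL]
  pole q := by rw [branch_redS_jL]; exact Cusps.jb_not_mem_regSeries 1 M
  inj q q' he := by
    obtain ⟨f, hf⟩ := exists_sep hG ι hL
    refine hf ?_
    change redConj hG ι hL f q = redConj hG ι hL f q'
    rw [← branch_chartRed, ← branch_chartRed, he]
  card := (goodModel_FL hG ι hL).toPreModel.finrank_spec

include hG ι hL in
/-- Translating the coset by `T⁻¹` composes the branch with a substitution `q ↦ c q`. -/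
theorem exists_branch_T : ∃ c : kˣ, ∀ (q : Lvl.Coset G) (z : KSp G π),
    branch hG ι hL (ModularGroup.T⁻¹ • q) z = twist c (branch hG ι hL q z) := by
  obtain ⟨c, -, hc⟩ := exists_rho_T (ι := ι) hL
  refine ⟨c, fun q z => RingHom.congr_fun (ringHom_ext_chartRed hG ι hL
    (f := (branch hG ι hL (ModularGroup.T⁻¹ • q)).toRingHom)
    (g := (twist c).comp (branch hG ι hL q).toRingHom) fun f => ?_) z⟩
  change branch hG ι hL _ _ = twist c (branch hG ι hL q _)
  rw [branch_chartRed, branch_chartRed, redConj, redConj,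
    ← galO_cz ι (fun γ hγ => toGal_fix_theta hG ι hγ f), hc]

include hG ι hL in
/-- The reduced field has at most as many poles of `j` as there are cusps. -/
theorem exists_finset_poles [FF.IsFunctionField k (KSp G π)] :
    ∃ S : Finset (AlgebraicCurve.Place k (KSp G π)), S.card ≤ Lvl.cuspsG G ∧
      ∀ Q : AlgebraicCurve.Place k (KSp G π),
        Q.ord (Model.redS π (Lvl.FL G L).val.toRingHom (Lvl.jL G L)) < 0 → Q ∈ S := by
  obtain ⟨c, hc⟩ := exists_branch_T hG ι hL
  refine (isBranchFamily hG ι hL).exists_finset_poles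
    (O := MulAction.orbitRel.Quotient (Subgroup.zpowers ModularGroup.T) (Lvl.Coset G))
    (fun q => Quotient.mk _ q) fun q q' he f => ?_
  let Z : Subgroup SL(2, ℤ) :=
    { carrier := {g | ∀ (q : Lvl.Coset G) f, branch hG ι hL (g • q) f ∈ Cusps.regSeries k ↔
        branch hG ι hL q f ∈ Cusps.regSeries k}
      one_mem' := fun q f => by rw [one_smul]
      mul_mem' := fun {g h} hg hh q f => by rw [mul_smul, hg, hh]
      inv_mem' := fun {g} hg q f => by rw [← hg, smul_inv_smul] }
  have hT : ModularGroup.T⁻¹ ∈ Z := fun q f => by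
    rw [hc, Cusps.twist_mem_regSeries_iff]
  have hle : Subgroup.zpowers ModularGroup.T ≤ Z := by
    rw [Subgroup.zpowers_le]; exact inv_mem_iff.mp hT
  obtain ⟨⟨g, hg⟩, rfl⟩ := Quotient.exact he
  exact hle hg q' f

omit [IsAlgClosed L] [Algebra ℚ L] [NeZero M] [IsAlgClosed k] in
/-- Inside `Γ₀(4)` or `Γ₀(9)` there are no elliptic points. -/
theorem nuG_eq_zero {c : ℕ} [NeZero c] (hc : c = 4 ∨ c = 9) (hGc : G ≤ Gamma0 c) :
    Lvl.nuTwoG G = 0 ∧ Lvl.nuThreeG G = 0 := by
  have h49 : 4 ∣ c ∨ 9 ∣ c := by rcases hc with rfl | rfl <;> simp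
  have key : ∀ g : SL(2, ℤ), Nat.card {x : MF.CosetX c // g • x = x} = 0 →
      Nat.card {q : Lvl.Coset G // g • q = q} = 0 := fun g hg => by
    have : IsEmpty {q : Lvl.Coset G // g • q = q} := by
      refine ⟨fun ⟨q, hq⟩ => ?_⟩
      have : Finite {x : MF.CosetX c // g • x = x} := inferInstance
      refine (Nat.card_eq_zero.mp hg).elim (fun he => he.false ⟨(q.out : MF.CosetX c), ?_⟩)
        (fun hi => @Infinite.not_finite _ hi inferInstance)
      rw [← QuotientGroup.out_eq' q, MulAction.Quotient.smul_mk, QuotientGroup.eq] at hq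
      rw [MulAction.Quotient.smul_mk, QuotientGroup.eq]
      exact hGc hq
    exact Nat.card_of_isEmpty
  exact ⟨key _ (by rw [MF.card_fixed_S, Model.nuTwo_eq_zero h49]),
    key _ (by rw [MF.card_fixed_ST, Model.nuThree_eq_zero h49])⟩

include hG ι hL in
/-- The models are normal for levels inside `Γ₀(4)` or `Γ₀(9)`: the special fibre has at most as
many poles of `j` as the level has cusps, so its genus is that of the generic fibre. -/
theorem normal_FL_aux {c : ℕ} [NeZero c] (hc : c = 4 ∨ c = 9) (hck : (c : k) ≠ 0)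
    (hGc : G ≤ Gamma0 c) :
    Model.Normal A π (Lvl.FL G L).val.toRingHom (Lvl.jL G L) ∧
      Model.Normal A π (Lvl.FL G L).val.toRingHom (Lvl.jL G L)⁻¹ := by
  have : CharZero L := charZero_of_injective_algebraMap (algebraMap ℚ L).injective
  have h := goodModel_FL hG ι hL
  have := Lvl.isFunctionField_FL G ι
  have : FF.IsFunctionField k (KSp G π) := h.toPreModel.isFunctionField_spec
  obtain ⟨hnu2, hnu3⟩ := nuG_eq_zero hc hGc
  have hgL : (AlgebraicCurve.genusFF L (Lvl.FL G L) : ℚ) =
      1 + (Lvl.psiG G : ℚ) / 12 - (Lvl.cuspsG G : ℚ) / 2 := by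
    rw [Lvl.genusFF_FL G ι, Lvl.genusFormulaG, hnu2, hnu3]
    simp
  -- the sublevel `Γ₀(c)`
  obtain ⟨hff0, hffk0⟩ := Model.isFunctionField_X0 (L := L) (A := A) hL.surj hck
  have := hff0
  have := hffk0
  have : FF.IsFunctionField k (Model.FX k c) := Cusps.isFunctionField hck
  let hle0 : Model.FX L c → Lvl.FL G L := fun x => ⟨x, by
    have hx : (x : LaurentSeries L) ∈ Lvl.FL (Gamma0 c) L := by
      rw [Lvl.FL_Gamma0]
      change _ ∈ ModularCurve.laurentBaseChange L _
      rw [Model.fullC_eq_baseChange]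
      exact x.2
    refine IntermediateField.adjoin.mono L _ _ ?_ hx
    exact Set.image_mono (Lvl.FQ_anti _ hGc)⟩
  have hle : ModularCurve.modularFunctionFieldFullC k c ≤ KSp G π := by
    rw [← Model.specField_X0 (L := L) (A := A) hL.surj hck]
    refine IntermediateField.adjoin_le_iff.mpr ?_
    rintro _ ⟨f, hf, rfl⟩
    have e : Model.redF π (Lvl.FL G L).val.toRingHom (hle0 f) =
        Model.redF π (Model.expX L c) f := by
      rw [Model.redF_of_mem (ι := (Lvl.FL G L).val.toRingHom) (f := hle0 f) (by exact hf),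
        Model.redF_of_mem hf]
      rfl
    rw [← e]
    exact Model.redF_mem_specField π _ _
  let : Algebra (Model.FX k c) (KSp G π) :=
    (IntermediateField.inclusion hle).toRingHom.toAlgebra
  have : IsScalarTower k (Model.FX k c) (KSp G π) := IsScalarTower.of_algebraMap_eq fun _ => rfl
  have hj : algebraMap (Model.FX k c) (KSp G π) (Model.jX k c) =
      Model.redS π (Lvl.FL G L).val.toRingHom (Lvl.jL G L) := by
    refine Subtype.ext ?_
    change jqModC k = Model.redF π (Lvl.FL G L).val.toRingHom (Lvl.jL G L)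
    have := branch_redS_jL hG ι hL ((1 : SL(2, ℤ)) : Lvl.Coset G)
    have e : Model.redS π (Lvl.FL G L).val.toRingHom (Lvl.jL G L) =
        chartRed hG ι hL ⟨_, Model.self_mem_chart (Lvl.jL G L)⟩ := rfl
    rw [e, branch_chartRed, redConj_one, jb_one] at this
    exact ((qExpand k M).injective this).symm
  have hbr := isBranchFamily hG ι hL
  obtain ⟨S, hS, hSm⟩ := exists_finset_poles hG ι hL
  -- the sublevel has genus zero and enough poles of `j` in the special fibre
  have hzero : AlgebraicCurve.genusFF k (Model.FX k c) = 0 := by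
    have := MC.isFunctionField_FN c ι
    have h4 : ModularCurve.dedekindPsi 4 = 6 ∧ ModularCurve.dedekindPsi 9 = 12 :=
      ⟨MF.dedekindPsi_prime_pow Nat.prime_two 1, MF.dedekindPsi_prime_pow Nat.prime_three 1⟩
    have hcc : ModularCurve.cuspCount 4 = 3 ∧ ModularCurve.cuspCount 9 = 4 :=
      ⟨by decide, by decide⟩
    have h0g : ModularCurve.genusFormula c = 0 := by
      rcases hc with rfl | rfl
      · rw [ModularCurve.genusFormula, Model.nuTwo_eq_zero (Or.inl dvd_rfl),
          Model.nuThree_eq_zero (Or.inl dvd_rfl), h4.1, hcc.1]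
        norm_num
      · rw [ModularCurve.genusFormula, Model.nuTwo_eq_zero (Or.inr dvd_rfl),
          Model.nuThree_eq_zero (Or.inr dvd_rfl), h4.2, hcc.2]
        norm_num
    have hg0 : (AlgebraicCurve.genusFF L (Model.FX L c) : ℚ) = 0 := by
      rw [show AlgebraicCurve.genusFF L (Model.FX L c) = AlgebraicCurve.genusFF L (MC.FN c L) from
        Model.genusFF_congr (Model.fullC_eq_baseChange L c).symm, MC.genusFF_FN c ι, h0g]
    have h0 := (Model.goodModel_X0 (L := L) (A := A) hL.surj hck).genus_le
    rw [← Model.genusFF_congr (Model.specField_X0 (L := L) (A := A) hL.surj hck).symm] at h0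
    have h00 : AlgebraicCurve.genusFF L (Model.FX L c) = 0 := by exact_mod_cast hg0
    exact Nat.le_zero.mp (le_of_le_of_eq h0 h00)
  obtain ⟨P, hP, hPj⟩ : ∃ P : Finset (AlgebraicCurve.Place k (Model.FX k c)),
      (ModularCurve.dedekindPsi c : ℤ) ≤ 6 * ((P.card : ℤ) - 2) ∧
        ∀ Q ∈ P, Q.ord (Model.jX k c) < 0 := by
    rcases hc with rfl | rfl
    · obtain ⟨P, hP, hPj⟩ := Cusps.exists_three_poles (k := k) hck
      exact ⟨P, by rw [hP, show ModularCurve.dedekindPsi 4 = 6 from
        MF.dedekindPsi_prime_pow Nat.prime_two 1]; norm_num, hPj⟩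
    · obtain ⟨P, hP, hPj⟩ := Cusps.exists_four_poles (k := k) hck
      exact ⟨P, by rw [hP, show ModularCurve.dedekindPsi 9 = 12 from
        MF.dedekindPsi_prime_pow Nat.prime_three 1]; norm_num, hPj⟩
  -- Riemann–Hurwitz over it bounds the special genus below by the generic one
  have hge := Cusps.genus_ge_of_genus_zero (K := KSp G π) (Cusps.transcendental_jX (M := c))
    hzero (by rw [hj]; exact hbr.isSeparable) P hPj (by rw [Cusps.finrank_jX hck]; exact hP)
    S (fun v hv => hSm v (by rwa [hj] at hv))
  rw [hj, h.toPreModel.finrank_spec] at hge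
  have hle' := h.genus_le
  have hge' : AlgebraicCurve.genusFF L (Lvl.FL G L) ≤ AlgebraicCurve.genusFF k (KSp G π) := by
    have h1 : ((Lvl.psiG G : ℚ) - 6 * Lvl.cuspsG G) ≤
        6 * (2 * (AlgebraicCurve.genusFF k (KSp G π) : ℚ) - 2) := by
      have h2 : ((Lvl.psiG G : ℚ) - 6 * S.card) ≤
          6 * (2 * (AlgebraicCurve.genusFF k (KSp G π) : ℚ) - 2) := by exact_mod_cast hge
      have h3 : (S.card : ℚ) ≤ Lvl.cuspsG G := by exact_mod_cast hS
      linarith
    have h2 : (AlgebraicCurve.genusFF L (Lvl.FL G L) : ℚ) ≤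
        AlgebraicCurve.genusFF k (KSp G π) := by
      rw [hgL]
      linarith
    exact_mod_cast h2
  have heq : AlgebraicCurve.genusFF k (KSp G π) = AlgebraicCurve.genusFF L (Lvl.FL G L) :=
    le_antisymm hle' hge'
  exact ⟨h.normal_of_genus_eq heq, h.normal_inv_of_genus_eq heq⟩

section GammaH

variable {N : ℕ} [NeZero N] {H : Subgroup (ZMod N)ˣ} [Lvl.NegMem H]

omit [IsAlgClosed L] [Algebra ℚ L] [NeZero M] in
/-- A multiple `M` of `N` and of `4` or `9` which is invertible in `k` and large enough for the
models of level `Γ(M)`. -/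
theorem exists_aux_level (hπ : Function.Surjective π) (hN : (N : k) ≠ 0) :
    ∃ c M : ℕ, (c = 4 ∨ c = 9) ∧ (c : k) ≠ 0 ∧ c ∣ M ∧ N ∣ M ∧ LevelOK π M ∧ M ≠ 0 := by
  obtain ⟨c, hc0, hc, hc49⟩ := RED.Model.exists_four_or_nine_ne_zero k
  refine ⟨c, c * c * N, hc49, hc, dvd_mul_of_dvd_left (dvd_mul_right c c) N,
    dvd_mul_left N (c * c), ⟨hπ, ?_, ?_⟩, mul_ne_zero (mul_ne_zero hc0 hc0) (NeZero.ne N)⟩
  · push_cast
    exact mul_ne_zero (mul_ne_zero hc hc) hN
  · have := Nat.pos_of_neZero N
    rcases hc49 with rfl | rfl <;> omega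

include ι in
omit [NeZero M] in
/-- Good reduction of `X_H(N)` at the primes not dividing `N`. -/
theorem goodModel_normal_GammaH (hπ : Function.Surjective π) (hN : (N : k) ≠ 0) :
    Model.GoodModel π (Lvl.FL (Lvl.GammaH N H) L).val.toRingHom (Lvl.jL (Lvl.GammaH N H) L)
        (Lvl.psiG (Lvl.GammaH N H)) ∧
      Model.Normal A π (Lvl.FL (Lvl.GammaH N H) L).val.toRingHom (Lvl.jL (Lvl.GammaH N H) L) ∧
      Model.Normal A π (Lvl.FL (Lvl.GammaH N H) L).val.toRingHom
        (Lvl.jL (Lvl.GammaH N H) L)⁻¹ := by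
  have : CharZero L := charZero_of_injective_algebraMap (algebraMap ℚ L).injective
  obtain ⟨c, M, hc, hck, hcM, hNM, hL, hM0⟩ := exists_aux_level (π := π) hπ hN
  have : NeZero M := ⟨hM0⟩
  have : NeZero c := ⟨by rcases hc with rfl | rfl <;> norm_num⟩
  set H' := H.comap (ZMod.unitsMap hNM)
  have hG : Gamma M ≤ Lvl.GammaH N H :=
    (Lvl.Gamma_le_of_dvd hNM).trans Lvl.Gamma_le_GammaH
  have hG' : Gamma M ≤ Lvl.GammaH M H' := Lvl.Gamma_le_GammaH
  have hle : Lvl.GammaH M H' ≤ Lvl.GammaH N H := by
    rw [← Lvl.GammaH_inf_Gamma0 hNM]; exact inf_le_left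
  have hGc : Lvl.GammaH M H' ≤ Gamma0 c := fun γ hγ => by
    have h0 := Lvl.GammaH_le_Gamma0 hγ
    rw [Gamma0_mem, ZMod.intCast_zmod_eq_zero_iff_dvd] at h0 ⊢
    exact (Int.natCast_dvd_natCast.mpr hcM).trans h0
  have h := goodModel_FL hG ι hL
  have h' := goodModel_FL hG' ι hL
  -- the level `M` inside `Γ₀(c)` is normal, and normality descends
  obtain ⟨n1, n2⟩ := normal_FL_aux hG' ι hL hc hck hGc
  set i : Lvl.FL (Lvl.GammaH N H) L →ₐ[L] Lvl.FL (Lvl.GammaH M H') L :=
    (Lvl.inclMap hle).mapL ι
  have hi : (Lvl.FL (Lvl.GammaH N H) L).val.toRingHom =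
      (Lvl.FL (Lvl.GammaH M H') L).val.toRingHom.comp i.toRingHom :=
    RingHom.ext fun x => (Lvl.coe_mapL_inclMap hle ι x).symm
  have hj : i (Lvl.jL (Lvl.GammaH N H) L) = Lvl.jL (Lvl.GammaH M H') L :=
    Subtype.ext (Lvl.coe_mapL_inclMap hle ι _)
  exact ⟨h, Model.normal_of_algHom i hi hj h h' n1,
    Model.normal_of_algHom i hi (by rw [map_inv₀, hj]) h.inv h'.inv n2⟩

end GammaH

end Fermat.RED.Full
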