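import Fermat.Agent.RED.Model.Basic
import Fermat.Agent.RED.Laurent

/-!
# Complex series with coefficients in a valuation ring

For `ι : L →+* ℂ` and a valuation subring `A` of `L`, the complex Laurent series with coefficients
in `ι A`, their reduction, twists by units and inversion. The analytic counterpart of
`RED/Model/IntSeries` used throughout `RED/Full`.
-/

set_option autoImplicit false

noncomputable section

open ModularCurve

namespace Fermat.RED.Full

variable {L : Type*} [Field L] (ι : L →+* ℂ) (A : ValuationSubring L)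

/-- The inclusion of the valuation ring in `ℂ`. -/
def coefHom : A →+* ℂ := ι.comp A.subtype

/-- `coefHom` is injective. -/
theorem coefHom_injective : Function.Injective (coefHom ι A) :=
  ι.injective.comp Subtype.val_injective

/-- The series with all coefficients in the image of `A`. -/
def intC : Subring (LaurentSeries ℂ) := (coeffMap (coefHom ι A)).range

/-- Series over `A` as complex series. -/
def intCEquiv : LaurentSeries A ≃+* intC ι A :=
  RingEquiv.ofBijective (coeffMap (coefHom ι A)).rangeRestrict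
    ⟨fun _ _ h => Fermat.RED.coeffMap_injective _ (coefHom_injective ι A) (congrArg Subtype.val h),
      RingHom.rangeRestrict_surjective _⟩

variable {ι A}

/-- Membership is coefficientwise. -/
theorem mem_intC_iff {f : LaurentSeries ℂ} :
    f ∈ intC ι A ↔ ∀ n, f.coeff n ∈ (coefHom ι A).range := by
  refine ⟨fun ⟨y, hy⟩ n => ⟨y.coeff n, by rw [← hy, coeffMap_coeff]⟩, fun h => ?_⟩
  choose a ha using h
  refine ⟨⟨a, f.isPWO_support.mono fun n hn => ?_⟩, ?_⟩
  · simp only [Function.mem_support, ne_eq] at hn ⊢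
    intro h0
    exact hn (coefHom_injective ι A (by rw [ha, map_zero]; exact h0))
  · ext n
    exact ha n

/-- For series over `L`, the two notions of integrality agree. -/
theorem coeffMap_mem_intC_iff {f : LaurentSeries L} :
    coeffMap ι f ∈ intC ι A ↔ f ∈ Model.intSeries A := by
  rw [mem_intC_iff, Model.mem_intSeries_iff]
  refine forall_congr' fun n => ⟨fun ⟨a, ha⟩ => ?_, fun h => ⟨⟨_, h⟩, rfl⟩⟩
  rw [coeffMap_coeff] at ha
  exact ι.injective ha ▸ a.2

/-- Integral constants. -/
theorem algebraMap_mem_intC (a : A) : algebraMap ℂ (LaurentSeries ℂ) (ι a) ∈ intC ι A :=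
  ⟨HahnSeries.single 0 a, by
    rw [coeffMap_single, algebraMap_laurentSeries_eq_single]; rfl⟩

/-- `q ↦ q^N` preserves integrality. -/
theorem qExpand_mem_intC (N : ℕ) [NeZero N] {f : LaurentSeries ℂ} (h : f ∈ intC ι A) :
    qExpand ℂ N f ∈ intC ι A := by
  obtain ⟨y, rfl⟩ := h
  exact ⟨qExpand A N y, coeffMap_qExpand _ _ _⟩

/-- Twisting by a unit preserves integrality. -/
theorem twist_mem_intC {c : ℂˣ} {a : Aˣ} (hc : (c : ℂ) = ι (a : A)) {f : LaurentSeries ℂ}
    (h : f ∈ intC ι A) : twist c f ∈ intC ι A := by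
  obtain ⟨y, rfl⟩ := h
  refine ⟨twist a y, ?_⟩
  rw [coeffMap_twist]
  exact congrArg (fun d => twist d _) (Units.ext hc.symm)

variable {k : Type*} [Field k] (π : A →+* k)

variable (ι) in
/-- Coefficientwise reduction. -/
def redC : intC ι A →+* LaurentSeries k := (coeffMap π).comp (intCEquiv ι A).symm.toRingHom

/-- The reduction of a series over `A`. -/
theorem redC_coeffMap (y : LaurentSeries A) (h : coeffMap (coefHom ι A) y ∈ intC ι A) :
    redC ι π ⟨_, h⟩ = coeffMap π y := by
  rw [show (⟨_, h⟩ : intC ι A) = intCEquiv ι A y from rfl]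
  simp [redC]

/-- The reduction depends only on the series. -/
theorem redC_congr {f g : intC ι A} (h : (f : LaurentSeries ℂ) = g) : redC ι π f = redC ι π g :=
  congrArg _ (Subtype.ext h)

/-- Reduction commutes with twists. -/
theorem redC_twist {c : ℂˣ} {a : Aˣ} (hc : (c : ℂ) = ι (a : A)) (f : intC ι A) :
    redC ι π ⟨twist c f, twist_mem_intC hc f.2⟩ =
      twist (Units.map (π : A →* k) a) (redC ι π f) := by
  obtain ⟨y, hy⟩ := f.2
  rw [show redC ι π f = redC ι π ⟨_, y, rfl⟩ from redC_congr π hy.symm, redC_coeffMap,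
    ← coeffMap_twist, ← redC_coeffMap (ι := ι) π (twist a y) ⟨_, rfl⟩]
  refine redC_congr π ?_
  change twist c (f : LaurentSeries ℂ) = coeffMap (coefHom ι A) (twist a y)
  rw [coeffMap_twist, hy]
  exact congrArg (fun d => twist d _) (Units.ext hc)

variable {π}

/-- A series whose lowest coefficient is a unit of `A` is invertible in `intC`. -/
theorem inv_mem_intC {f : LaurentSeries ℂ} (hf : f ∈ intC ι A) {n : ℤ} {a : A} (ha : IsUnit a)
    (hn : f.coeff n = ι a) (hlt : ∀ m < n, f.coeff m = 0) : f⁻¹ ∈ intC ι A := by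
  obtain ⟨y, rfl⟩ := hf
  have hyn : y.coeff n = a := coefHom_injective ι A (by rw [← coeffMap_coeff, hn]; rfl)
  have hy0 : ∀ m < n, y.coeff m = 0 := fun m hm =>
    coefHom_injective ι A (by rw [map_zero, ← coeffMap_coeff, hlt m hm])
  have hne : y.coeff n ≠ 0 := fun h => ha.ne_zero (hyn ▸ h)
  have hy : y ≠ 0 := fun h => hne (by rw [h]; rfl)
  have hord : y.order = n := le_antisymm (HahnSeries.order_le_of_coeff_ne_zero hne) (by
    by_contra h
    exact hy (HahnSeries.coeff_order_eq_zero.mp (hy0 _ (not_le.mp h))))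
  obtain ⟨u, rfl⟩ : IsUnit y := by
    rw [HahnSeries.isUnit_iff, HahnSeries.leadingCoeff_eq, hord, hyn]
    exact ha
  refine ⟨((u⁻¹ : (LaurentSeries A)ˣ) : LaurentSeries A), ?_⟩
  rw [← map_units_inv (coeffMap (coefHom ι A)) u]

end Fermat.RED.Full
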