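import Fermat.Agent.JAC.XH.Eisen4
import Fermat.Agent.JAC.XH.FrickeSeries
import Fermat.Agent.MC.Lvl.Generator
import Fermat.Agent.RED.Full.IntC

/-!
# Eisenstein functions of level `Γ(M)` have integral expansions

The weight zero functions attached to nonzero vectors of `(ℤ/M)²`, permuted by `SL(2, ℤ)`, and the
integrality over `A` of the coefficients of their expansions when `M` is invertible in the residue
field.
-/

set_option autoImplicit false

noncomputable section

open Complex Function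
open UpperHalfPlane hiding I
open scoped MatrixGroups Manifold Topology Matrix

namespace Fermat.RED.Full

open Fermat.MC Fermat.JAC.XH

variable {M : ℕ} [NeZero M]

/-- The row vectors over `ℤ / M`. -/
abbrev Vec (M : ℕ) := Fin 2 → ZMod M

/-- The reduction of a matrix modulo `M`. -/
abbrev redMat (M : ℕ) (γ : SL(2, ℤ)) : Matrix (Fin 2) (Fin 2) (ZMod M) :=
  (γ : Matrix (Fin 2) (Fin 2) ℤ).map ((↑) : ℤ → ZMod M)

omit [NeZero M] in
/-- Reduction of matrices is multiplicative. -/
theorem redMat_mul (γ δ : SL(2, ℤ)) : redMat M (γ * δ) = redMat M γ * redMat M δ := by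
  rw [redMat, Matrix.SpecialLinearGroup.coe_mul]
  exact (Matrix.map_mul (f := Int.castRingHom (ZMod M)))

omit [NeZero M] in
/-- The reduction of `1`. -/
theorem redMat_one : redMat M 1 = 1 := by
  rw [redMat, Matrix.SpecialLinearGroup.coe_one]
  exact Matrix.map_one _ Int.cast_zero Int.cast_one

omit [NeZero M] in
/-- Elements of `Γ(M)` reduce to `1`. -/
theorem redMat_of_mem {γ : SL(2, ℤ)} (h : γ ∈ CongruenceSubgroup.Gamma M) : redMat M γ = 1 := by
  obtain ⟨h00, h01, h10, h11⟩ := CongruenceSubgroup.Gamma_mem.mp h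
  ext i j
  rw [redMat, Matrix.map_apply]
  fin_cases i <;> fin_cases j <;> first | exact h00 | exact h01 | exact h10 | exact h11

/-- The weight zero function of the class `a`. -/
def eisFun (M : ℕ) [NeZero M] (a : Vec M) : ℍ → ℂ :=
  fun z => (eisK M)⁻¹ * G4 M a z * Lvl.wFour z

/-- `SL(2, ℤ)` permutes the Eisenstein functions through the right action on vectors. -/
theorem eisFun_smul (γ : SL(2, ℤ)) (a : Vec M) (z : ℍ) :
    eisFun M a (γ • z) = eisFun M (a ᵥ* redMat M γ) z := by
  have h := congrFun (G4_slash a γ) z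
  rw [ModularForm.SL_slash_apply, zpow_neg,
    mul_inv_eq_iff_eq_mul₀ (zpow_ne_zero _ (denom_ne_zero γ z))] at h
  have e : a ᵥ* redMat M γ = a ᵥ* ((Matrix.SpecialLinearGroup.map (Int.castRingHom (ZMod M)) γ :
      Matrix.SpecialLinearGroup (Fin 2) (ZMod M)) : Matrix (Fin 2) (Fin 2) (ZMod M)) := rfl
  simp only [eisFun, h, Lvl.wFour_smul, e]
  field_simp [denom_ne_zero γ z]

/-- Eisenstein functions have exponential growth. -/
theorem expGrowth_eisFun (a : Vec M) : ExpGrowth (eisFun M a) :=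
  ((ExpGrowth.const _).mul (ExpGrowth.of_isBoundedAtImInfty (isBoundedAtImInfty_G4 a))).mul
    Lvl.expGrowth_wFour

/-- Eisenstein functions have level `Γ(M)`. -/
theorem eisFun_mem (a : Vec M) : eisFun M a ∈ Lvl.W (CongruenceSubgroup.Gamma M) := by
  have hcomp : ∀ γ : SL(2, ℤ), compSL γ (eisFun M a) = eisFun M (a ᵥ* redMat M γ) := fun γ =>
    funext fun z => eisFun_smul γ a z
  refine ⟨(mdifferentiable_const.mul (mdiff_G4 a)).mul Lvl.mdiff_wFour, fun γ hγ => ?_, fun γ => ?_⟩
  · rw [hcomp, redMat_of_mem hγ, Matrix.vecMul_one]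
  · rw [hcomp]; exact expGrowth_eisFun _

/-- The normalised Eisenstein series in `z ↦ M z`. -/
def eisU (M : ℕ) [NeZero M] (a : Vec M) : ℍ → ℂ :=
  fun z => (eisK M)⁻¹ * G4 M a (affH (posN M) 0 z)

/-- The normalised series are bounded and periodic. -/
theorem bddPer_eisU (a : Vec M) : BddPer (eisU M a) := by
  refine ⟨?_, periodic_ext_of_vadd fun z => ?_, ?_⟩
  · exact mdifferentiable_const.mul (mdiff_comp_affH (mdiff_G4 _) _ _)
  · rw [eisU, eisU, show affH (posN M) 0 ((1 : ℝ) +ᵥ z) = (M : ℝ) +ᵥ affH (posN M) 0 z from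
      UpperHalfPlane.ext (by simp [coe_affH, posN]; ring), G4_vadd_natCast]
  · exact (Filter.const_boundedAtFilter _ _).mul
      ((isBoundedAtImInfty_G4 _).comp_tendsto (tendsto_affH _ _))

/-- The coefficients of `eisU M a`. -/
def eisUCoeff (M : ℕ) [NeZero M] (a : Vec M) (n : ℕ) : ℂ :=
  (if n = 0 ∧ a 0 = 0 then eisConst M ((a 1).val : ℤ) else 0) +
    ∑ x ∈ n.divisorsAntidiagonal, (x.2 : ℂ) ^ 3 * rowWeight M a ((a 1).val : ℤ) x.1 x.2

/-- The coefficients of the expansion of an Eisenstein function. -/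
theorem coeff_qS_eisU {a : Vec M} (n : ℕ) :
    (qS (eisU M a)).coeff n = eisUCoeff M a n := by
  set r : ℤ := ((a 1).val : ℤ)
  have hr : (r : ZMod M) = a 1 := by simp [r]
  refine coeff_qS_eq (bddPer_eisU a) (c := eisUCoeff M a) (fun z => ?_) n
  have h0 := G4_eq M a r hr (affH (posN M) 0 z)
  have hq : ((affH (posN M) 0 z : ℍ) : ℂ) / M = (z : ℂ) := by
    rw [coe_affH]
    simp [posN]
    field_simp [(Nat.cast_ne_zero.mpr (NeZero.ne M) : (M : ℂ) ≠ 0)]
  rw [hq] at h0
  have h := hasSum_divisors 3 (fun c k => rowWeight M a r c k) (norm_rowWeight_le M _ _) z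
  have hc : (if a 0 = 0 then rowSum M 0 r (affH (posN M) 0 z) else 0) =
      eisK M * if a 0 = 0 then eisConst M r else 0 := by
    split_ifs
    · exact rowSum_zero M r _
    · rw [mul_zero]
  rw [hc, ← mul_add] at h0
  rw [eisU, h0, ← mul_assoc, inv_mul_cancel₀ (eisK_ne_zero M), one_mul]
  refine ((hasSum_ite_eq (0 : ℕ) (if a 0 = 0 then eisConst M r else 0)).add h).congr_fun fun m => ?_
  rw [eisUCoeff, add_mul]
  congr 1
  by_cases hm : m = 0 <;> simp [hm, r]

section Integral

variable {L : Type*} [Field L] [IsAlgClosed L] {ι : L →+* ℂ} {A : ValuationSubring L}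
variable {k : Type*} [Field k] {π : A →+* k}

variable (ι A) in
omit [NeZero M] in
/-- The `M`-th roots of unity come from units of `A`. -/
theorem exists_unit_of_pow_eq_one {c : ℂ} (hM : M ≠ 0) (hc : c ^ M = 1) :
    ∃ a : Aˣ, ι (a : A) = c ∧ a ^ M = 1 := by
  have hs := IsAlgClosed.splits ((Polynomial.X : Polynomial L) ^ M - Polynomial.C 1)
  have hmon := Polynomial.monic_X_pow_sub_C (1 : L) hM
  obtain ⟨x, hx, rfl⟩ : ∃ x : L, x ^ M = 1 ∧ ι x = c := by
    have hroot : c ∈ (((Polynomial.X : Polynomial L) ^ M - Polynomial.C 1).map ι).roots := by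
      rw [Polynomial.mem_roots (Polynomial.map_ne_zero hmon.ne_zero)]
      simp [Polynomial.IsRoot, hc]
    rw [hs.roots_map] at hroot
    obtain ⟨x, hx, rfl⟩ := Multiset.mem_map.mp hroot
    rw [Polynomial.mem_roots hmon.ne_zero] at hx
    exact ⟨x, by simpa [Polynomial.IsRoot, sub_eq_zero] using hx, rfl⟩
  have hxA : x ∈ A := by
    rw [← A.valuation_le_one_iff]
    have : A.valuation x ^ M = 1 := by rw [← map_pow, hx, map_one]
    exact (((pow_eq_one_iff).mp this).resolve_right hM).le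
  have h1 : (⟨x, hxA⟩ : A) ^ M = 1 := Subtype.ext hx
  exact ⟨Units.ofPowEqOne _ M h1 hM, rfl, Units.ext (by simp)⟩

/-- `exp (2 π i r / M)` is an `M`-th root of unity. -/
theorem qz_div_pow (r : ℤ) : qz ((r : ℂ) / M) ^ M = 1 := by
  rw [qz_pow, qz, show (2 * Real.pi * I) * ((M : ℂ) * ((r : ℂ) / M)) = r * (2 * Real.pi * I) by
    field_simp [(Nat.cast_ne_zero.mpr (NeZero.ne M) : (M : ℂ) ≠ 0)]]
  exact Complex.exp_int_mul_two_pi_mul_I r

variable (hπ : Surjective π) (hM : (M : k) ≠ 0)
include hπ hM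

omit [IsAlgClosed L] [NeZero M] in
/-- Division by `4 M` keeps `(j (M - j)) ^ 2` integral. -/
theorem exists_quarter (j : ℕ) :
    ∃ b : A, (ι b : ℂ) * (4 * M) = (((j * (M - j)) ^ 2 : ℕ) : ℂ) := by
  have hMu : IsUnit (M : A) :=
    Model.isUnit_of_map_ne_zero hπ (by rwa [map_natCast])
  obtain ⟨u, hu⟩ := hMu.exists_right_inv
  have huC : (M : ℂ) * ι u = 1 := by
    have := congrArg (coefHom ι A) hu
    rw [map_mul, map_natCast, map_one] at this
    exact this
  have hco : ∀ x : A, ι (x : L) = coefHom ι A x := fun _ => rfl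
  -- divide by `4`: in residue characteristic two `M` is odd, so `j (M - j)` is even
  obtain ⟨v, hv⟩ : ∃ v : A, ι v * 4 = (((j * (M - j)) ^ 2 : ℕ) : ℂ) := by
    by_cases h2 : (2 : k) = 0
    · have hodd : Odd M := Nat.not_even_iff_odd.mp fun ⟨t, ht⟩ => hM (by
        rw [ht, ← two_mul, Nat.cast_mul, Nat.cast_two, h2, zero_mul])
      obtain ⟨t, ht⟩ : 2 ∣ j * (M - j) := by
        rcases Nat.even_or_odd j with he | ho
        · exact Dvd.dvd.mul_right he.two_dvd _
        · exact Dvd.dvd.mul_left (Nat.Odd.sub_odd hodd ho).two_dvd _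
      refine ⟨((t ^ 2 : ℕ) : A), ?_⟩
      rw [ht]
      rw [hco, map_natCast]
      push_cast
      ring
    · have h4u : IsUnit (2 : A) := Model.isUnit_of_map_ne_zero hπ (by rwa [map_ofNat])
      obtain ⟨w, hw⟩ := h4u.exists_right_inv
      have hwC : (2 : ℂ) * ι w = 1 := by
        have := congrArg (coefHom ι A) hw
        rw [map_mul, map_ofNat, map_one] at this
        exact this
      refine ⟨(((j * (M - j)) ^ 2 : ℕ) : A) * w * w, ?_⟩
      rw [hco, map_mul, map_mul, map_natCast, ← hco]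
      linear_combination ((((j * (M - j)) ^ 2 : ℕ) : ℂ) * (2 * ι w + 1)) * hwC
  -- divide by the unit `M`
  refine ⟨v * u, ?_⟩
  rw [MulMemClass.coe_mul, map_mul, show ι v * ι u * (4 * (M : ℂ)) = ι v * 4 * (M * ι u) by ring,
    huC, mul_one, hv]

/-- The constant terms are integral for `M` invertible in the residue field. -/
theorem eisConst_mem {r : ℤ} (hr : (r : ZMod M) ≠ 0) : eisConst M r ∈ (coefHom ι A).range := by
  -- the fourth Bernoulli polynomial
  have hB : ∀ x : ℚ, (Polynomial.bernoulli 4).eval x = x ^ 4 - 2 * x ^ 3 + x ^ 2 - 1 / 30 := by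
    intro x
    rw [Polynomial.bernoulli_def]
    simp [Finset.sum_range_succ, bernoulli_eq_bernoulli'_of_ne_one,
      bernoulli'_two, bernoulli'_three, bernoulli'_four, Nat.choose]
    ring
  set w := qz (-(r : ℂ) / M)
  have hMC : (M : ℂ) ≠ 0 := Nat.cast_ne_zero.mpr (NeZero.ne M)
  -- the root of unity `w` is not `1`, so its powers sum to zero
  have hsum : ∑ j ∈ Finset.range M, w ^ j = 0 := by
    have := sum_qz_div M (-r)
    rw [if_neg (by simpa using hr)] at this
    simpa [w] using this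
  -- hence the constant `-1 / 30` of the polynomial drops out
  have key : eisConst M r =
      -∑ j ∈ Finset.range M, w ^ j * ((((j * (M - j)) ^ 2 : ℕ) : ℂ) / (4 * M)) := by
    rw [eisConst, neg_mul, neg_inj, Finset.mul_sum]
    have hrw : ∀ j ∈ Finset.range M,
        (M : ℂ) ^ 3 / 4 * (w ^ j * (((Polynomial.bernoulli 4).eval ((j : ℚ) / M) : ℚ) : ℂ)) =
          w ^ j * ((((j * (M - j)) ^ 2 : ℕ) : ℂ) / (4 * M)) - (M : ℂ) ^ 3 / 120 * w ^ j := by
      intro j hj
      rw [hB, Nat.cast_pow, Nat.cast_mul, Nat.cast_sub (Finset.mem_range.mp hj).le]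
      push_cast
      field_simp
      ring
    rw [Finset.sum_congr rfl hrw, Finset.sum_sub_distrib, ← Finset.mul_sum _ _ ((M : ℂ) ^ 3 / 120),
      hsum, mul_zero, sub_zero]
  -- each term is then in the image of `A`
  obtain ⟨c, hc, -⟩ := exists_unit_of_pow_eq_one ι A (M := M) (NeZero.ne M)
    (c := w) (by have := qz_div_pow (M := M) (-r); rwa [Int.cast_neg] at this)
  rw [key]
  refine neg_mem (sum_mem fun j hj => ?_)
  obtain ⟨b, hb⟩ := exists_quarter (ι := ι) hπ hM j
  refine ⟨(c : A) ^ j * b, ?_⟩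
  rw [map_mul, map_pow]
  rw [show coefHom ι A (c : A) = w from hc, show coefHom ι A b = ι b from rfl, ← hb,
    mul_div_cancel_right₀ _ (mul_ne_zero (by norm_num : (4 : ℂ) ≠ 0) hMC)]

/-- The coefficients are integral for `M` invertible in the residue field. -/
theorem eisUCoeff_mem {a : Vec M} (ha : a ≠ 0) (n : ℕ) :
    eisUCoeff M a n ∈ (coefHom ι A).range := by
  have hq : ∀ r : ℤ, ∀ j : ℕ, qz ((r : ℂ) / M) ^ j ∈ (coefHom ι A).range := fun r j => by
    obtain ⟨c, hc, -⟩ := exists_unit_of_pow_eq_one ι A (M := M) (NeZero.ne M) (qz_div_pow r)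
    exact ⟨(c : A) ^ j, by rw [map_pow]; exact congrArg (· ^ j) hc⟩
  refine add_mem ?_ (sum_mem fun x _ => mul_mem (pow_mem (natCast_mem _ _) _) (add_mem ?_ ?_))
  · split_ifs with h
    · refine eisConst_mem hπ hM fun h1 => ha ?_
      funext i
      fin_cases i
      · exact h.2
      · simpa using h1
    · exact zero_mem _
  · split_ifs
    · exact hq _ _
    · exact zero_mem _
  · split_ifs
    · rw [← Int.cast_neg]; exact hq _ _
    · exact zero_mem _

/-- The expansions are integral. -/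
theorem qS_eisU_mem {a : Vec M} (ha : a ≠ 0) : qS (eisU M a) ∈ intC ι A := by
  rw [mem_intC_iff]
  intro n
  rcases lt_or_ge n 0 with hn | hn
  · rw [qS, ModularCurve.ofPowerSeries_coeff_of_neg _ hn]; exact zero_mem _
  · lift n to ℕ using hn
    rw [coeff_qS_eisU]
    exact eisUCoeff_mem hπ hM ha n

end Integral

end Fermat.RED.Full
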