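import Fermat.Agent.RED.Full.Eisen
import Fermat.Agent.MC.Lvl.Field
import Fermat.Agent.RED.Model.X0

/-!
# The field of level `Γ(M)` with its group and expansion

The field of modular functions of level `Γ(M)`, the finite group by which `SL(2, ℤ)` acts on it,
the expansion in `q^(1/M)`, and the functions `jK` and `yK` attached to `j` and to the classes.
-/

set_option autoImplicit false

noncomputable section

open Complex hiding Gamma
open Function
open UpperHalfPlane hiding I
open ModularCurve (coeffEmb qExpand jq)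
open scoped MatrixGroups Manifold Matrix

local notation "Δ" => ModularForm.discriminant

namespace Fermat.RED.Full

open Fermat.MC CongruenceSubgroup

/-- `exp (2 π i t)` as a unit. -/
def qParU (t : ℝ) : ℂˣ := Units.mk0 (Periodic.qParam 1 (t : ℂ)) (Periodic.qParam_ne_zero _)

/-- Translation twists the expansion of a periodic function. -/
theorem qS_trH_eq {F : ℍ → ℂ} (hF : BddPer F) (t : ℝ) :
    qS (F ∘ trH t) = twist (qParU t) (qS F) := by
  ext n
  rw [twist_coeff, qS_trH_coeff_eq hF]
  simp [qParU, mul_comm]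

/-- Translation twists the series of a periodic function. -/
theorem qL_trH_eq (g : perAlg) (t : ℝ) :
    qL ⟨(g : ℍ → ℂ) ∘ trH t, mem_perAlg_trH g.2 t⟩ = twist (qParU t) (qL g) := by
  obtain ⟨n, hn⟩ := exists_isBoundedAtImInfty_mul_discriminant_pow g.2.2.2
  have hG := bddPer_mul_discriminant_pow g.2 hn
  set gt : perAlg := ⟨(g : ℍ → ℂ) ∘ trH t, mem_perAlg_trH g.2 t⟩
  set D : perAlg := ⟨Δ, bddPer_discriminant.mem_perAlg⟩
  set Dt : perAlg := ⟨Δ ∘ trH t, (bddPer_discriminant.trH t).mem_perAlg⟩
  have hDt : qL Dt = twist (qParU t) (qL D) := by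
    rw [qL_eq_qS (bddPer_discriminant.trH t), qL_eq_qS bddPer_discriminant]
    exact qS_trH_eq bddPer_discriminant t
  have e1 : qL (gt * Dt ^ n) = twist (qParU t) (qL (g * D ^ n)) := by
    rw [show qL (g * D ^ n) = qS ((g : ℍ → ℂ) * Δ ^ n) by
        rw [← qL_eq_qS hG]; exact congrArg qL (Subtype.ext rfl),
      ← qS_trH_eq hG t, ← qL_eq_qS (hG.trH t)]
    exact congrArg qL (Subtype.ext rfl)
  rw [map_mul, map_pow, map_mul qL, map_pow qL, map_mul, map_pow, hDt] at e1
  refine mul_right_cancel₀ (pow_ne_zero n ((_root_.map_ne_zero _).mpr ?_)) e1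
  rw [qL_eq_qS bddPer_discriminant]
  exact qS_discriminant_ne_zero

variable (M : ℕ) [NeZero M]

/-- Modular functions of level `Γ(M)` without poles on the upper half plane. -/
abbrev WM : Type := Lvl.W (Gamma M)

/-- The field of modular functions of level `Γ(M)`. -/
abbrev KM : Type := Lvl.KW (Gamma M)

variable {M}

omit [NeZero M] in
/-- `SL(2, ℤ)` preserves the functions of level `Γ(M)`. -/
theorem compSL_mem {f : ℍ → ℂ} (hf : f ∈ Lvl.W (Gamma M)) (γ : SL(2, ℤ)) :
    compSL γ f ∈ Lvl.W (Gamma M) := by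
  refine ⟨mdiff_compSL γ hf.1, fun δ hδ => ?_, fun δ => by rw [← compSL_mul]; exact hf.2.2 _⟩
  have h := hf.2.1 _ ((Gamma_normal M).conj_mem δ hδ γ)
  calc compSL δ (compSL γ f) = compSL (γ * δ) f := (compSL_mul γ δ f).symm
    _ = compSL (γ * δ * γ⁻¹ * γ) f := by rw [inv_mul_cancel_right]
    _ = compSL γ f := by rw [compSL_mul, h]

/-- Composition with `γ`. -/
def compW (γ : SL(2, ℤ)) : WM M →ₐ[ℂ] WM M where
  toFun f := ⟨compSL γ f, compSL_mem f.2 γ⟩
  map_one' := rfl
  map_mul' _ _ := rfl
  map_zero' := rfl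
  map_add' _ _ := rfl
  commutes' _ := rfl

omit [NeZero M] in
/-- Composition is an anti-action. -/
theorem compW_mul (γ δ : SL(2, ℤ)) (f : WM M) : compW (γ * δ) f = compW δ (compW γ f) :=
  Subtype.ext (compSL_mul γ δ _)

omit [NeZero M] in
/-- Composition with `1`. -/
theorem compW_one (f : WM M) : compW 1 f = f :=
  Subtype.ext (funext fun z => by simp [compW, compSL])

omit [NeZero M] in
/-- `Γ(M)` acts trivially. -/
theorem compW_of_mem {γ : SL(2, ℤ)} (h : γ ∈ Gamma M) (f : WM M) : compW γ f = f :=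
  Subtype.ext (f.2.2.1 γ h)

/-- `γ` acting by `f ↦ f ∘ γ⁻¹`. -/
def actWEquiv (γ : SL(2, ℤ)) : WM M ≃+* WM M where
  toFun := compW γ⁻¹
  invFun := compW γ
  left_inv f := by rw [← compW_mul, inv_mul_cancel, compW_one]
  right_inv f := by rw [← compW_mul, mul_inv_cancel, compW_one]
  map_mul' := map_mul _
  map_add' := map_add _

variable (M)

/-- The action of one element on the field. -/
def actKEquiv (γ : SL(2, ℤ)) : KM M ≃+* KM M :=
  IsFractionRing.ringEquivOfRingEquiv (K := KM M) (L := KM M) (actWEquiv (M := M) γ)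

variable {M}

omit [NeZero M] in
/-- The action on functions without poles. -/
theorem actKEquiv_algebraMap (γ : SL(2, ℤ)) (f : WM M) :
    actKEquiv M γ (algebraMap (WM M) (KM M) f) = algebraMap (WM M) (KM M) (compW γ⁻¹ f) :=
  IsFractionRing.ringEquivOfRingEquiv_algebraMap (K := KM M) (L := KM M) (actWEquiv γ) f

omit [NeZero M] in
/-- Automorphisms agreeing on functions without poles are equal. -/
theorem actK_ext {e e' : KM M ≃+* KM M}
    (h : ∀ f : WM M, e (algebraMap (WM M) (KM M) f) = e' (algebraMap (WM M) (KM M) f)) : e = e' :=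
  RingEquiv.toRingHom_injective
    (IsFractionRing.ringHom_ext (A := WM M) (K := KM M) fun f => h f)

variable (M)

/-- The action on the field. -/
def actK : SL(2, ℤ) →* (KM M ≃+* KM M) where
  toFun := actKEquiv M
  map_one' := actK_ext fun f => by
    rw [actKEquiv_algebraMap, inv_one, compW_one]
    rfl
  map_mul' γ δ := actK_ext fun f => by
    rw [RingAut.mul_apply, actKEquiv_algebraMap, actKEquiv_algebraMap, actKEquiv_algebraMap,
      mul_inv_rev, compW_mul]

variable {M}

omit [NeZero M] in
/-- The action on functions without poles, as an element of the group. -/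
theorem actK_algebraMap (γ : SL(2, ℤ)) (f : WM M) :
    actK M γ (algebraMap (WM M) (KM M) f) = algebraMap (WM M) (KM M) (compW γ⁻¹ f) :=
  actKEquiv_algebraMap γ f

omit [NeZero M] in
/-- `Γ(M)` acts trivially on the field. -/
theorem actK_eq_one_of_mem {γ : SL(2, ℤ)} (h : γ ∈ Gamma M) : actK M γ = 1 :=
  actK_ext fun f => by
    rw [actK_algebraMap, compW_of_mem (inv_mem h)]
    rfl

omit [NeZero M] in
/-- `-1` acts trivially on the field. -/
theorem actK_neg_one : actK M (-1) = 1 :=
  actK_ext fun f => by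
    rw [actK_algebraMap]
    change algebraMap (WM M) (KM M) _ = algebraMap (WM M) (KM M) f
    refine congrArg _ (Subtype.ext (funext fun z => ?_))
    change (f : ℍ → ℂ) ((-1 : SL(2, ℤ))⁻¹ • z) = _
    simp

variable (M)

/-- The image of `SL(2, ℤ)` in the automorphisms of the field. -/
abbrev Gal : Type := (actK M).range

/-- The effective group is finite, a quotient of `SL(2, ℤ)/Γ(M)`. -/
instance : Finite (Gal M) := by
  have : (actK M).ker.FiniteIndex := Subgroup.finiteIndex_of_le (H := Gamma M) fun γ hγ =>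
    MonoidHom.mem_ker.mpr (actK_eq_one_of_mem hγ)
  exact Finite.of_equiv _ (QuotientGroup.quotientKerEquivRange (actK M)).toEquiv

/-- The effective group as a finite type, for sums over it. -/
instance : Fintype (Gal M) := Fintype.ofFinite _

/-- The class of a matrix. -/
def toGal : SL(2, ℤ) →* Gal M := (actK M).rangeRestrict

omit [NeZero M] in
/-- Every element comes from a matrix. -/
theorem toGal_surjective : Surjective (toGal M) := MonoidHom.rangeRestrict_surjective _

variable {M}

omit [NeZero M] in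
/-- The class of a matrix acts as the matrix. -/
theorem toGal_smul (γ : SL(2, ℤ)) (z : KM M) :
    (toGal M γ : KM M ≃+* KM M) z = actK M γ z := rfl

/-- `z ↦ f (M z)` is periodic. -/
theorem comp_posN_mem (f : WM M) : (f : ℍ → ℂ) ∘ affH (posN M) 0 ∈ perAlg := by
  refine mem_perAlg_of_periodic M (Lvl.W_le_Wfull _ f.2) (f.2.2.1 _ ?_)
  rw [zpow_natCast]
  simpa using ModularGroup_T_pow_mem_Gamma M M dvd_rfl

variable (M)

/-- The expansion in `q ^ (1 / M)`. -/
def phiW : WM M →+* LaurentSeries ℂ :=
  qL.toRingHom.comp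
    { toFun := fun f => ⟨_, comp_posN_mem f⟩
      map_one' := Subtype.ext (funext fun z => by simp)
      map_mul' := fun f g => Subtype.ext (funext fun z => by simp)
      map_zero' := Subtype.ext (funext fun z => by simp)
      map_add' := fun f g => Subtype.ext (funext fun z => by simp) }

variable {M}

/-- The value of the expansion. -/
theorem phiW_apply (f : WM M) : phiW M f = qL ⟨_, comp_posN_mem f⟩ := rfl

/-- The expansion is injective. -/
theorem phiW_injective : Injective (phiW M) := fun f g h => by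
  refine Subtype.ext (funext fun w => ?_)
  obtain ⟨z, rfl⟩ := affH_posN_surjective M w
  exact congrFun (congrArg Subtype.val (qL_injective h)) z

/-- The expansion of a constant. -/
theorem phiW_algebraMap (c : ℂ) : phiW M (algebraMap ℂ _ c) = algebraMap ℂ _ c := by
  rw [phiW_apply, ← qL.commutes c]
  rfl

/-- Functions of a level containing `T` expand in `q`. -/
theorem phiW_inclusion {G : Subgroup SL(2, ℤ)} [Lvl.LevelBase G] (h : Gamma M ≤ G)
    (f : Lvl.W G) :
    phiW M (Subalgebra.inclusion (Lvl.W_anti h) f) = qExpand ℂ M (Lvl.qW G f) := by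
  rw [phiW_apply, Lvl.qW_apply, ← qL_comp_posN M ⟨f, Lvl.W_le_perAlg G f.2⟩]
  rfl

/-- The primitive root of unity attached to `T`. -/
abbrev zetaU (M : ℕ) : ℂˣ := qParU ((1 : ℝ) / M)

/-- `T` twists the expansion. -/
theorem phiW_compW_T (f : WM M) :
    phiW M (compW ModularGroup.T f) = twist (zetaU M) (phiW M f) := by
  rw [phiW_apply, phiW_apply, ← qL_trH_eq]
  refine congrArg qL (Subtype.ext (funext fun z => ?_))
  change (f : ℍ → ℂ) (ModularGroup.T • affH (posN M) 0 z) = (f : ℍ → ℂ) (affH (posN M) 0 (trH _ z))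
  refine congrArg (f : ℍ → ℂ) (UpperHalfPlane.ext ?_)
  have hM : (M : ℂ) ≠ 0 := Nat.cast_ne_zero.mpr (NeZero.ne M)
  simp only [UpperHalfPlane.modular_T_smul, coe_affH, coe_vadd, coe_trH, posN]
  push_cast
  field_simp
  ring

variable (M)

/-- The expansion on the field. -/
def phiK : KM M →+* LaurentSeries ℂ :=
  IsFractionRing.lift (A := WM M) (g := phiW M) phiW_injective

variable {M}

/-- The expansion on functions without poles. -/
@[simp] theorem phiK_algebraMap (f : WM M) : phiK M (algebraMap _ (KM M) f) = phiW M f :=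
  IsFractionRing.lift_algebraMap (K := KM M) (g := phiW M) phiW_injective f

/-- `T⁻¹` twists the expansion on the field. -/
theorem phiK_actK_T (z : KM M) :
    phiK M (actK M ModularGroup.T⁻¹ z) = twist (zetaU M) (phiK M z) := by
  have key : ∀ f : WM M, phiK M (actK M ModularGroup.T⁻¹ (algebraMap (WM M) (KM M) f)) =
      twist (zetaU M) (phiK M (algebraMap (WM M) (KM M) f)) := fun f => by
    rw [actK_algebraMap, phiK_algebraMap, phiK_algebraMap, inv_inv, phiW_compW_T]
  obtain ⟨f, g, -, rfl⟩ := IsFractionRing.div_surjective (A := WM M) z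
  rw [map_div₀, map_div₀, map_div₀ (phiK M), map_div₀ (twist (zetaU M)), key, key]

variable (M)

/-- `j` in the field. -/
def jK : KM M := algebraMap (WM M) (KM M) (Lvl.jW (Gamma M))

/-- The functions attached to classes. -/
def yK (a : Vec M) : KM M := algebraMap (WM M) (KM M) ⟨eisFun M a, eisFun_mem a⟩

variable {M}

omit [NeZero M] in
/-- `j` is invariant. -/
theorem actK_jK (γ : SL(2, ℤ)) : actK M γ (jK M) = jK M := by
  rw [jK, actK_algebraMap]
  exact congrArg _ (Subtype.ext (funext fun z => jA_smul _ z))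

/-- The expansion of `j`. -/
theorem phiK_jK : phiK M (jK M) = qExpand ℂ M (coeffEmb ℂ jq) := by
  rw [jK, phiK_algebraMap, phiW_apply, ← qL_jA, ← qL_comp_posN M ⟨jA, jA_mem_perAlg⟩]
  rfl

/-- The group permutes the functions `yK`. -/
theorem actK_yK (γ : SL(2, ℤ)) (a : Vec M) :
    actK M γ (yK M a) = yK M (a ᵥ* redMat M γ⁻¹) := by
  rw [yK, actK_algebraMap]
  exact congrArg _ (Subtype.ext (funext fun z => eisFun_smul _ a z))

/-- The expansion of `yK`. -/
theorem phiK_yK (a : Vec M) :
    phiK M (yK M a) = qS (eisU M a) * qExpand ℂ M (coeffEmb ℂ (xiQ ^ 2)) := by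
  set U : perAlg := ⟨eisU M a, (bddPer_eisU a).mem_perAlg⟩
  set Wf : perAlg := ⟨Lvl.wFour, JAC.XH.wFour_mem_perAlg⟩
  have h1 : qL U = qS (eisU M a) := qL_eq_qS (bddPer_eisU a)
  have h2 : qL Wf = coeffEmb ℂ (xiQ ^ 2) := JAC.XH.qL_wFour
  set Wc : perAlg := ⟨(Wf : ℍ → ℂ) ∘ affH (posN M) 0, mem_perAlg_comp_posN M Wf.2⟩
  have h3 : qL Wc = qExpand ℂ M (qL Wf) := qL_comp_posN M Wf
  have h4 : (⟨_, comp_posN_mem ⟨eisFun M a, eisFun_mem a⟩⟩ : perAlg) = U * Wc := by
    apply Subtype.ext
    rw [MulMemClass.coe_mul]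
    funext z
    rfl
  rw [← h1, ← h2, ← h3]
  refine (phiK_algebraMap _).trans ((phiW_apply _).trans ?_)
  rw [h4, map_mul]

end Fermat.RED.Full
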