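import Fermat.Agent.RED.Full.Invariant

/-!
# The standard functions of level `Γ(M)` are integral

`j(Mz)` and the functions attached to nonzero classes are integral over `A[j]` with integral
expansions, and for `M ≥ 5` every matrix other than `±1` moves one of the classes.
-/

set_option autoImplicit false

attribute [local instance 10000] SubalgebraClass.toAlgebra HahnSeries.powerSeriesAlgebra

noncomputable section

open Polynomial
open ModularCurve (coeffEmb coeffMap qExpand jqModC)
open scoped MatrixGroups Matrix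

namespace Fermat.RED.Full

open Fermat.MC CongruenceSubgroup

variable {M : ℕ} [NeZero M]

omit [NeZero M] in
/-- `Γ(M) ≤ Γ₀(M)`. -/
theorem Gamma_le_Gamma0 : Gamma M ≤ Gamma0 M := fun _ hγ => by
  rw [Gamma0_mem]; exact (Gamma_mem.mp hγ).2.2.1

variable (M) in
/-- `j (M z)` in the field of level `Γ(M)`. -/
def jMK : KM M :=
  algebraMap (WM M) (KM M) (Subalgebra.inclusion (Lvl.W_anti Gamma_le_Gamma0)
    (⟨jN M, jN_mem_W M⟩ : Lvl.W (Gamma0 M)))

/-- The expansion of `j (M z)` in `q^(1/M)`. -/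
theorem phiK_jMK : phiK M (jMK M) = qExpand ℂ M (qExpand ℂ M (jqModC ℂ)) := by
  rw [jMK, phiK_algebraMap, phiW_inclusion Gamma_le_Gamma0]
  refine congrArg _ ((qW_jN M).trans ?_)
  rw [coeffEmb, ModularCurve.coeffMap_qExpand, ← coeffEmb, coeffEmb_jq_eq]

omit [NeZero M] in
/-- The action preserves nonzero vectors. -/
theorem vecMul_redMat_ne_zero {a : Vec M} (ha : a ≠ 0) (γ : SL(2, ℤ)) :
    a ᵥ* redMat M γ ≠ 0 := fun h => ha (by
  have := congrArg (fun w : Vec M => w ᵥ* redMat M γ⁻¹) h
  simpa [Matrix.vecMul_vecMul, ← redMat_mul, redMat_one] using this)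

variable {L : Type*} [Field L] [IsAlgClosed L] {ι : L →+* ℂ} {A : ValuationSubring L}
variable {k : Type*} [Field k] {π : A →+* k}

omit [IsAlgClosed L] in
/-- `j (M z)` is integral over `A[j]`. -/
theorem jMK_mem (hML : (M : L) ≠ 0) : jMK M ∈ intO M ι A := by
  obtain ⟨P, hP, hPJ⟩ := Model.jdX_mem_chart (A := A) M hML M dvd_rfl
  refine ⟨P, hP, (phiK M).injective ?_⟩
  have h := congrArg (fun x => qExpand ℂ M (coeffMap ι (Model.expX L M x)))
    (show P.eval₂ (Model.ax A (Model.jX L M)) (Model.jdX L M M dvd_rfl) = 0 from hPJ)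
  simp only [map_zero, hom_eval₂] at h
  rw [map_zero, hom_eval₂, phiK_jMK]
  refine Eq.trans ?_ h
  rw [Model.expX_jdX, jb_one, ModularCurve.coeffMap_qExpand, ModularCurve.coeffMap_jqModC]
  refine congrArg (fun f => eval₂ f _ P) (RingHom.ext fun D => ?_)
  change phiK M (axK M ι A D) = qExpand ℂ M
    (coeffMap ι (Model.expX L M (Model.ax A (Model.jX L M) D)))
  rw [phiK_axK, Model.ax_eq, Model.expX_aeval, coeffMap_aeval_jqModC, Polynomial.map_map]
  rfl

omit [NeZero M] in
/-- An integral power series as a series over `ℤ`. -/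
theorem intPS_eq_coeffMap (p : PowerSeries ℤ) :
    intPS p = coeffMap (Int.castRingHom ℂ) (HahnSeries.ofPowerSeries ℤ ℤ p) := by
  ext n
  rw [intPS, RingHom.comp_apply, ModularCurve.coeffMap_coeff]
  rcases lt_or_ge n 0 with hn | hn
  · simp [ModularCurve.ofPowerSeries_coeff_of_neg _ hn]
  · lift n to ℕ using hn
    simp [HahnSeries.ofPowerSeries_apply_coeff]

section Units

variable (hπ : Function.Surjective π) (hM : (M : k) ≠ 0)

omit [IsAlgClosed L] in
/-- The normalising series is a unit among the integral ones. -/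
theorem xiSq_mem :
    qExpand ℂ M (coeffEmb ℂ (xiQ ^ 2)) ∈ intC ι A ∧
      (qExpand ℂ M (coeffEmb ℂ (xiQ ^ 2)))⁻¹ ∈ intC ι A := by
  set p : PowerSeries ℤ :=
    ModularCurve.eisenstein4 * eisenstein6 * ModularCurve.dedekindEtaUnitInv
  have hp : IsUnit p := by
    rw [PowerSeries.isUnit_iff_constantCoeff, map_mul, map_mul,
      ModularCurve.constantCoeff_eisenstein4, ModularCurve.constantCoeff_dedekindEtaUnitInv]
    simp [eisenstein6]
  let ψ : LaurentSeries ℤ →+* LaurentSeries ℂ :=
    (qExpand ℂ M).comp (coeffMap (Int.castRingHom ℂ))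
  have hψ : ∀ y, ψ y ∈ intC ι A := fun y => qExpand_mem_intC M
    ⟨coeffMap (Int.castRingHom A) y, by
      rw [ModularCurve.coeffMap_coeffMap]
      exact ModularCurve.coeffMap_congr (RingHom.ext_int _ _) y⟩
  set y : LaurentSeries ℤ := (HahnSeries.single (-1 : ℤ) 1 * HahnSeries.ofPowerSeries ℤ ℤ p) ^ 2
  have hy : IsUnit y := by
    refine IsUnit.pow 2 (IsUnit.mul ?_ (hp.map (HahnSeries.ofPowerSeries ℤ ℤ)))
    exact IsUnit.of_mul_eq_one (HahnSeries.single (1 : ℤ) 1) (by
      rw [HahnSeries.single_mul_single]; simp)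
  have e : qExpand ℂ M (coeffEmb ℂ (xiQ ^ 2)) = ψ y := by
    refine (congrArg (qExpand ℂ M) (?_ : coeffEmb ℂ (xiQ ^ 2) = coeffMap (Int.castRingHom ℂ) y))
    have h1 : coeffEmb ℂ (HahnSeries.single (-1 : ℤ) (1 : ℚ)) =
        coeffMap (Int.castRingHom ℂ) (HahnSeries.single (-1 : ℤ) (1 : ℤ)) := by
      simp [coeffEmb, ModularCurve.coeffMap_single]
    rw [map_pow, map_pow, xiQ, map_mul, map_mul, coeffEmb_intPSQ, intPS_eq_coeffMap, h1]
  obtain ⟨u, hu⟩ := hy
  rw [e]
  refine ⟨hψ y, ?_⟩
  rw [← hu, ← map_units_inv ψ u]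
  exact hψ _

include hπ hM

/-- The functions `yK` have integral expansions. -/
theorem phiK_yK_mem {a : Vec M} (ha : a ≠ 0) : phiK M (yK M a) ∈ intC ι A := by
  rw [phiK_yK]
  exact mul_mem (qS_eisU_mem hπ hM ha) xiSq_mem.1

/-- The functions attached to nonzero classes are integral. -/
theorem yK_mem {a : Vec M} (ha : a ≠ 0) : yK M a ∈ intO M ι A := by
  classical
  choose γ hγ using toGal_surjective M
  -- the product over the group has invariant coefficients with integral expansions
  set Q : (WM M)[X] :=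
    ∏ g : Gal M, (X - Polynomial.C (compW (γ g)⁻¹ ⟨eisFun M a, eisFun_mem a⟩)) with hQ
  set Qk : (KM M)[X] := ∏ g : Gal M, (X - Polynomial.C ((g : KM M ≃+* KM M) (yK M a))) with hQk
  have hmap : Q.map (algebraMap (WM M) (KM M)) = Qk := by
    rw [hQ, hQk, Polynomial.map_prod]
    refine Finset.prod_congr rfl fun g _ => ?_
    rw [Polynomial.map_sub, map_X, map_C]
    conv_rhs => rw [← hγ g, toGal_smul, yK, actK_algebraMap]
  have hfix : ∀ δ n, actK M δ (Qk.coeff n) = Qk.coeff n := fun δ n => by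
    have : Qk.map (actK M δ).toRingHom = Qk := by
      rw [hQk, Polynomial.map_prod]
      simp only [Polynomial.map_sub, map_X, map_C]
      exact Fintype.prod_equiv (Equiv.mulLeft (toGal M δ)) _ _ fun g => rfl
    conv_rhs => rw [← this, coeff_map]
    rfl
  have hint : ∀ n, phiK M (Qk.coeff n) ∈ intC ι A := fun n => by
    have hl : Qk.map (phiK M) ∈ Polynomial.lifts (intC ι A).subtype := by
      rw [hQk, Polynomial.map_prod]
      refine prod_mem fun g _ => ?_
      rw [Polynomial.map_sub, map_X, map_C, ← hγ g, toGal_smul, actK_yK]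
      exact ⟨X - Polynomial.C ⟨_, phiK_yK_mem hπ hM (vecMul_redMat_ne_zero ha (γ g)⁻¹)⟩, by simp⟩
    obtain ⟨z, hz⟩ := (Polynomial.lifts_iff_coeff_lifts _).mp hl n
    rw [← coeff_map, ← hz]
    exact z.2
  have hD : ∀ n, Qk.coeff n ∈ (axK M ι A).range := fun n => by
    have hfW : ∀ δ, compW δ (Q.coeff n) = Q.coeff n := fun δ =>
      IsFractionRing.injective (WM M) (KM M) (by
        have h := hfix δ⁻¹ n
        rwa [← hmap, coeff_map, actK_algebraMap, inv_inv] at h)
    obtain ⟨P, hP⟩ := exists_poly_of_fixed _ hfW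
    have h1 := hint n
    rw [← hmap, coeff_map, hP, aeval_jK_eq] at h1
    obtain ⟨D, hD⟩ := exists_map_eq_of_mem_intC (ι := ι) (A := A) (P := P) (by
      rw [mem_intC_iff] at h1 ⊢
      exact fun m => by simpa using h1 (M * m))
    exact ⟨D, by rw [← hmap, coeff_map, hP, axK_eq, hD]⟩
  obtain ⟨P, hP, -, hPm⟩ := Polynomial.lifts_and_natDegree_eq_and_monic
    ((Polynomial.lifts_iff_coeff_lifts Qk).mpr hD) (monic_prod_X_sub_C _ _)
  refine ⟨P, hPm, ?_⟩
  rw [← eval_map]
  change eval (yK M a) (P.map (axK M ι A)) = 0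
  rw [hP, hQk, eval_prod]
  refine Finset.prod_eq_zero (Finset.mem_univ 1) ?_
  simp

end Units

/-- For `γ ≠ ±1` some vector `(1, x) γ` has nonzero first entry and differs from `±(1, x)`. -/
theorem exists_vec_move (hM5 : 5 ≤ M) {γ : Matrix (Fin 2) (Fin 2) (ZMod M)} (hdet : γ.det = 1)
    (hγ : γ ≠ 1) (hγ' : γ ≠ -1) :
    ∃ x : ZMod M, (![1, x] ᵥ* γ) 0 ≠ 0 ∧
      ![1, x] ᵥ* γ ≠ ![1, x] ∧ ![1, x] ᵥ* γ ≠ -![1, x] := by
  have : Fact (1 < M) := ⟨by omega⟩
  by_contra! hall
  have hv : ∀ x : ZMod M, (![1, x] ᵥ* γ) 0 = γ 0 0 + x * γ 1 0 ∧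
      (![1, x] ᵥ* γ) 1 = γ 0 1 + x * γ 1 1 := fun x => by
    simp [Matrix.vecMul, dotProduct, Fin.sum_univ_two]
  have hcases : ∀ x : ZMod M, γ 0 0 + x * γ 1 0 = 0 ∨
      (γ 0 0 + x * γ 1 0 = 1 ∧ γ 0 1 + x * γ 1 1 = x) ∨
      (γ 0 0 + x * γ 1 0 = -1 ∧ γ 0 1 + x * γ 1 1 = -x) := fun x => by
    by_cases h0 : (![1, x] ᵥ* γ) 0 = 0
    · exact Or.inl ((hv x).1 ▸ h0)
    by_cases h1 : ![1, x] ᵥ* γ = ![1, x]
    · exact Or.inr (Or.inl ⟨(hv x).1.symm.trans (by rw [h1]; rfl),
        (hv x).2.symm.trans (by rw [h1]; rfl)⟩)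
    · have h2 := hall x h0 h1
      exact Or.inr (Or.inr ⟨(hv x).1.symm.trans (by rw [h2]; rfl),
        (hv x).2.symm.trans (by rw [h2]; rfl)⟩)
  rw [Matrix.det_fin_two] at hdet
  have h1ne : (1 : ZMod M) ≠ -1 := fun h => by
    have h2 : ((2 : ℕ) : ZMod M) = 0 := by
      rw [Nat.cast_two]; linear_combination h
    have := Nat.le_of_dvd (by norm_num) ((ZMod.natCast_eq_zero_iff _ _).mp h2)
    omega
  -- triangular: `γ = ±1`; otherwise four values of `a + x c` would lie in `{0, 1, -1}`
  by_cases hc : γ 1 0 = 0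
  · rw [hc, mul_zero, sub_zero] at hdet
    have ha : γ 0 0 ≠ 0 := fun h => by rw [h, zero_mul] at hdet; exact zero_ne_one hdet
    have hx : ∀ x : ZMod M, (γ 0 0 = 1 ∧ γ 0 1 + x * γ 1 1 = x) ∨
        (γ 0 0 = -1 ∧ γ 0 1 + x * γ 1 1 = -x) := fun x => by
      have h := hcases x
      rw [hc, mul_zero, add_zero] at h
      exact h.resolve_left ha
    rcases hx 0 with ⟨hA, hb⟩ | ⟨hA, hb⟩ <;> rcases hx 1 with ⟨hA', hd⟩ | ⟨hA', hd⟩
    · rw [zero_mul, add_zero] at hb
      rw [hb, zero_add, one_mul] at hd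
      exact hγ (Matrix.ext fun i j => by fin_cases i <;> fin_cases j <;> simp [hA, hb, hc, hd])
    · exact h1ne (hA.symm.trans hA')
    · exact h1ne (hA'.symm.trans hA)
    · rw [zero_mul, add_zero, neg_zero] at hb
      rw [hb, zero_add, one_mul] at hd
      exact hγ' (Matrix.ext fun i j => by fin_cases i <;> fin_cases j <;> simp [hA, hb, hc, hd])
  · set a := γ 0 0
    set c := γ 1 0
    let S : Finset (ZMod M) := {0, 1, -1}
    have hS : ∀ x : ZMod M, a + x * c ∈ S := fun x => by
      rcases hcases x with h | ⟨h, -⟩ | ⟨h, -⟩ <;> simp [S, h]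
    have hne : ∀ n : ℕ, 0 < n → n < 5 → (n : ZMod M) ≠ 0 := fun n hn hn' h => by
      have := Nat.le_of_dvd hn ((ZMod.natCast_eq_zero_iff _ _).mp h)
      omega
    have e1 := hne 1 one_pos (by norm_num)
    have e2 := hne 2 two_pos (by norm_num)
    have e3 := hne 3 three_pos (by norm_num)
    have e4 := hne 4 four_pos (by norm_num)
    push_cast at e1 e2 e3 e4
    -- three terms of an arithmetic progression in `{0, 1, -1}` have middle term `0`
    have hmid : ∀ u v w, u ∈ S → v ∈ S → w ∈ S → u ≠ v → u + w = 2 * v → v = 0 := by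
      intro u v w hu hv hw hne' e
      simp only [S, Finset.mem_insert, Finset.mem_singleton] at hu hv hw
      rcases hv with rfl | rfl | rfl
      · rfl
      all_goals
        rcases hu with rfl | rfl | rfl <;> rcases hw with rfl | rfl | rfl <;>
        first
          | exact absurd rfl hne'
          | exact (e1 (by linear_combination e)).elim
          | exact (e1 (by linear_combination -e)).elim
          | exact (e2 (by linear_combination e)).elim
          | exact (e2 (by linear_combination -e)).elim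
          | exact (e3 (by linear_combination e)).elim
          | exact (e3 (by linear_combination -e)).elim
          | exact (e4 (by linear_combination e)).elim
          | exact (e4 (by linear_combination -e)).elim
    have k0 := hmid _ _ _ (hS (-1)) (hS 0) (hS 1) (fun h => hc (by linear_combination -h)) (by ring)
    have k1 := hmid _ _ _ (hS 0) (hS 1) (hS 2) (fun h => hc (by linear_combination -h)) (by ring)
    exact hc (by linear_combination k1 - k0)

end Fermat.RED.Full
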