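import Fermat.Agent.RED.Full.Field
import Mathlib.RingTheory.Polynomial.IsIntegral

/-!
# Functions integral over `A[j]` and their invariants

The ring of functions of level `Γ(M)` integral over `A[j]`; its elements fixed by the group are the
polynomials in `j` with coefficients in `A`.
-/

set_option autoImplicit false

noncomputable section

open Polynomial
open ModularCurve (coeffEmb qExpand jq jqModC)
open scoped MatrixGroups

namespace Fermat.RED.Full

open Fermat.MC

variable (M : ℕ)

/-- Constants in the field. -/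
def cK : ℂ →+* KM M := (algebraMap (WM M) (KM M)).comp (algebraMap ℂ (WM M))

variable {L : Type*} [Field L] (ι : L →+* ℂ) (A : ValuationSubring L)

/-- Polynomials in `j` over `A`, in the field. -/
def axK : A[X] →+* KM M := eval₂RingHom ((cK M).comp (coefHom ι A)) (jK M)

/-- The functions integral over `A[j]`. -/
def intO : Subring (KM M) :=
  letI := (axK M ι A).toAlgebra
  (integralClosure A[X] (KM M)).toSubring

variable {M ι A}

/-- Membership in `intO`. -/
theorem mem_intO {z : KM M} : z ∈ intO M ι A ↔ (axK M ι A).IsIntegralElem z := Iff.rfl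

/-- Polynomials in `j` are integral. -/
theorem axK_mem (D : A[X]) : axK M ι A D ∈ intO M ι A :=
  mem_intO.mpr (RingHom.isIntegralElem_map _)

/-- Constants are invariant. -/
theorem actK_cK (γ : SL(2, ℤ)) (c : ℂ) : actK M γ (cK M c) = cK M c := by
  rw [cK, RingHom.comp_apply, actK_algebraMap]
  rfl

/-- Polynomials in `j` are invariant. -/
theorem actK_axK (γ : SL(2, ℤ)) (D : A[X]) : actK M γ (axK M ι A D) = axK M ι A D := by
  induction D using Polynomial.induction_on' with
  | add p q hp hq => rw [map_add, map_add, hp, hq]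
  | monomial n a =>
    simp only [axK, coe_eval₂RingHom, eval₂_monomial, map_mul, map_pow, RingHom.comp_apply,
      actK_cK, actK_jK]

/-- The group preserves integrality. -/
theorem actK_mem {z : KM M} (hz : z ∈ intO M ι A) (γ : SL(2, ℤ)) : actK M γ z ∈ intO M ι A := by
  obtain ⟨P, hP, hPz⟩ := hz
  refine ⟨P, hP, ?_⟩
  have h := congrArg (actK M γ).toRingHom (show P.eval₂ (axK M ι A) z = 0 from hPz)
  rw [hom_eval₂, map_zero,
    show (actK M γ).toRingHom.comp (axK M ι A) = axK M ι A from RingHom.ext (actK_axK γ)] at h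
  exact h

variable [NeZero M]

/-- The expansion of a constant. -/
theorem phiK_cK (c : ℂ) : phiK M (cK M c) = algebraMap ℂ _ c := by
  rw [cK, RingHom.comp_apply, phiK_algebraMap, phiW_algebraMap]

/-- The two series of `j` over `ℂ` agree. -/
theorem coeffEmb_jq_eq : coeffEmb ℂ jq = jqModC ℂ := ModularCurve.coeffMap_jqModC _

/-- The expansion of a polynomial in `j`. -/
theorem aeval_jK_eq (P : ℂ[X]) :
    phiK M (P.eval₂ (cK M) (jK M)) = qExpand ℂ M (aeval (jqModC ℂ) P) := by
  rw [hom_eval₂, phiK_jK, coeffEmb_jq_eq, aeval_def, hom_eval₂]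
  refine congrArg (fun f => eval₂ f _ P) (RingHom.ext fun c => ?_)
  rw [RingHom.comp_apply, phiK_cK, RingHom.comp_apply]
  exact ((ModularCurve.qExpandAlgHomC ℂ M).commutes c).symm

omit [NeZero M] in
/-- `axK` through complex coefficients. -/
theorem axK_eq (D : A[X]) : axK M ι A D = (D.map (coefHom ι A)).eval₂ (cK M) (jK M) := by
  rw [eval₂_map]; rfl

/-- The expansion of a polynomial over `A` in `j`. -/
theorem phiK_axK (D : A[X]) :
    phiK M (axK M ι A D) = qExpand ℂ M (aeval (jqModC ℂ) (D.map (coefHom ι A))) := by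
  rw [axK_eq, aeval_jK_eq]

omit [NeZero M] in
/-- The series of `j` is integral. -/
theorem jqModC_mem_intC : jqModC ℂ ∈ intC ι A :=
  ⟨jqModC A, ModularCurve.coeffMap_jqModC _⟩

omit [NeZero M] in
/-- Polynomials over `A` in the series of `j` are integral. -/
theorem aeval_jqModC_mem_intC (D : A[X]) :
    aeval (jqModC ℂ) (D.map (coefHom ι A)) ∈ intC ι A := by
  rw [aeval_def, eval₂_map, eval₂_eq_sum_range]
  refine sum_mem fun i _ => mul_mem ?_ (pow_mem jqModC_mem_intC i)
  exact algebraMap_mem_intC (D.coeff i)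

/-- Polynomials over `A` in `j` have integral expansions. -/
theorem phiK_axK_mem (D : A[X]) : phiK M (axK M ι A D) ∈ intC ι A := by
  rw [phiK_axK]; exact qExpand_mem_intC M (aeval_jqModC_mem_intC D)

omit [NeZero M] in
/-- A polynomial in `j` with expansion in `intC` has coefficients in `A`. -/
theorem exists_map_eq_of_mem_intC {P : ℂ[X]} (h : aeval (jqModC ℂ) P ∈ intC ι A) :
    ∃ D : A[X], D.map (coefHom ι A) = P := by
  induction hn : P.natDegree using Nat.strong_induction_on generalizing P with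
  | _ n ih =>
    subst hn
    obtain ⟨a, ha⟩ := mem_intC_iff.mp h (-(P.natDegree : ℤ))
    rw [coeff_aeval_jqModC] at ha
    rcases eq_or_ne P.natDegree 0 with h0 | h0
    · refine ⟨Polynomial.C a, ?_⟩
      conv_rhs => rw [eq_C_of_natDegree_eq_zero h0]
      rw [map_C, ha, leadingCoeff, h0]
    have hlead : (monomial P.natDegree a).map (coefHom ι A) =
        monomial P.natDegree P.leadingCoeff := by
      rw [map_monomial, ha]
    obtain ⟨D, hD⟩ := ih _ (lt_of_le_of_lt (eraseLead_natDegree_le P) (by omega)) (P := P.eraseLead)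
      (by
        rw [← self_sub_monomial_natDegree_leadingCoeff, map_sub, ← hlead]
        exact sub_mem h (aeval_jqModC_mem_intC _)) rfl
    refine ⟨D + monomial P.natDegree a, ?_⟩
    rw [Polynomial.map_add, hD, hlead, eraseLead_add_monomial_natDegree_leadingCoeff]

omit [NeZero M] in
/-- A fixed function without poles is a polynomial in `j`. -/
theorem exists_poly_of_fixed (f : WM M) (hf : ∀ γ : SL(2, ℤ), compW γ f = f) :
    ∃ P : ℂ[X], algebraMap (WM M) (KM M) f = P.eval₂ (cK M) (jK M) := by
  have hinv : ∀ (γ : SL(2, ℤ)) z, (f : UpperHalfPlane → ℂ) (γ • z) = (f : UpperHalfPlane → ℂ) z :=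
    fun γ z => congrFun (congrArg Subtype.val (hf γ)) z
  have he : ExpGrowth (f : UpperHalfPlane → ℂ) := by
    have h := f.2.2.2 1
    rwa [show compSL 1 (f : UpperHalfPlane → ℂ) = f from funext fun z => by simp [compSL]] at h
  obtain ⟨n, hn⟩ := exists_isBoundedAtImInfty_mul_discriminant_pow he
  obtain ⟨P, -, hP⟩ := exists_poly_of_invariant f.2.1 hinv n hn
  refine ⟨P, ?_⟩
  have e : f = aeval (Lvl.jW (CongruenceSubgroup.Gamma M)) P := Subtype.ext (by
    rw [hP]
    exact aeval_algHom_apply (Lvl.W (CongruenceSubgroup.Gamma M)).val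
      (Lvl.jW (CongruenceSubgroup.Gamma M)) P)
  rw [e, aeval_def, hom_eval₂]
  rfl

/-- A fixed element is a quotient of polynomials in `j`. -/
theorem exists_div_of_fixed {z : KM M} (hz : ∀ γ, actK M γ z = z) :
    ∃ P R : ℂ[X], R.eval₂ (cK M) (jK M) ≠ 0 ∧
      z * R.eval₂ (cK M) (jK M) = P.eval₂ (cK M) (jK M) := by
  classical
  -- write `z = a / b` and multiply by the other conjugates of `b`
  obtain ⟨a, b, hb, rfl⟩ := IsFractionRing.div_surjective (A := WM M) z
  have hb0 : algebraMap (WM M) (KM M) b ≠ 0 :=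
    IsLocalization.to_map_ne_zero_of_mem_nonZeroDivisors _ le_rfl hb
  choose γ hγ using toGal_surjective M
  set bK := algebraMap (WM M) (KM M) b
  set Nm : KM M := ∏ g : Gal M, (g : KM M ≃+* KM M) bK
  have hW : ∀ g : Gal M, ∃ w : WM M, algebraMap (WM M) (KM M) w = (g : KM M ≃+* KM M) bK :=
    fun g => ⟨compW (γ g)⁻¹ b, by rw [← actK_algebraMap, ← toGal_smul, hγ]⟩
  choose w hw using hW
  have hNfix : ∀ δ, actK M δ Nm = Nm := fun δ => by
    simp only [Nm, map_prod]
    exact Fintype.prod_equiv (Equiv.mulLeft (toGal M δ)) _ _ fun g => rfl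
  have hN : Nm = algebraMap (WM M) (KM M) (∏ g, w g) := by
    rw [map_prod]; exact Finset.prod_congr rfl fun g _ => (hw g).symm
  have hnum : algebraMap (WM M) (KM M) a / bK * Nm =
      algebraMap (WM M) (KM M) (a * ∏ g ∈ Finset.univ.erase 1, w g) := by
    rw [map_mul, map_prod]
    simp only [hw, Nm]
    rw [← Finset.mul_prod_erase _ _ (Finset.mem_univ (1 : Gal M))]
    change algebraMap (WM M) (KM M) a / bK * (bK * _) = _
    rw [← mul_assoc, div_mul_cancel₀ _ hb0]
  have hinj := IsFractionRing.injective (WM M) (KM M)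
  have hfixW : ∀ f : WM M, (∀ δ, actK M δ (algebraMap _ (KM M) f) = algebraMap _ (KM M) f) →
      ∀ δ, compW δ f = f := fun f hf δ => hinj (by
    have := hf δ⁻¹
    rwa [actK_algebraMap, inv_inv] at this)
  -- invariant holomorphic functions are polynomials in `j`
  obtain ⟨R, hR⟩ := exists_poly_of_fixed _ (hfixW (∏ g, w g) fun δ => by rw [← hN]; exact hNfix δ)
  obtain ⟨P, hP⟩ := exists_poly_of_fixed _ (hfixW (a * ∏ g ∈ Finset.univ.erase 1, w g) fun δ => by
    rw [← hnum, map_mul, hz, hNfix])
  refine ⟨P, R, ?_, ?_⟩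
  · rw [← hR, ← hN]
    exact Finset.prod_ne_zero_iff.mpr fun g _ => (_root_.map_ne_zero _).mpr hb0
  · rw [← hR, ← hN, hnum, hP]

variable [IsAlgClosed L]

omit [NeZero M] in
/-- A number integral over `A` lies in `A`. -/
theorem mem_range_coefHom {c : ℂ} (h : (coefHom ι A).IsIntegralElem c) :
    c ∈ (coefHom ι A).range := by
  obtain ⟨Q, hQ, hQc⟩ := h
  have hQ0 : Q.map A.subtype ≠ 0 := (hQ.map _).ne_zero
  have hroot : c ∈ ((Q.map A.subtype).map ι).roots := by
    rw [Polynomial.mem_roots (Polynomial.map_ne_zero hQ0), IsRoot, map_map, eval_map]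
    exact hQc
  rw [(IsAlgClosed.splits _).roots_map] at hroot
  obtain ⟨x, hx, rfl⟩ := Multiset.mem_map.mp hroot
  rw [Polynomial.mem_roots hQ0, IsRoot, eval_map] at hx
  obtain ⟨a, rfl⟩ := IsIntegrallyClosed.isIntegral_iff.mp (⟨Q, hQ, hx⟩ : IsIntegral A x)
  exact ⟨a, rfl⟩

/-- The invariant elements of `intO` are the polynomials over `A` in `j`. -/
theorem exists_axK_of_fixed {z : KM M} (hz : z ∈ intO M ι A) (hfix : ∀ γ, actK M γ z = z) :
    ∃ D : A[X], axK M ι A D = z := by
  -- a fixed element is a rational function `v` in `j`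
  obtain ⟨P, R, hR0, hPR⟩ := exists_div_of_fixed hfix
  have e : phiK M z * qExpand ℂ M (aeval (jqModC ℂ) R) = qExpand ℂ M (aeval (jqModC ℂ) P) := by
    rw [← aeval_jK_eq, ← aeval_jK_eq, ← map_mul, hPR]
  have hR1 : aeval (jqModC ℂ) R ≠ 0 := fun h => hR0 ((phiK M).injective (by
    rw [aeval_jK_eq, h, map_zero, map_zero]))
  set v := aeval (jqModC ℂ) P / aeval (jqModC ℂ) R
  have hv : phiK M z = qExpand ℂ M v := by
    rw [map_div₀]
    exact eq_div_of_mul_eq ((_root_.map_ne_zero _).mpr hR1) e
  have hvj : v ∈ jField ℂ :=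
    div_mem (IntermediateField.algebra_adjoin_le_adjoin ℂ _ (aeval_mem_adjoin_singleton ℂ _))
      (IntermediateField.algebra_adjoin_le_adjoin ℂ _ (aeval_mem_adjoin_singleton ℂ _))
  obtain ⟨Q, hQ, hQz⟩ := hz
  -- `v` is integral over `A[j]`, so it is a polynomial `g` in `j`
  have hQv : (Q.map (mapRingHom (coefHom ι A))).eval₂ (aeval (jqModC ℂ)).toRingHom v = 0 := by
    apply (qExpand ℂ M).injective
    have h := congrArg (phiK M) (show Q.eval₂ (axK M ι A) z = 0 from hQz)
    rw [map_zero, hom_eval₂, hv] at h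
    rw [map_zero, eval₂_map, hom_eval₂]
    refine Eq.trans (congrArg (fun f => eval₂ f _ Q) (RingHom.ext fun D => ?_)) h
    rw [RingHom.comp_apply, RingHom.comp_apply, RingHom.comp_apply, phiK_axK]
    rfl
  obtain ⟨g, hg⟩ := exists_eq_aeval_of_monic hvj _ (hQ.map _) hQv
  have hgQ : (mapRingHom (coefHom ι A)).IsIntegralElem g := by
    refine ⟨Q, hQ, (injective_iff_map_eq_zero (aeval (jqModC ℂ)).toRingHom).mpr
      (fun p hp => transcendental_iff.mp transcendental_jqModC p hp) ?_⟩
    rw [hom_eval₂, ← eval₂_map, show (aeval (jqModC ℂ)).toRingHom g = v from hg.symm]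
    rw [map_zero]
    exact hQv
  -- the coefficients of `g` are integral over `A`, hence in `A`
  have hcoef : ∀ n, g.coeff n ∈ (coefHom ι A).range := fun n => by
    let := (coefHom ι A).toAlgebra
    let : Algebra A[X] ℂ[X] := Polynomial.algebra A ℂ
    exact mem_range_coefHom ((show IsIntegral A[X] g from hgQ).coeff n)
  obtain ⟨D, hD⟩ := Polynomial.mem_lifts _ |>.mp
    ((Polynomial.lifts_iff_coeff_lifts g).mpr fun n => hcoef n)
  refine ⟨D, (phiK M).injective ?_⟩
  rw [phiK_axK, hD, hv, hg]

end Fermat.RED.Full
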