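import Fermat.Agent.RED.Full.Rho
import Fermat.Agent.RED.Model.LevelGenus
import Fermat.Agent.MF.CosetCount
import Fermat.Agent.MF.DedekindPsi

/-!
# The kernel of reduction is stable under the group

The reductions of the conjugates of `j(Mz)` are distinct roots of one irreducible polynomial over
`k(j)`, and consequently reduction at level `Γ(M)` has a kernel stable under the whole group.
-/

set_option autoImplicit false

attribute [local instance 10000] SubalgebraClass.toAlgebra HahnSeries.powerSeriesAlgebra

noncomputable section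

open Polynomial
open ModularCurve (qExpand jqModC dedekindPsi)
open scoped MatrixGroups

namespace Fermat.RED.Full

open Fermat.MC CongruenceSubgroup

variable {L : Type*} [Field L] {A : ValuationSubring L} {k : Type*} [Field k]
variable {π : A →+* k} {M : ℕ} [NeZero M] [IsAlgClosed L] {ι : L →+* ℂ}
variable (hL : LevelOK π M)

omit [IsAlgClosed L] [NeZero M] in
/-- The class depends only on the matrix modulo `M`. -/
theorem toGal_eq_of_map_eq {γ δ : SL(2, ℤ)}
    (h : Matrix.SpecialLinearGroup.map (Int.castRingHom (ZMod M)) γ =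
      Matrix.SpecialLinearGroup.map (Int.castRingHom (ZMod M)) δ) : toGal M γ = toGal M δ := by
  have hm : δ⁻¹ * γ ∈ Gamma M := by
    rw [CongruenceSubgroup.Gamma, MonoidHom.mem_ker, map_mul, map_inv, h, inv_mul_cancel]
  have : toGal M (δ⁻¹ * γ) = 1 := Subtype.ext (actK_eq_one_of_mem hm)
  rwa [map_mul, map_inv, inv_mul_eq_one, eq_comm] at this

omit [IsAlgClosed L] in
/-- `Γ₀(M)` fixes `j (M z)`. -/
theorem actK_jMK_of_mem {γ : SL(2, ℤ)} (hγ : γ ∈ Gamma0 M) : actK M γ (jMK M) = jMK M := by
  rw [jMK, actK_algebraMap]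
  exact congrArg _ (Subtype.ext ((jN_mem_W M).2.1 _ (inv_mem hγ)))

/-- The conjugate of `j (M z)` at a coset. -/
def jCoset (q : CosetN M) : intO M ι A := galO A M ι (toGal M q.out) (jMO hL)

omit [IsAlgClosed L] in
/-- Conjugates of `j (M z)` depend only on the coset. -/
theorem galO_toGal_jMO (γ : SL(2, ℤ)) :
    galO A M ι (toGal M γ) (jMO hL) = jCoset hL (γ : CosetN M) := by
  obtain ⟨⟨h, hh⟩, e⟩ := QuotientGroup.mk_out_eq_mul (Gamma0 M) γ
  rw [jCoset, e, map_mul, galO_mul]
  refine congrArg _ (Subtype.ext ?_)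
  exact (actK_jMK_of_mem hh).symm

omit [IsAlgClosed L] in
/-- The group permutes the conjugates as it does the cosets. -/
theorem galO_jCoset (δ : SL(2, ℤ)) (q : CosetN M) :
    galO A M ι (toGal M δ) (jCoset hL q) = jCoset hL (δ • q) := by
  rw [jCoset, ← galO_mul, ← map_mul, galO_toGal_jMO]
  refine congrArg _ ?_
  conv_rhs => rw [← QuotientGroup.out_eq' q]
  rfl

variable (π) in
/-- Reduction of a polynomial in `j`, in `k(j)`. -/
def redJ : A[X] →+* jField k :=
  (Polynomial.aeval (⟨jqModC k, jqModC_mem_jField k⟩ : jField k)).toRingHom.comp (mapRingHom π)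

omit [IsAlgClosed L] in
/-- The value of `redJ`. -/
theorem coe_redJ (D : A[X]) :
    (redJ π D : LaurentSeries k) = Polynomial.aeval (jqModC k) (D.map π) :=
  (Polynomial.aeval_algHom_apply (jField k).val
    (⟨jqModC k, jqModC_mem_jField k⟩ : jField k) (D.map π)).symm

variable (ι) in
/-- Reduction into the branch field. -/
def rhoB : intO M ι A →+* Branch k M := (inc k M).comp (rho ι hL)

/-- Reduction of polynomials in `j`. -/
theorem rhoB_axO (D : A[X]) :
    rhoB ι hL (axO A M ι D) = algebraMap (jField k) (Branch k M) (redJ π D) := by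
  rw [rhoB, RingHom.comp_apply, rho_axO, ← coe_redJ]
  rfl

/-- The kernel in the branch field is that of reduction. -/
theorem rhoB_eq_zero {z : intO M ι A} : rhoB ι hL z = 0 ↔ rho ι hL z = 0 :=
  map_eq_zero_iff _ (inc_injective k M)

/-- An invariant polynomial reduces to one over `k(j)`. -/
theorem exists_map_jField {P : (intO M ι A)[X]} (h : ∀ g, P.map (galO A M ι g) = P) :
    ∃ R : (jField k)[X], R.map (algebraMap (jField k) (Branch k M)) = P.map (rhoB ι hL) := by
  obtain ⟨Q, rfl⟩ := exists_map_axO h
  refine ⟨Q.map (redJ π), ?_⟩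
  rw [Polynomial.map_map, Polynomial.map_map]
  exact congrArg (fun f => Q.map f) (RingHom.ext fun D => (rhoB_axO hL D).symm)

/-- Reductions are integral over `k(j)`. -/
theorem isIntegral_rhoB (z : intO M ι A) : IsIntegral (jField k) (rhoB ι hL z) := by
  obtain ⟨R, hR⟩ := exists_map_jField hL (charO_fixed z)
  have hmon : (charO ι z).Monic := monic_prod_of_monic _ _ fun g _ => monic_X_sub_C _
  refine ⟨R, Polynomial.monic_of_injective (algebraMap (jField k) (Branch k M)).injective
    (hR ▸ hmon.map _), ?_⟩
  rw [← eval_map, hR, eval_map, eval₂_at_apply]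
  have h0 : (charO ι z).eval z = 0 := by
    rw [charO, eval_prod]
    exact Finset.prod_eq_zero (Finset.mem_univ 1) (by simp [galO_one])
  rw [h0, map_zero]

variable [IsAlgClosed k]

include hL in
/-- The reductions of the conjugates of `j (M z)` are distinct roots of one irreducible
polynomial over `k(j)`. -/
theorem minpoly_jCoset :
    (Function.Injective fun q : CosetN M => rhoB ι hL (jCoset hL q)) ∧
      ∀ q, Polynomial.aeval (rhoB ι hL (jCoset hL q))
        (minpoly (jField k) (rhoB ι hL (jMO hL))) = 0 := by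
  classical
  have : Fintype (CosetN M) := Fintype.ofFinite _
  set P : (intO M ι A)[X] := ∏ q : CosetN M, (X - Polynomial.C (jCoset hL q)) with hP
  have hfix : ∀ g, P.map (galO A M ι g) = P := fun g => by
    obtain ⟨δ, rfl⟩ := toGal_surjective M g
    rw [hP, Polynomial.map_prod]
    exact Fintype.prod_equiv (MulAction.toPerm δ) _ _ fun q => by
      rw [Polynomial.map_sub, map_X, map_C, galO_jCoset]; rfl
  obtain ⟨R, hR⟩ := exists_map_jField hL hfix
  have hPm : P.Monic := monic_prod_of_monic _ _ fun q _ => monic_X_sub_C _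
  have hRm : R.Monic :=
    Polynomial.monic_of_injective (algebraMap (jField k) (Branch k M)).injective (hR ▸ hPm.map _)
  have hdeg : R.natDegree = dedekindPsi M := by
    have := congrArg natDegree hR
    rw [natDegree_map, hPm.natDegree_map, hP,
      natDegree_prod_of_monic _ _ fun q _ => monic_X_sub_C _] at this
    simp only [natDegree_X_sub_C, Finset.sum_const, smul_eq_mul, mul_one, Finset.card_univ] at this
    rw [this, ← Nat.card_eq_fintype_card]
    exact Fermat.MF.card_cosetX M
  set φ : levelField k M →+* Branch k M :=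
    (inc k M).comp ((qExpand k M).comp (levelField k M).val.toRingHom)
  have hφ : φ.comp (algebraMap (jField k) (levelField k M)) = algebraMap _ _ :=
    RingHom.ext fun c =>
      congrArg (fun y => inc k M (qExpand k M y)) (coe_algebraMap_levelField M c)
  have hJ : rhoB ι hL (jMO hL) = φ (jE k M M dvd_rfl) := by
    rw [rhoB, RingHom.comp_apply, rho_jMO]; rfl
  have hsepL := Fermat.RED.Cusps.isSeparable_levelField (k := k) (M := M) hL.ne_zero
  set p := minpoly (jField k) (jE k M M dvd_rfl)
  have hsep : p.Separable := Algebra.IsSeparable.isSeparable (jField k) _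
  have hint : IsIntegral (jField k) (jE k M M dvd_rfl) :=
    Algebra.IsSeparable.isIntegral (jField k) _
  -- `R` has degree `ψ(M)` and the root `j(q^M)`, so is its minimal polynomial
  have heq : R = p := by
    have hroot : Polynomial.aeval (jE k M M dvd_rfl) R = 0 := by
      refine φ.injective ?_
      rw [map_zero, aeval_def, hom_eval₂, hφ, ← hJ, ← eval_map, hR, eval_map, eval₂_at_apply,
        hP, eval_prod]
      rw [Finset.prod_eq_zero (Finset.mem_univ ((1 : SL(2, ℤ)) : CosetN M)), map_zero]
      rw [eval_sub, eval_X, eval_C, ← galO_toGal_jMO, map_one, galO_one, sub_self]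
    exact (eq_of_monic_of_dvd_of_natDegree_le (minpoly.monic hint) hRm (minpoly.dvd _ _ hroot)
      (by rw [hdeg, natDegree_minpoly_jE hL.ne_zero]))
  have hmin : minpoly (jField k) (rhoB ι hL (jMO hL)) = p := by
    rw [hJ]
    exact minpoly.algHom_eq ({ φ with commutes' := fun c => RingHom.congr_fun hφ c } :
      levelField k M →ₐ[jField k] Branch k M) φ.injective _
  have hmap : p.map (algebraMap (jField k) (Branch k M)) =
      ∏ q : CosetN M, (X - Polynomial.C (rhoB ι hL (jCoset hL q))) := by
    rw [← heq, hR, hP, Polynomial.map_prod]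
    simp
  refine ⟨?_, fun q => ?_⟩
  · have hnd := Polynomial.nodup_roots (hsep.map (f := algebraMap (jField k) (Branch k M)))
    rw [hmap, roots_prod _ _ (Finset.prod_ne_zero_iff.mpr fun q _ => X_sub_C_ne_zero _)] at hnd
    simp only [roots_X_sub_C, Multiset.bind_singleton] at hnd
    exact fun q q' h => Multiset.inj_on_of_nodup_map hnd q (Finset.mem_univ q) q'
      (Finset.mem_univ q') h
  · rw [hmin, aeval_def, ← eval_map, hmap, eval_prod]
    exact Finset.prod_eq_zero (Finset.mem_univ q) (by simp)

variable (ι) in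
/-- The group elements preserving the kernel of reduction. -/
def stab : Subgroup (Gal M) where
  carrier := {g | ∀ z : intO M ι A, rho ι hL (galO A M ι g z) = 0 ↔ rho ι hL z = 0}
  one_mem' z := by rw [galO_one]
  mul_mem' {g h} hg hh z := by rw [galO_mul, hg, hh]
  inv_mem' {g} hg z := by
    conv_rhs => rw [← galO_one z, ← mul_inv_cancel g, galO_mul, hg]

include hL in
/-- `S` times some element of `Γ₀(M)` lies in the stabiliser. -/
theorem exists_stab_S : ∃ γ ∈ Gamma0 M, toGal M (ModularGroup.S * γ) ∈ stab ι hL := by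
  classical
  obtain ⟨hinj, hroot⟩ := minpoly_jCoset (ι := ι) hL
  set E := IntermediateField.adjoin (jField k) (Set.range (rhoB ι hL))
  have hmem : ∀ z, rhoB ι hL z ∈ E := fun z =>
    IntermediateField.subset_adjoin _ _ ⟨z, rfl⟩
  -- send the reduction of `j (M z)` to that of its conjugate by `S`
  obtain ⟨φ, hφ⟩ := IntermediateField.exists_algHom_adjoin_of_splits_of_aeval
    (K := Branch k M) (S := Set.range (rhoB ι hL))
    (fun s hs => by
      obtain ⟨z, rfl⟩ := hs
      exact ⟨isIntegral_rhoB hL z, IsAlgClosed.splits _⟩)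
    (hmem (jMO hL)) (hroot (ModularGroup.S : CosetN M))
  let e' : intO M ι A →+* Branch k M :=
    φ.toRingHom.comp ((rhoB ι hL).codRestrict E.toSubfield fun z => hmem z)
  obtain ⟨g, hg⟩ := exists_gal_of_agree hL (inc k M) e' fun D => by
    change φ ⟨rhoB ι hL (axO A M ι D), _⟩ = rhoB ι hL (axO A M ι D)
    refine Eq.trans (congrArg φ (Subtype.ext ?_))
      ((φ.commutes (redJ π D)).trans (rhoB_axO hL D).symm)
    exact rhoB_axO hL D
  have hstab : g ∈ stab ι hL := fun z => by
    have h1 : rhoB ι hL (galO A M ι g z) = φ ⟨rhoB ι hL z, hmem z⟩ := (hg z).symm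
    rw [← rhoB_eq_zero hL, h1, _root_.map_eq_zero φ, ← rhoB_eq_zero hL]
    exact Subtype.ext_iff
  obtain ⟨γ₀, rfl⟩ := toGal_surjective M g
  refine ⟨ModularGroup.S⁻¹ * γ₀, ?_, by rwa [mul_inv_cancel_left]⟩
  have h2 : rhoB ι hL (jCoset hL (γ₀ : CosetN M)) =
      rhoB ι hL (jCoset hL (ModularGroup.S : CosetN M)) := by
    rw [← galO_toGal_jMO, ← hφ]
    exact (hg (jMO hL)).symm
  exact QuotientGroup.eq.mp (hinj h2).symm

omit [IsAlgClosed k] in
/-- `T` lies in the stabiliser. -/
theorem toGal_T_mem_stab : toGal M ModularGroup.T ∈ stab ι hL := by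
  obtain ⟨c, -, hc⟩ := exists_rho_T (ι := ι) hL
  have h : toGal M ModularGroup.T⁻¹ ∈ stab ι hL := fun z => by
    rw [hc, _root_.map_eq_zero]
  rw [map_inv, inv_mem_iff] at h
  exact h

include hL in
/-- The conjugate of `T` by `S` lies in the stabiliser. -/
theorem conj_S_T_mem_stab :
    toGal M (ModularGroup.S * ModularGroup.T * ModularGroup.S⁻¹) ∈ stab ι hL := by
  -- some `S γ` with `γ ∈ Γ₀` is in the stabiliser
  obtain ⟨γ, hγ, hstab⟩ := exists_stab_S (ι := ι) hL
  set n : ℤ := γ 1 1 * γ 1 1
  -- in the Galois group `γ` conjugates a power of `T` to `T`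
  have key : toGal M (γ * ModularGroup.T ^ n) = toGal M (ModularGroup.T * γ) := by
    refine toGal_eq_of_map_eq ?_
    have hc : ((γ 1 0 : ℤ) : ZMod M) = 0 := Gamma0_mem.mp hγ
    have hdet : ((γ 0 0 : ℤ) : ZMod M) * (γ 1 1 : ℤ) = 1 := by
      have := γ.det_coe
      rw [Matrix.det_fin_two] at this
      have h := congrArg (fun x : ℤ => (x : ZMod M)) this
      push_cast at h
      rw [hc, mul_zero, sub_zero] at h
      exact h
    refine Matrix.SpecialLinearGroup.ext _ _ fun i j => ?_
    change (((γ * ModularGroup.T ^ n : SL(2, ℤ)) : Matrix (Fin 2) (Fin 2) ℤ) i j : ZMod M) =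
      (((ModularGroup.T * γ : SL(2, ℤ)) : Matrix (Fin 2) (Fin 2) ℤ) i j : ZMod M)
    rw [Matrix.SpecialLinearGroup.coe_mul, Matrix.SpecialLinearGroup.coe_mul,
      ModularGroup.coe_T_zpow, ModularGroup.coe_T]
    rw [Matrix.eta_fin_two (γ : Matrix (Fin 2) (Fin 2) ℤ), Matrix.mul_fin_two,
      Matrix.mul_fin_two]
    fin_cases i <;> fin_cases j
    · simp [hc]
    · simp [n]
      linear_combination ((γ 1 1 : ℤ) : ZMod M) * hdet
    · simp
    · simp [hc]
  -- so the conjugate is a product of stabilising elements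
  have e : toGal M (ModularGroup.S * ModularGroup.T * ModularGroup.S⁻¹) =
      toGal M (ModularGroup.S * γ) * toGal M ModularGroup.T ^ n *
        (toGal M (ModularGroup.S * γ))⁻¹ := by
    rw [map_mul, map_mul _ (ModularGroup.S) γ, map_inv, map_mul,
      mul_inv_rev, mul_assoc (toGal M ModularGroup.S) (toGal M γ), ← map_zpow, ← map_mul _ γ,
      key, map_mul]
    group
  rw [e]
  exact mul_mem (mul_mem hstab (zpow_mem (toGal_T_mem_stab hL) n)) (inv_mem hstab)

include hL in
/-- The kernel of reduction is stable under the whole group. -/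
theorem rho_galO_eq_zero_iff (g : Gal M) (z : intO M ι A) :
    rho ι hL (galO A M ι g z) = 0 ↔ rho ι hL z = 0 := by
  suffices h : (stab ι hL).comap (toGal M) = ⊤ by
    obtain ⟨γ, rfl⟩ := toGal_surjective M g
    exact (show toGal M γ ∈ stab ι hL from
      Subgroup.mem_comap.mp (h ▸ Subgroup.mem_top γ)) z
  have hT : ModularGroup.T ∈ (stab ι hL).comap (toGal M) := toGal_T_mem_stab hL
  have hU : ModularGroup.S * ModularGroup.T * ModularGroup.S⁻¹ ∈
      (stab ι hL).comap (toGal M) := conj_S_T_mem_stab hL
  have hS : ModularGroup.S ∈ (stab ι hL).comap (toGal M) := by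
    have e : ModularGroup.S⁻¹ = ModularGroup.T *
        (ModularGroup.S * ModularGroup.T * ModularGroup.S⁻¹) * ModularGroup.T := by
      apply Matrix.SpecialLinearGroup.ext
      intro i j
      simp only [Matrix.SpecialLinearGroup.coe_mul, Matrix.SpecialLinearGroup.coe_inv,
        ModularGroup.coe_S, ModularGroup.coe_T, Matrix.adjugate_fin_two_of, Matrix.mul_fin_two]
      fin_cases i <;> fin_cases j <;> simp
    rw [← inv_inv ModularGroup.S, e]
    exact inv_mem (mul_mem (mul_mem hT hU) hT)
  rw [eq_top_iff, ← SpecialLinearGroup.SL2Z_generators, Subgroup.closure_le]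
  rintro x (rfl | rfl)
  · exact hS
  · exact hT

end Fermat.RED.Full
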