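import Fermat.Agent.RED.Full.Irreducible
import Fermat.Agent.RED.Model.Separating
import Fermat.Agent.MC.Lvl.Field

/-!
# Good models for the levels between `Γ(M)` and `SL(2, ℤ)`

The function field of a level `G ⊇ Γ(M)` embeds in that of level `Γ(M)` compatibly with charts and
reduction; a separating element gives it a good model of degree the index of `G` (`goodModel_FL`).
`Spec` specialises this to `X_H(N)`.
-/

set_option autoImplicit false
set_option linter.unusedSectionVars false

attribute [local instance 10000] SubalgebraClass.toAlgebra HahnSeries.powerSeriesAlgebra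

noncomputable section

open Polynomial
open ModularCurve (coeffMap qExpand jqModC)
open scoped MatrixGroups

namespace Fermat.RED.Full

open Fermat.MC CongruenceSubgroup

/-- Shortcut: ring homomorphisms are additive. The generic search first tries normed and linear
structures, and takes seconds. -/
private local instance addMonoidHomClassRingHom {R S : Type*} [NonAssocSemiring R]
    [NonAssocSemiring S] : AddMonoidHomClass (R →+* S) R S :=
  RingHomClass.toAddMonoidHomClass

/-- Shortcut: ring homomorphisms respect multiplication and one. -/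
private local instance monoidHomClassRingHom {R S : Type*} [NonAssocSemiring R]
    [NonAssocSemiring S] : MonoidHomClass (R →+* S) R S :=
  RingHomClass.toMonoidHomClass

variable {M : ℕ} [NeZero M] {G : Subgroup SL(2, ℤ)} [Lvl.LevelGen G] (hG : Gamma M ≤ G)

/-- A function of level `G` at level `Γ(M)`. -/
def inclK : Lvl.KW G →+* KM M :=
  IsFractionRing.lift (A := Lvl.W G) (K := Lvl.KW G)
    (g := (algebraMap (WM M) (KM M)).comp (Subalgebra.inclusion (Lvl.W_anti hG)).toRingHom)
    ((IsFractionRing.injective (WM M) (KM M)).comp (Subalgebra.inclusion_injective (Lvl.W_anti hG)))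

/-- `inclK` extends the inclusion of forms. -/
theorem inclK_algebraMap (f : Lvl.W G) :
    inclK hG (algebraMap _ (Lvl.KW G) f) =
      algebraMap (WM M) (KM M) (Subalgebra.inclusion (Lvl.W_anti hG) f) :=
  IsFractionRing.lift_algebraMap _ f

/-- The expansion at level `Γ(M)` is that of level `G` at `q ^ M`. -/
theorem phiK_inclK (k : Lvl.KW G) : phiK M (inclK hG k) = qExpand ℂ M (Lvl.qK G k) := by
  refine RingHom.congr_fun (IsFractionRing.ringHom_ext (A := Lvl.W G) (K := Lvl.KW G)
    (f1 := (phiK M).comp (inclK hG)) (f2 := (qExpand ℂ M).comp (Lvl.qK G)) fun f => ?_) k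
  rw [RingHom.comp_apply, RingHom.comp_apply, inclK_algebraMap, phiK_algebraMap,
    phiW_inclusion hG, Lvl.qK_algebraMap]

/-- The functions of level `G` are fixed by `G`. -/
theorem actK_inclK {γ : SL(2, ℤ)} (hγ : γ ∈ G) (k : Lvl.KW G) :
    actK M γ (inclK hG k) = inclK hG k := by
  refine RingHom.congr_fun (IsFractionRing.ringHom_ext (A := Lvl.W G) (K := Lvl.KW G)
    (f1 := (actK M γ).toRingHom.comp (inclK hG)) (f2 := inclK hG) fun f => ?_) k
  rw [RingHom.comp_apply, inclK_algebraMap]
  refine (actK_algebraMap γ _).trans (congrArg _ (Subtype.ext ?_))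
  exact f.2.2.1 _ (inv_mem hγ)

/-- The generator distinguishes the cosets. -/
theorem mem_of_actK_genY {γ : SL(2, ℤ)}
    (h : actK M γ (inclK hG (algebraMap _ _ (Lvl.genY G))) =
      inclK hG (algebraMap _ _ (Lvl.genY G))) :
    γ ∈ G := by
  rw [inclK_algebraMap, actK_algebraMap] at h
  have h1 := IsFractionRing.injective (WM M) (KM M) h
  have h2 : Lvl.conjHom G (γ : Lvl.Coset G) (Lvl.genY G) =
      Lvl.conjHom G ((1 : SL(2, ℤ)) : Lvl.Coset G) (Lvl.genY G) := by
    rw [Lvl.conjHom_one, Lvl.conjHom_mk]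
    have h4 := congrArg Subtype.val h1
    exact Subtype.ext h4
  have h3 := QuotientGroup.eq.mp (Lvl.genY_injective G h2)
  rw [mul_one, inv_mem_iff] at h3
  exact h3

variable {L : Type*} [Field L] [IsAlgClosed L] [Algebra ℚ L] (ι : L →+* ℂ)

/-- The function field of level `G` inside the field of level `Γ(M)`. -/
def theta : Lvl.FL G L →+* KM M := (inclK hG).comp (Lvl.toKW G ι)

/-- The expansion of `theta x` is that of `x`, over `ℂ` and at `q ^ M`. -/
theorem phiK_theta (x : Lvl.FL G L) :
    phiK M (theta hG ι x) = qExpand ℂ M (coeffMap ι (x : LaurentSeries L)) := by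
  rw [theta, RingHom.comp_apply, phiK_inclK, Lvl.qK_toKW]

/-- `G` fixes the image of `theta`. -/
theorem actK_theta {γ : SL(2, ℤ)} (hγ : γ ∈ G) (x : Lvl.FL G L) :
    actK M γ (theta hG ι x) = theta hG ι x := actK_inclK hG hγ _

/-- `theta` is `ι` on constants. -/
theorem theta_algebraMap (c : L) : theta hG ι (algebraMap L _ c) = cK M (ι c) := by
  rw [theta, RingHom.comp_apply, Lvl.toKW_algebraMap, inclK_algebraMap, AlgHom.commutes]
  rfl

/-- `theta` sends `j` to `j`. -/
theorem theta_jL : theta hG ι (Lvl.jL G L) = jK M := by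
  rw [theta, RingHom.comp_apply, Lvl.toKW_jL, inclK_algebraMap]
  rfl

variable {A : ValuationSubring L} {k : Type*} [Field k] {π : A →+* k}

/-- `theta` commutes with the evaluation of polynomials over `A` at `j`. -/
theorem theta_ax (D : A[X]) :
    theta hG ι (Model.ax A (Lvl.jL G L) D) = axK M ι A D := by
  rw [Model.ax, axK, coe_eval₂RingHom, coe_eval₂RingHom, hom_eval₂, theta_jL]
  exact congrArg (fun f => eval₂ f _ D)
    (RingHom.ext fun a => theta_algebraMap hG ι _)

/-- `theta` sends the chart into the integral elements of level `Γ(M)`. -/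
theorem theta_mem {f : Lvl.FL G L} (hf : f ∈ Model.chart A (Lvl.jL G L)) :
    theta hG ι f ∈ intO M ι A := by
  obtain ⟨P, hP, hPf⟩ := hf
  refine ⟨P, hP, ?_⟩
  have h := congrArg (theta hG ι) (show P.eval₂ (Model.ax A (Lvl.jL G L)) f = 0 from hPf)
  rw [hom_eval₂, map_zero] at h
  rwa [show (theta hG ι).comp (Model.ax A (Lvl.jL G L)) = axK M ι A from
    RingHom.ext (theta_ax hG ι)] at h

/-- An element integral at level `Γ(M)` lies in the chart of level `G`. -/
theorem mem_chart_of_theta {f : Lvl.FL G L} (hf : theta hG ι f ∈ intO M ι A) :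
    f ∈ Model.chart A (Lvl.jL G L) := by
  obtain ⟨P, hP, hPf⟩ := hf
  refine ⟨P, hP, (theta hG ι).injective ?_⟩
  rw [hom_eval₂, map_zero]
  exact Eq.trans (congrArg (fun φ => eval₂ φ _ P) (RingHom.ext (theta_ax hG ι))) hPf

/-- A chart element among the integral elements of level `Γ(M)`. -/
def thetaO (f : Model.chart A (Lvl.jL G L)) : intO M ι A := ⟨theta hG ι f, theta_mem hG ι f.2⟩

variable (hL : LevelOK π M)

/-- `G` fixes the chart elements among the integral elements of level `Γ(M)`. -/
theorem toGal_fix_theta {γ : SL(2, ℤ)} (hγ : γ ∈ G) (f : Model.chart A (Lvl.jL G L)) :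
    galO A M ι (toGal M γ) (thetaO hG ι f) = thetaO hG ι f :=
  Subtype.ext (actK_theta hG ι hγ _)

include hG ι hL in
/-- Chart elements have integral expansions. -/
theorem int_chart {f : Lvl.FL G L} (hf : f ∈ Model.chart A (Lvl.jL G L)) :
    ((f : LaurentSeries L)) ∈ Model.intSeries A := by
  have h := phiK_mem hL.surj hL.ne_zero hL.five_le (theta_mem hG ι hf)
  rw [phiK_theta, mem_intC_iff] at h
  rw [← coeffMap_mem_intC_iff (ι := ι), mem_intC_iff]
  intro n
  have := h ((M : ℤ) * n)
  rwa [ModularCurve.qExpand_coeff_mul] at this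

/-- Reduction at level `Γ(M)` is the reduction of the expansion, at `q ^ M`. -/
theorem rho_thetaO (f : Model.chart A (Lvl.jL G L)) :
    rho ι hL (thetaO hG ι f) =
      qExpand k M (Model.redF π (Lvl.FL G L).val.toRingHom f) := by
  have hf := int_chart hG ι hL f.2
  rw [Model.redF_of_mem (ι := (Lvl.FL G L).val.toRingHom) hf]
  obtain ⟨y, hy⟩ := id hf
  rw [rho_eq_coeffMap hL _ (y := qExpand A M y) (by
    rw [ModularCurve.coeffMap_qExpand]
    refine Eq.trans ?_ (phiK_theta hG ι _).symm
    rw [← hy, ModularCurve.coeffMap_coeffMap]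
    rfl), ModularCurve.coeffMap_qExpand]
  refine congrArg _ ?_
  rw [← Model.redHom_coeffMap π y ⟨y, rfl⟩]
  exact congrArg _ (Subtype.ext hy)

/-- A conjugate of an element fixed by `G`. -/
def cz (z : intO M ι A) (q : Lvl.Coset G) : intO M ι A := galO A M ι (toGal M q.out) z

/-- The action of `SL(2, ℤ)` permutes the conjugates as it permutes the cosets. -/
theorem galO_cz {z : intO M ι A} (hz : ∀ γ ∈ G, galO A M ι (toGal M γ) z = z) (δ : SL(2, ℤ))
    (q : Lvl.Coset G) : galO A M ι (toGal M δ) (cz ι z q) = cz ι z (δ • q) := by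
  have key : ∀ γ : SL(2, ℤ), galO A M ι (toGal M γ) z = cz ι z (γ : Lvl.Coset G) := fun γ => by
    obtain ⟨⟨h, hh⟩, e⟩ := QuotientGroup.mk_out_eq_mul G γ
    rw [cz, e, map_mul, galO_mul, hz h hh]
  rw [cz, ← galO_mul, ← map_mul, key]
  refine congrArg _ ?_
  conv_rhs => rw [← QuotientGroup.out_eq' q]
  rfl

/-- The conjugate at the coset of `1` is the element itself. -/
theorem cz_one {z : intO M ι A} (hz : ∀ γ ∈ G, galO A M ι (toGal M γ) z = z) :
    cz ι z ((1 : SL(2, ℤ)) : Lvl.Coset G) = z := by
  obtain ⟨⟨h, hh⟩, e⟩ := QuotientGroup.mk_out_eq_mul G (1 : SL(2, ℤ))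
  rw [cz, e, one_mul, hz h hh]

/-- The generator is a root of a monic polynomial over `L[j]`. -/
theorem exists_monic_yL : ∃ P : L[X][X], P.Monic ∧
    P.eval₂ (aeval (Lvl.jL G L) : L[X] →ₐ[L] Lvl.FL G L).toRingHom (Lvl.yL G L) = 0 := by
  refine ⟨(Lvl.phiGQ G).map (mapRingHom (algebraMap ℚ L)), (Lvl.phiGQ_monic G).map _, ?_⟩
  have h := Lvl.aeval_phiL (L := L) G
  rw [Lvl.phiL, aeval_def, eval₂_map] at h
  rw [eval₂_map]
  refine Eq.trans (congrArg (fun φ => eval₂ φ _ (Lvl.phiGQ G)) ?_) h
  refine Polynomial.ringHom_ext' (Subsingleton.elim _ _) ?_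
  simp

/-- Integral elements fixed by `G` come from the chart. -/
theorem exists_thetaO_eq {z : intO M ι A} (hz : ∀ γ ∈ G, galO A M ι (toGal M γ) z = z) :
    ∃ f, thetaO hG ι f = z := by
  classical
  -- given explicitly, as the instance searches take seconds
  let : CommSemiring (intO M ι A) := SubsemiringClass.toCommSemiring _
  let : Semiring (intO M ι A) := (SubsemiringClass.toCommSemiring (intO M ι A)).toSemiring
  have : Fintype (Lvl.Coset G) := Fintype.ofFinite _
  obtain ⟨P₀, hP₀, hP₀y⟩ := exists_monic_yL (G := G) (L := L)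
  obtain ⟨c, hc0, hcA, hcy⟩ := Model.exists_scale_mem_chart (A := A) hP₀ hP₀y
  set y : intO M ι A := thetaO hG ι ⟨_, hcy⟩
  have hy : ∀ γ ∈ G, galO A M ι (toGal M γ) y = y := fun γ hγ => toGal_fix_theta hG ι hγ _
  have hycoe : (y : KM M) = cK M (ι c) * inclK hG (algebraMap _ _ (Lvl.genY G)) := by
    change theta hG ι (algebraMap L _ c * Lvl.yL G L) = _
    rw [map_mul, theta_algebraMap, theta, RingHom.comp_apply, Lvl.toKW_yL]
  -- the conjugates of a scaled generator `y` are distinct
  have hinj : Function.Injective (cz ι y : Lvl.Coset G → intO M ι A) := fun q q' h => by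
    rw [← QuotientGroup.out_eq' q, ← QuotientGroup.out_eq' q', QuotientGroup.eq]
    refine mem_of_actK_genY hG ?_
    have h1 := congrArg Subtype.val (congrArg (galO A M ι (toGal M q.out⁻¹)) h)
    rw [cz, cz, ← galO_mul, ← galO_mul, ← map_mul, ← map_mul, inv_mul_cancel, map_one, galO_one,
      coe_galO, toGal_smul, hycoe, map_mul, actK_cK] at h1
    exact (mul_left_cancel₀ ((_root_.map_ne_zero (cK M)).mpr ((_root_.map_ne_zero ι).mpr hc0))
      h1).symm
  -- Lagrange interpolation at the conjugates: `∑ w_q D q` is invariant, so defined over `A[j]`,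
  -- and its value at `y` is `w * D q₀ y`
  set D : Lvl.Coset G → (intO M ι A)[X] := fun q =>
    ∏ q' ∈ Finset.univ.erase q, (X - Polynomial.C (cz ι y q'))
  have hDmap : ∀ δ q, (D q).map (galO A M ι (toGal M δ)) = D (δ • q) := fun δ q => by
    simp only [D, Polynomial.map_prod, Polynomial.map_sub, map_X, map_C, galO_cz ι hy]
    refine Finset.prod_nbij' (δ • ·) (δ⁻¹ • ·) (fun x hx => ?_) (fun x hx => ?_)
      (fun x _ => inv_smul_smul δ x) (fun x _ => smul_inv_smul δ x) fun x _ => rfl
    · simpa using hx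
    · simp only [Finset.mem_erase, Finset.mem_univ, and_true] at hx ⊢
      exact fun h' => hx (by rw [← h', smul_inv_smul])
  have hfix : ∀ (w : intO M ι A), (∀ γ ∈ G, galO A M ι (toGal M γ) w = w) → ∀ g,
      (∑ q, Polynomial.C (cz ι w q) * D q).map (galO A M ι g) =
        ∑ q, Polynomial.C (cz ι w q) * D q := fun w hw g => by
    obtain ⟨δ, rfl⟩ := toGal_surjective M g
    rw [Polynomial.map_sum]
    exact Fintype.sum_equiv (MulAction.toPerm δ) _ _ fun q => by
      rw [Polynomial.map_mul, map_C, galO_cz ι hw, hDmap]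
      rfl
  set q₀ : Lvl.Coset G := ((1 : SL(2, ℤ)) : Lvl.Coset G)
  have key : ∀ w : intO M ι A, (∀ γ ∈ G, galO A M ι (toGal M γ) w = w) →
      ∃ fw : Lvl.FL G L, theta hG ι fw = ((w * (D q₀).eval y : intO M ι A) : KM M) := by
    intro w hw
    obtain ⟨Q, hQ⟩ := exists_map_axO (hfix w hw)
    have h2 : (∑ q, Polynomial.C (cz ι w q) * D q).eval y = w * (D q₀).eval y := by
      rw [eval_finsetSum, Finset.sum_eq_single q₀ (fun q _ hne => ?_) (by simp), eval_mul, eval_C,
        cz_one ι hw]
      rw [eval_mul]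
      refine mul_eq_zero_of_right _ ?_
      simp only [D, eval_prod]
      exact Finset.prod_eq_zero (i := q₀) (by simp [hne.symm])
        (by rw [eval_sub, eval_X, eval_C, cz_one ι hy, sub_self])
    refine ⟨Q.eval₂ (Model.ax A (Lvl.jL G L)) (algebraMap L _ c * Lvl.yL G L), ?_⟩
    rw [hom_eval₂, ← h2, ← hQ, eval_map]
    change _ = (intO M ι A).subtype (eval₂ (axO A M ι) y Q)
    rw [hom_eval₂]
    refine congrArg₂ (fun φ x => eval₂ φ x Q) (RingHom.ext fun E => ?_) rfl
    rw [RingHom.comp_apply, RingHom.comp_apply, theta_ax]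
    rfl
  -- `z` is a quotient of two functions of level `G`
  obtain ⟨f1, hf1⟩ := key z hz
  obtain ⟨f2, hf2⟩ := key 1 fun γ _ => map_one _
  have hD0 : (((D q₀).eval y : intO M ι A) : KM M) ≠ 0 := by
    rw [Ne, ZeroMemClass.coe_eq_zero]
    simp only [D, eval_prod, eval_sub, eval_X, eval_C]
    refine Finset.prod_ne_zero_iff.mpr fun q hq => sub_ne_zero.mpr fun h => ?_
    exact (Finset.mem_erase.mp hq).1 (hinj (h.symm.trans (cz_one ι hy).symm))
  have hθ : theta hG ι (f1 / f2) = z := by
    rw [map_div₀, hf1, hf2, one_mul, MulMemClass.coe_mul, mul_div_assoc, div_self hD0, mul_one]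
  exact ⟨⟨f1 / f2, mem_chart_of_theta hG ι (hθ ▸ z.2)⟩, Subtype.ext hθ⟩

variable [IsAlgClosed k]

include hL in
/-- A chart element whose conjugates have distinct reductions. -/
theorem exists_sep : ∃ f : Model.chart A (Lvl.jL G L),
    Function.Injective fun q : Lvl.Coset G => rho ι hL (cz ι (thetaO hG ι f) q) := by
  classical
  -- given explicitly, as the instance searches take seconds
  let : CommSemiring (intO M ι A) := SubsemiringClass.toCommSemiring _
  let : Semiring (intO M ι A) := (SubsemiringClass.toCommSemiring (intO M ι A)).toSemiring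
  obtain ⟨w, hw⟩ := exists_generic (ι := ι) hL
  -- the polynomials `P` of the cosets differ, so differ at all but finitely many constants `t`
  set H : Subgroup (Gal M) := G.map (toGal M)
  set P : Gal M → (LaurentSeries k)[X] := fun g =>
    ∏ h : H, (X - Polynomial.C (rho ι hL (galO A M ι (g * h) w)))
  have hP : ∀ q q' : Lvl.Coset G, q ≠ q' → P (toGal M q.out) ≠ P (toGal M q'.out) := by
    intro q q' hne he
    have h0 : (P (toGal M q'.out)).eval (rho ι hL (galO A M ι (toGal M q.out) w)) = 0 := by
      rw [← he]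
      simp only [P, eval_prod]
      exact Finset.prod_eq_zero (Finset.mem_univ 1) (by simp)
    simp only [P, eval_prod, Finset.prod_eq_zero_iff, eval_sub, eval_X, eval_C, sub_eq_zero] at h0
    obtain ⟨⟨_, γ, hγ, rfl⟩, -, h⟩ := h0
    have h1 : toGal M q.out = toGal M (q'.out * γ) := by rw [map_mul]; exact hw h
    refine hne ?_
    rw [← QuotientGroup.out_eq' q, ← QuotientGroup.out_eq' q', QuotientGroup.eq]
    have h2 : q.out⁻¹ * (q'.out * γ) ∈ G := by
      refine mem_of_actK_genY hG ?_
      rw [← toGal_smul, map_mul, map_inv, h1, inv_mul_cancel]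
      rfl
    simpa [mul_assoc] using mul_mem h2 (inv_mem hγ)
  set bad : Set k := ⋃ q : Lvl.Coset G, ⋃ q' : Lvl.Coset G,
    {t | q ≠ q' ∧ (P (toGal M q.out) - P (toGal M q'.out)).eval (algebraMap k _ t) = 0}
  have hbad : bad.Finite := by
    refine Set.finite_iUnion fun q => Set.finite_iUnion fun q' => ?_
    by_cases hne : q = q'
    · simp [hne]
    · exact ((((P (toGal M q.out) - P (toGal M q'.out))).finite_setOfPred_isRoot
        (sub_ne_zero.mpr (hP q q' hne))).preimage
        (algebraMap k (LaurentSeries k)).injective.injOn).subset fun t ht => ht.2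
  obtain ⟨t, ht⟩ := hbad.exists_notMem
  obtain ⟨a, rfl⟩ := hL.surj t
  -- the product over `G` of `t - h w` is fixed by `G`
  set z : intO M ι A := ∏ h : H, (axO A M ι (Polynomial.C a) - galO A M ι h w)
  have hz : ∀ γ ∈ G, galO A M ι (toGal M γ) z = z := fun γ hγ => by
    simp only [z, map_prod, map_sub, galO_axO, ← galO_mul]
    exact Fintype.prod_equiv (Equiv.mulLeft (⟨toGal M γ, γ, hγ, rfl⟩ : H)) _ _ fun h => rfl
  obtain ⟨f, hf⟩ := exists_thetaO_eq hG ι hz
  refine ⟨f, fun q q' he => ?_⟩
  by_contra hne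
  refine ht ?_
  simp only [bad, Set.mem_iUnion, Set.mem_ofPred_eq]
  refine ⟨q, q', hne, ?_⟩
  have hr : ∀ q : Lvl.Coset G, rho ι hL (cz ι z q) =
      (P (toGal M q.out)).eval (algebraMap k _ (π a)) := fun q => by
    simp only [z, cz, map_prod, map_sub, galO_axO, ← galO_mul, rho_axO, map_C, aeval_C, P,
      eval_prod, eval_sub, eval_X, eval_C]
    exact Finset.prod_congr rfl fun h _ => congrArg (· - _)
      ((ModularCurve.qExpandAlgHomC k M).commutes _)
  rw [eval_sub, ← hr, ← hr, ← hf]
  exact sub_eq_zero.mpr he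

/-- The reductions of the conjugates of a chart element. -/
def redConj (f : Model.chart A (Lvl.jL G L)) (q : Lvl.Coset G) : LaurentSeries k :=
  rho ι hL (cz ι (thetaO hG ι f) q)

/-- The reduced conjugate at the coset of `1` is the reduced expansion, at `q ^ M`. -/
theorem redConj_one (f : Model.chart A (Lvl.jL G L)) :
    redConj hG ι hL f ((1 : SL(2, ℤ)) : Lvl.Coset G) =
      qExpand k M (Model.redF π (Lvl.FL G L).val.toRingHom f) := by
  rw [redConj, cz_one ι (fun γ hγ => toGal_fix_theta hG ι hγ f), rho_thetaO]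

include hL in
/-- The powers of a separating element have independent reductions. -/
theorem indep_pow {f : Model.chart A (Lvl.jL G L)}
    (hf : Function.Injective (redConj hG ι hL f))
    (C' : Fin (Lvl.psiG G) → k[X])
    (h : ∑ i, aeval (jqModC k) (C' i) *
      Model.redF π (Lvl.FL G L).val.toRingHom f ^ (i : ℕ) = 0) : C' = 0 := by
  classical
  -- given explicitly, as the instance searches take seconds
  let : CommSemiring (intO M ι A) := SubsemiringClass.toCommSemiring _
  let : Semiring (intO M ι A) := (SubsemiringClass.toCommSemiring (intO M ι A)).toSemiring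
  have : Fintype (Lvl.Coset G) := Fintype.ofFinite _
  have hsur := Polynomial.map_surjective π hL.surj
  choose D hD using fun i => hsur (C' i)
  set z : intO M ι A := ∑ i, axO A M ι (D i) * thetaO hG ι f ^ (i : ℕ)
  have hz : rho ι hL z = 0 := by
    simp only [z, map_sum, map_mul, map_pow, rho_axO, hD, rho_thetaO]
    simp only [← map_pow, ← map_mul, ← map_sum, h, map_zero]
  set P : (LaurentSeries k)[X] := ∑ i : Fin (Lvl.psiG G),
    Polynomial.C (qExpand k M (aeval (jqModC k) (C' i))) * X ^ (i : ℕ)
  have hP : ∀ q, P.eval (redConj hG ι hL f q) = 0 := fun q => by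
    have h1 := (rho_galO_eq_zero_iff hL (toGal M q.out) z).mpr hz
    simp only [z, map_sum, map_mul, map_pow, galO_axO, rho_axO, hD] at h1
    simp only [P, eval_finsetSum, eval_mul, eval_C, eval_pow, eval_X]
    exact h1
  have hP0 : P = 0 := by
    refine eq_zero_of_natDegree_lt_card_of_eval_eq_zero P hf hP ?_
    refine lt_of_le_of_lt (natDegree_sum_le_of_forall_le _ _ (n := Lvl.psiG G - 1) fun i _ => ?_) ?_
    · refine (natDegree_C_mul_X_pow_le _ _).trans ?_
      have := i.isLt
      omega
    · rw [← Nat.card_eq_fintype_card]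
      exact Nat.sub_lt (Lvl.psiG_pos G) one_pos
  funext i
  have h2 := congrArg (fun p => Polynomial.coeff p (i : ℕ)) hP0
  simp only [P, finsetSum_coeff, coeff_C_mul_X_pow, coeff_zero] at h2
  rw [Finset.sum_eq_single i (fun x _ hx => if_neg fun h => hx (Fin.val_inj.mp h.symm)) (by simp),
    if_pos rfl, _root_.map_eq_zero] at h2
  exact transcendental_iff.mp transcendental_jqModC _ h2

include hG ι hL in
/-- Good reduction of the function field of level `G`. -/
theorem goodModel_FL :
    Model.GoodModel π (Lvl.FL G L).val.toRingHom (Lvl.jL G L) (Lvl.psiG G) := by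
  have hj : ((Lvl.jL G L : Lvl.FL G L) : LaurentSeries L) = jqModC L :=
    ModularCurve.coeffMap_jqModC _
  have hint : ∀ f ∈ Model.chart A (Lvl.jL G L),
      (Lvl.FL G L).val.toRingHom f ∈ Model.intSeries A := fun f hf => int_chart hG ι hL hf
  have hred : Model.redF π (Lvl.FL G L).val.toRingHom (Lvl.jL G L) = jqModC k := by
    rw [Model.redF_of_mem (ι := (Lvl.FL G L).val.toRingHom) (hint _ (Model.self_mem_chart _))]
    refine Eq.trans (congrArg _ (Subtype.ext ?_)) ((Model.redHom_coeffMap π (jqModC A)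
      ⟨jqModC A, rfl⟩).trans (ModularCurve.coeffMap_jqModC _))
    exact hj.trans Model.coeffMap_subtype_jqModC.symm
  -- the powers of a separating element have independent reductions, so form a good basis
  obtain ⟨f, hf⟩ := exists_sep hG ι hL
  have := Lvl.isFunctionField_FL G ι
  refine ⟨Model.PreModel.of_indep (ι := (Lvl.FL G L).val.toRingHom) (t := Lvl.jL G L) hL.surj
    (fun c => rfl) hint (hred ▸ transcendental_jqModC) (Lvl.psiG_pos G) (Lvl.finrank_FL G ι).1
    (z := fun i : Fin (Lvl.psiG G) => (f : Lvl.FL G L) ^ (i : ℕ))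
    (fun i => pow_mem f.2 _) fun C' h => indep_pow hG ι hL (f := f) hf C' ?_, ?_⟩
  · rw [hred] at h
    rw [← h]
    exact Finset.sum_congr rfl fun i _ => by rw [Model.redF_pow (hint _ f.2)]
  · rw [map_inv₀]
    change ((Lvl.jL G L : Lvl.FL G L) : LaurentSeries L)⁻¹ ∈ _
    rw [hj]
    exact Model.inv_jqModC_mem_intSeries hL.surj

end Fermat.RED.Full
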