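import Fermat.Agent.RED.Full.Integral

/-!
# Expansions of integral functions of level `Γ(M)`

Some function attached to a class moves by a series invertible over `A` under each nontrivial
element of the group; hence every function integral over `A[j]` has an expansion with coefficients
in `A`.
-/

set_option autoImplicit false

attribute [local instance 10000] SubalgebraClass.toAlgebra HahnSeries.powerSeriesAlgebra

noncomputable section

open scoped MatrixGroups

namespace Fermat.RED.Full

open Fermat.MC Fermat.JAC.XH CongruenceSubgroup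

variable {M : ℕ} [NeZero M]

/-- The roots of unity separate the residues. -/
theorem qz_div_injective {r s : ℤ} (h : qz ((r : ℂ) / M) = qz ((s : ℂ) / M)) :
    (r : ZMod M) = (s : ZMod M) := by
  by_contra hne
  have h1 : qz (((r - s : ℤ) : ℂ) / M) = 1 := by
    have hs0 : qz ((s : ℂ) / M) ≠ 0 := Complex.exp_ne_zero _
    refine mul_right_cancel₀ hs0 ?_
    rw [one_mul]
    conv_rhs => rw [← h]
    rw [qz, qz, qz, ← Complex.exp_add]
    congr 1
    push_cast
    ring
  have h2 := sum_qz_div M (r - s)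
  rw [if_neg (by rwa [Int.cast_sub, sub_eq_zero]), h1] at h2
  simp at h2
  exact NeZero.ne M h2

variable {L : Type*} [Field L] [IsAlgClosed L] {ι : L →+* ℂ} {A : ValuationSubring L}
variable {k : Type*} [Field k] {π : A →+* k}

omit [IsAlgClosed L] [NeZero M] in
/-- `M`-th roots of unity stay distinct in the residue field. -/
theorem map_ne_map_of_pow_eq_one (hM : (M : k) ≠ 0) {a b : Aˣ} (ha : a ^ M = 1) (hb : b ^ M = 1)
    (hne : a ≠ b) : π (a : A) ≠ π (b : A) := fun h => by
  set z : Aˣ := a * b⁻¹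
  have hz : z ^ M = 1 := by rw [mul_pow, inv_pow, ha, hb, inv_one, one_mul]
  have hz1 : (z : A) ≠ 1 := fun h1 => hne (by
    have : z = 1 := Units.ext h1
    exact mul_inv_eq_one.mp this)
  have hsum : ∑ i ∈ Finset.range M, (z : A) ^ i = 0 := by
    have := geom_sum_mul (z : A) M
    rw [← Units.val_pow_eq_pow_val, hz, Units.val_one, sub_self, mul_eq_zero] at this
    exact this.resolve_right (sub_ne_zero.mpr hz1)
  have hπz : π (z : A) = 1 := by
    change π ((a : A) * ((b⁻¹ : Aˣ) : A)) = 1
    rw [map_mul, h, ← map_mul, Units.mul_inv, map_one]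
  have := congrArg π hsum
  rw [map_sum, map_zero] at this
  simp [hπz] at this
  exact hM this

omit [IsAlgClosed L] in
/-- The constant term vanishes for `a₀ ≠ 0`. -/
theorem coeff_qS_eisU_zero {a : Vec M} (ha : a 0 ≠ 0) : (qS (eisU M a)).coeff 0 = 0 := by
  rw [show (0 : ℤ) = ((0 : ℕ) : ℤ) from rfl,
    coeff_qS_eisU, eisUCoeff]
  simp [ha]

omit [IsAlgClosed L] in
/-- The coefficient of `q^(1/M)`. -/
theorem coeff_qS_eisU_one {a : Vec M} :
    (qS (eisU M a)).coeff 1 =
      (if (1 : ZMod M) = a 0 then qz (((a 1).val : ℤ) / (M : ℂ)) else 0) +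
        if (-1 : ZMod M) = a 0 then qz ((((-((a 1).val : ℤ)) : ℤ) : ℂ) / (M : ℂ)) else 0 := by
  rw [show (1 : ℤ) = ((1 : ℕ) : ℤ) from rfl, coeff_qS_eisU, eisUCoeff]
  simp [rowWeight]

variable (ι A) in
/-- A nonzero series whose inverse lies in `intC`. -/
def IsUnitC (x : LaurentSeries ℂ) : Prop := x ≠ 0 ∧ x⁻¹ ∈ intC ι A

variable (hπ : Function.Surjective π) (hM : (M : k) ≠ 0) (hM5 : 5 ≤ M)

include hπ hM hM5 in
/-- Differences of expansions of distinct classes are units over `A`. -/
theorem isUnitC_sub {x : ZMod M} {w : Vec M} (hw0 : w 0 ≠ 0) (hne : w ≠ ![1, x])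
    (hne' : w ≠ -![1, x]) :
    IsUnitC ι A (phiK M (yK M ![1, x]) - phiK M (yK M w)) := by
  have : Fact (1 < M) := ⟨by omega⟩
  have hv0 : (![1, x] : Vec M) 0 ≠ 0 := by simp
  have hva : (![1, x] : Vec M) ≠ 0 := fun h => hv0 (by rw [h]; rfl)
  have hwa : w ≠ 0 := fun h => hw0 (by rw [h]; rfl)
  rw [phiK_yK, phiK_yK, ← sub_mul, IsUnitC, mul_inv]
  suffices h : qS (eisU M ![1, x]) - qS (eisU M w) ≠ 0 ∧
      (qS (eisU M ![1, x]) - qS (eisU M w))⁻¹ ∈ intC ι A from
    ⟨mul_ne_zero h.1 ((_root_.map_ne_zero _).mpr ((_root_.map_ne_zero _).mpr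
      (pow_ne_zero 2 xiQ_ne_zero))), mul_mem h.2 xiSq_mem.2⟩
  have hm : qS (eisU M ![1, x]) - qS (eisU M w) ∈ intC ι A :=
    sub_mem (qS_eisU_mem hπ hM hva) (qS_eisU_mem hπ hM hwa)
  have h1ne : (1 : ZMod M) ≠ -1 := fun h => by
    have h2 : ((2 : ℕ) : ZMod M) = 0 := by rw [Nat.cast_two]; linear_combination h
    have := Nat.le_of_dvd (by norm_num) ((ZMod.natCast_eq_zero_iff _ _).mp h2)
    omega
  obtain ⟨u, hu, hu1⟩ := exists_unit_of_pow_eq_one ι A (M := M) (NeZero.ne M)
    (qz_div_pow (M := M) (x.val : ℤ))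
  have hv1 : (qS (eisU M ![1, x])).coeff 1 = ι (u : A) := by
    rw [coeff_qS_eisU_one, hu]
    simp [h1ne.symm]
  -- the coefficient of `q^(1/M)` is a root of unity or a difference of two: a unit
  obtain ⟨a, ha, hcoef⟩ : ∃ a : A, IsUnit a ∧
      (qS (eisU M ![1, x]) - qS (eisU M w)).coeff 1 = ι (a : L) := by
    rw [HahnSeries.coeff_sub, hv1, coeff_qS_eisU_one]
    have key : ∀ r : ℤ, (r : ZMod M) ≠ x →
        ∃ a : A, IsUnit a ∧ ι (u : A) - qz ((r : ℂ) / M) = ι (a : L) := fun r hr => by
      obtain ⟨v, hv, hv1⟩ := exists_unit_of_pow_eq_one ι A (M := M) (NeZero.ne M) (qz_div_pow r)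
      refine ⟨(u : A) - v, Model.isUnit_of_map_ne_zero hπ ?_, ?_⟩
      · rw [map_sub, sub_ne_zero]
        refine map_ne_map_of_pow_eq_one hM hu1 hv1 fun h => hr ?_
        rw [h] at hu
        have := qz_div_injective (hv.symm.trans hu)
        simpa using this
      · rw [← hv]; push_cast; simp
    by_cases h1 : (1 : ZMod M) = w 0
    · rw [if_pos h1, if_neg (fun h => h1ne (h1.trans h.symm)), add_zero]
      refine key _ fun h => hne ?_
      funext i
      fin_cases i
      · exact h1.symm
      · simpa using h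
    by_cases h2 : (-1 : ZMod M) = w 0
    · rw [if_neg h1, if_pos h2, zero_add]
      refine key _ fun h => hne' ?_
      funext i
      fin_cases i
      · simp [h2.symm]
      · simp only [Int.cast_neg, Int.cast_natCast, ZMod.natCast_zmod_val] at h
        simp [← h]
    · exact ⟨u, u.isUnit, by rw [if_neg h1, if_neg h2, add_zero, sub_zero]⟩
  refine ⟨fun h0 => ha.ne_zero (coefHom_injective ι A ?_), inv_mem_intC hm ha hcoef fun m hm' => ?_⟩
  · rw [h0, HahnSeries.coeff_zero] at hcoef
    rw [map_zero]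
    exact hcoef.symm
  rcases lt_trichotomy m 0 with h | rfl | h
  · simp [qS, ModularCurve.ofPowerSeries_coeff_of_neg _ h]
  · rw [HahnSeries.coeff_sub, coeff_qS_eisU_zero hv0, coeff_qS_eisU_zero hw0, sub_zero]
  · omega

omit [NeZero M] in
/-- Reductions have determinant one. -/
theorem det_redMat (γ : SL(2, ℤ)) : (redMat M γ).det = 1 := by
  have h := (RingHom.map_det (Int.castRingHom (ZMod M)) (γ : Matrix (Fin 2) (Fin 2) ℤ)).symm
  rw [γ.det_coe, map_one] at h
  exact h

include hπ hM hM5 in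
/-- Every nontrivial element moves one of the functions by a unit. -/
theorem exists_isUnitC_sub {g : Gal M} (hg : g ≠ 1) : ∃ a : Vec M, a ≠ 0 ∧
    IsUnitC ι A (phiK M (yK M a) - phiK M ((g : KM M ≃+* KM M) (yK M a))) := by
  have : Fact (1 < M) := ⟨by omega⟩
  obtain ⟨γ, rfl⟩ := toGal_surjective M g
  have hmem : ∀ δ : SL(2, ℤ), redMat M δ = 1 → δ ∈ Gamma M := fun δ h => by
    refine Gamma_mem.mpr ⟨?_, ?_, ?_, ?_⟩
    all_goals first
      | exact congrFun (congrFun h 0) 0
      | exact congrFun (congrFun h 0) 1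
      | exact congrFun (congrFun h 1) 0
      | exact congrFun (congrFun h 1) 1
  obtain ⟨x, h0, h1, h2⟩ := exists_vec_move hM5 (det_redMat γ⁻¹)
    (fun h => hg (Subtype.ext (actK_eq_one_of_mem (inv_mem_iff.mp (hmem _ h)))))
    (fun h => hg (Subtype.ext (by
      change actK M γ = 1
      have h' : redMat M (-γ⁻¹) = 1 := by
        ext i j
        have := congrFun (congrFun h i) j
        simp only [redMat, Matrix.map_apply, Matrix.SpecialLinearGroup.coe_neg, Matrix.neg_apply,
          Int.cast_neg] at this ⊢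
        rw [this]
        simp
      have hn : γ = -1 * (-γ⁻¹)⁻¹ := by
        rw [eq_comm, mul_inv_eq_iff_eq_mul, mul_neg, mul_inv_cancel]
      rw [hn, map_mul, actK_neg_one, actK_eq_one_of_mem (inv_mem (hmem _ h')), one_mul])))
  refine ⟨![1, x], fun h => by simpa using congrFun h 0, ?_⟩
  rw [toGal_smul, actK_yK]
  exact isUnitC_sub hπ hM hM5 h0 h1 h2

omit [NeZero M] [IsAlgClosed L] in
/-- The effective group preserves integrality. -/
theorem gal_mem {z : KM M} (hz : z ∈ intO M ι A) (g : Gal M) :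
    (g : KM M ≃+* KM M) z ∈ intO M ι A := by
  obtain ⟨γ, rfl⟩ := toGal_surjective M g
  exact actK_mem hz γ

include hπ hM hM5 in
/-- Elements integral over `A[j]` have integral expansions. -/
theorem phiK_mem {z : KM M} (hz : z ∈ intO M ι A) : phiK M z ∈ intC ι A := by
  classical
  let Good : (Gal M → LaurentSeries ℂ) → Prop := fun ψ =>
    ∀ w ∈ intO M ι A, ∑ g : Gal M, ψ g * phiK M ((g : KM M ≃+* KM M) w) ∈ intC ι A
  have hone : Good fun _ => 1 := fun w hw => by
    simp only [one_mul, ← map_sum]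
    obtain ⟨D, hD⟩ := exists_axK_of_fixed (ι := ι) (A := A)
      (sum_mem fun g _ => gal_mem hw g) (fun δ => by
        rw [map_sum]
        exact Fintype.sum_equiv (Equiv.mulLeft (toGal M δ)) _ _ fun g => rfl)
    rw [← hD]
    exact phiK_axK_mem D
  choose a ha0 ha using fun g : {g : Gal M // g ≠ 1} => exists_isUnitC_sub (ι := ι) hπ hM hM5 g.2
  let fac : {g : Gal M // g ≠ 1} → Gal M → LaurentSeries ℂ := fun g h =>
    (phiK M ((h : KM M ≃+* KM M) (yK M (a g))) -
        phiK M ((g.1 : KM M ≃+* KM M) (yK M (a g)))) *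
      (phiK M (yK M (a g)) - phiK M ((g.1 : KM M ≃+* KM M) (yK M (a g))))⁻¹
  have hy : ∀ (b : Vec M), b ≠ 0 → ∀ g : Gal M,
      phiK M ((g : KM M ≃+* KM M) (yK M b)) ∈ intC ι A := fun b hb g => by
    obtain ⟨γ, rfl⟩ := toGal_surjective M g
    rw [toGal_smul, actK_yK]
    exact phiK_yK_mem hπ hM (vecMul_redMat_ne_zero hb _)
  -- integrality of the sums weighted by Lagrange factors, one factor at a time
  have hprod : ∀ s : Finset {g : Gal M // g ≠ 1}, Good fun h => ∏ g ∈ s, fac g h := fun s => by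
    induction s using Finset.induction with
    | empty => simpa using hone
    | insert g s hgs ih =>
      intro w hw
      have h1 := ih (yK M (a g) * w) (mul_mem (yK_mem hπ hM (ha0 g)) hw)
      have h2 := ih w hw
      have h3 := mul_mem (ha g).2
        (sub_mem h1 (mul_mem (hy _ (ha0 g) g.1) h2))
      convert h3 using 1
      rw [Finset.mul_sum, ← Finset.sum_sub_distrib, Finset.mul_sum]
      refine Finset.sum_congr rfl fun h _ => ?_
      dsimp only
      rw [Finset.prod_insert hgs, map_mul, map_mul]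
      simp only [fac]
      ring
  have h := hprod Finset.univ z hz
  rw [Finset.sum_eq_single (1 : Gal M)] at h
  · have h1 : ∀ g, fac g 1 = 1 := fun g => mul_inv_cancel₀ (ha g).1
    dsimp only at h
    rw [Finset.prod_eq_one fun g _ => h1 g, one_mul] at h
    exact h
  · intro h _ hh
    dsimp only
    rw [Finset.prod_eq_zero (Finset.mem_univ ⟨h, hh⟩), zero_mul]
    simp [fac]
  · simp

end Fermat.RED.Full
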