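import Fermat.Agent.RED.Full.Reduce

/-!
# Reduction at level `Γ(M)`

The reduction map on functions integral over `A[j]` at an auxiliary level (`LevelOK`), its
separation of the conjugates, and: a map agreeing with it on `A[j]` differs by a group element.
-/

set_option autoImplicit false

attribute [local instance 10000] SubalgebraClass.toAlgebra HahnSeries.powerSeriesAlgebra

noncomputable section

open Polynomial
open ModularCurve (coeffMap qExpand jqModC)
open scoped MatrixGroups Matrix

namespace Fermat.RED.Full

variable {L : Type*} [Field L] {A : ValuationSubring L} {k : Type*} [Field k]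

/-- The hypotheses on the auxiliary level `M`: it is invertible in the residue field `k` and at
least five, and `π` is onto. -/
structure LevelOK (π : A →+* k) (M : ℕ) : Prop where
  /-- `π` is onto. -/
  surj : Function.Surjective π
  /-- `M` is invertible in `k`. -/
  ne_zero : (M : k) ≠ 0
  /-- `M` is at least five. -/
  five_le : 5 ≤ M

variable {π : A →+* k} {M : ℕ} [NeZero M] [IsAlgClosed L] {ι : L →+* ℂ}

/-- Shortcut: ring homomorphisms are additive. The generic search unfolds the localisation. -/
private local instance addMonoidHomClassRingHom {R S : Type*} [NonAssocSemiring R]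
    [NonAssocSemiring S] : AddMonoidHomClass (R →+* S) R S :=
  RingHomClass.toAddMonoidHomClass

/-- Shortcut: the semiring of integral functions. It is local, but not private as the types below
mention it. -/
local instance (priority := high) semiringIntO : Semiring (intO M ι A) :=
  inferInstance

variable (M A ι) in
/-- A group element on the elements integral over `A[j]`. -/
def galO (g : Gal M) : intO M ι A →+* intO M ι A :=
  ((g : KM M ≃+* KM M).toRingHom.comp (intO M ι A).subtype).codRestrict _ fun z => gal_mem z.2 g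

omit [NeZero M] [IsAlgClosed L] in
/-- The value of `galO`. -/
theorem coe_galO (g : Gal M) (z : intO M ι A) :
    (galO A M ι g z : KM M) = (g : KM M ≃+* KM M) z := rfl

omit [NeZero M] [IsAlgClosed L] in
/-- `galO` is an action. -/
theorem galO_mul (g h : Gal M) (z : intO M ι A) :
    galO A M ι (g * h) z = galO A M ι g (galO A M ι h z) := Subtype.ext rfl

omit [NeZero M] [IsAlgClosed L] in
/-- `1` acts as the identity. -/
theorem galO_one (z : intO M ι A) : galO A M ι 1 z = z := Subtype.ext rfl

variable (M A ι) in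
/-- Polynomials in `j` among the integral elements. -/
def axO : A[X] →+* intO M ι A := (axK M ι A).codRestrict _ axK_mem

omit [NeZero M] [IsAlgClosed L] in
/-- The value of `axO`. -/
theorem coe_axO (D : A[X]) : (axO A M ι D : KM M) = axK M ι A D := rfl

omit [NeZero M] [IsAlgClosed L] in
/-- Polynomials in `j` are invariant. -/
theorem galO_axO (g : Gal M) (D : A[X]) : galO A M ι g (axO A M ι D) = axO A M ι D := by
  obtain ⟨γ, rfl⟩ := toGal_surjective M g
  exact Subtype.ext (actK_axK γ D)

/-- Invariant integral elements are polynomials in `j`. -/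
theorem exists_axO_of_fixed {z : intO M ι A} (h : ∀ g, galO A M ι g z = z) :
    ∃ D, axO A M ι D = z := by
  obtain ⟨D, hD⟩ := exists_axK_of_fixed z.2 fun γ => congrArg Subtype.val (h (toGal M γ))
  exact ⟨D, Subtype.ext hD⟩

variable (hL : LevelOK π M)

variable (ι) in
/-- Reduction of elements integral over `A[j]`. -/
def rho : intO M ι A →+* LaurentSeries k :=
  (redC ι π).comp (((phiK M).comp (intO M ι A).subtype).codRestrict _ fun z =>
    phiK_mem hL.surj hL.ne_zero hL.five_le z.2)

/-- Reduction through any integral series equal to the expansion. -/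
theorem rho_eq (z : intO M ι A) {f : intC ι A} (h : (f : LaurentSeries ℂ) = phiK M (z : KM M)) :
    rho ι hL z = redC ι π f := redC_congr π h.symm

/-- Reduction through a series over `A`. -/
theorem rho_eq_coeffMap (z : intO M ι A) {y : LaurentSeries A}
    (h : coeffMap (coefHom ι A) y = phiK M (z : KM M)) : rho ι hL z = coeffMap π y :=
  (rho_eq hL z (f := ⟨_, y, rfl⟩) h).trans (redC_coeffMap π y _)

omit [IsAlgClosed L] in
/-- Coefficient maps on polynomials in `j`. -/
theorem coeffMap_eval₂ {S : Type*} [Field S] (φ : A →+* S) (D : A[X]) :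
    coeffMap φ (D.eval₂ HahnSeries.C (jqModC A)) = aeval (jqModC S) (D.map φ) := by
  rw [hom_eval₂, aeval_def, eval₂_map, ModularCurve.coeffMap_jqModC]
  refine congrArg (fun f => eval₂ f _ D) (RingHom.ext fun a => ?_)
  rw [RingHom.comp_apply, RingHom.comp_apply, HahnSeries.C_apply, ModularCurve.coeffMap_single,
    ModularCurve.algebraMap_laurentSeries_eq_single]

/-- Reduction of polynomials in `j`. -/
theorem rho_axO (D : A[X]) :
    rho ι hL (axO A M ι D) = qExpand k M (aeval (jqModC k) (D.map π)) := by
  set y : LaurentSeries A := D.eval₂ HahnSeries.C (jqModC A)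
  rw [rho_eq_coeffMap hL _ (y := qExpand A M y) (by
    rw [ModularCurve.coeffMap_qExpand, coeffMap_eval₂, coe_axO, phiK_axK]),
    ModularCurve.coeffMap_qExpand, coeffMap_eval₂]

omit [NeZero M] [IsAlgClosed L] in
include hL in
/-- The level is nonzero in `L`. -/
theorem natCast_ne_zero_L : (M : L) ≠ 0 :=
  (Model.natCast_ne_zero_of_residue hL.ne_zero hL.surj).1

/-- `j (M z)` among the integral elements. -/
def jMO : intO M ι A := ⟨jMK M, jMK_mem (natCast_ne_zero_L hL)⟩

/-- Reduction of `j (M z)`. -/
theorem rho_jMO : rho ι hL (jMO hL) = qExpand k M (jb k 1 M) := by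
  rw [rho_eq_coeffMap hL _ (y := qExpand A M (qExpand A M (jqModC A))) (by
    rw [ModularCurve.coeffMap_qExpand, ModularCurve.coeffMap_qExpand, ModularCurve.coeffMap_jqModC]
    exact phiK_jMK.symm),
    ModularCurve.coeffMap_qExpand, ModularCurve.coeffMap_qExpand, ModularCurve.coeffMap_jqModC,
    jb_one]

include hL in
/-- The image of `T⁻¹` is a twist of the expansion. -/
theorem exists_rho_T : ∃ c : kˣ, c ^ M = 1 ∧ ∀ z : intO M ι A,
    rho ι hL (galO A M ι (toGal M ModularGroup.T⁻¹) z) = twist c (rho ι hL z) := by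
  have hz : ((zetaU M : ℂˣ) : ℂ) ^ M = 1 := by
    have h := Fermat.RED.Full.qz_div_pow (M := M) 1
    refine Eq.trans ?_ h
    congr 1
    simp [qParU, Function.Periodic.qParam, Fermat.JAC.XH.qz]
  obtain ⟨a, ha, ha1⟩ := exists_unit_of_pow_eq_one ι A (M := M) (NeZero.ne M) hz
  refine ⟨Units.map (π : A →* k) a, by rw [← map_pow, ha1, map_one], fun z => ?_⟩
  set f : intC ι A := ⟨phiK M (z : KM M), phiK_mem hL.surj hL.ne_zero hL.five_le z.2⟩
  rw [rho_eq hL z (f := f) rfl, ← redC_twist π ha.symm f]
  exact rho_eq hL _ (phiK_actK_T _).symm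

/-- Elements with unit expansion have nonzero reduction. -/
theorem rho_ne_zero_of_isUnitC {z : intO M ι A} (h : IsUnitC ι A (phiK M (z : KM M))) :
    rho ι hL z ≠ 0 := fun h0 => by
  set f : intC ι A := ⟨phiK M (z : KM M), phiK_mem hL.surj hL.ne_zero hL.five_le z.2⟩
  have h1 : f * ⟨_, h.2⟩ = 1 := Subtype.ext (mul_inv_cancel₀ h.1)
  have h2 := congrArg (redC ι π) h1
  rw [map_mul, map_one, ← rho_eq hL z (f := f) rfl, h0, zero_mul] at h2
  exact zero_ne_one h2

include hL in
/-- Reduction separates the group on finitely many elements. -/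
theorem exists_separating : ∃ (n : ℕ) (y : Fin n → intO M ι A), ∀ g h : Gal M, g ≠ h →
    ∃ i, rho ι hL (galO A M ι g (y i)) ≠ rho ι hL (galO A M ι h (y i)) := by
  classical
  let V := {a : Vec M // a ≠ 0}
  let e := Fintype.equivFin V
  refine ⟨Fintype.card V, fun i => ⟨yK M (e.symm i).1,
    yK_mem hL.surj hL.ne_zero (e.symm i).2⟩, fun g h hgh => ?_⟩
  obtain ⟨γ, hγ⟩ := toGal_surjective M h
  obtain ⟨b, hb0, hb⟩ := exists_isUnitC_sub (ι := ι) (A := A) hL.surj hL.ne_zero hL.five_le
    (g := g * h⁻¹) (fun h1 => hgh (mul_inv_eq_one.mp h1))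
  refine ⟨e ⟨b ᵥ* redMat M γ, vecMul_redMat_ne_zero hb0 _⟩, fun heq => ?_⟩
  set z : intO M ι A := ⟨yK M (b ᵥ* redMat M γ),
    yK_mem hL.surj hL.ne_zero (vecMul_redMat_ne_zero hb0 _)⟩
  have hz : (galO A M ι h z : KM M) = yK M b := by
    rw [coe_galO, ← hγ, toGal_smul]
    change actK M γ (yK M _) = _
    rw [actK_yK, Matrix.vecMul_vecMul, ← redMat_mul, mul_inv_cancel, redMat_one, Matrix.vecMul_one]
  simp only [Equiv.symm_apply_apply] at heq
  change rho ι hL (galO A M ι g z) = rho ι hL (galO A M ι h z) at heq
  rw [show g = g * h⁻¹ * h by group, galO_mul] at heq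
  refine rho_ne_zero_of_isUnitC hL
    (z := galO A M ι h z - galO A M ι (g * h⁻¹) (galO A M ι h z)) ?_
    (by rw [map_sub, heq, sub_self])
  rw [AddSubgroupClass.coe_sub, map_sub, coe_galO (g * h⁻¹), hz]
  exact hb

include hL in
/-- A single element whose conjugates have distinct reductions. -/
theorem exists_generic [IsAlgClosed k] : ∃ w : intO M ι A,
    Function.Injective fun g : Gal M => rho ι hL (galO A M ι g w) := by
  classical
  -- combine a separating family by powers of a constant `t`
  obtain ⟨n, y, hy⟩ := exists_separating (ι := ι) hL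
  let d : Gal M → Gal M → (LaurentSeries k)[X] := fun g h =>
    ∑ i : Fin n, Polynomial.C (rho ι hL (galO A M ι g (y i)) - rho ι hL (galO A M ι h (y i))) *
      X ^ (i : ℕ)
  have hd : ∀ g h, g ≠ h → d g h ≠ 0 := fun g h hne h0 => by
    obtain ⟨i, hi⟩ := hy g h hne
    have := congrArg (fun p => Polynomial.coeff p (i : ℕ)) h0
    simp only [d, finsetSum_coeff, coeff_C_mul_X_pow, coeff_zero] at this
    rw [Finset.sum_eq_single i (fun x _ hx => if_neg fun h => hx (Fin.val_inj.mp h.symm))
      (by simp), if_pos rfl] at this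
    exact hi (sub_eq_zero.mp this)
  -- the bad `t` are roots of finitely many nonzero polynomials
  set bad : Set k :=
    ⋃ g : Gal M, ⋃ h : Gal M, {t | g ≠ h ∧ (d g h).eval (algebraMap k _ t) = 0}
  have hbad : bad.Finite := by
    refine Set.finite_iUnion fun g => Set.finite_iUnion fun h => ?_
    by_cases hne : g = h
    · simp [hne]
    · exact (((d g h).finite_setOfPred_isRoot (hd g h hne)).preimage
        (algebraMap k (LaurentSeries k)).injective.injOn).subset fun t ht => ht.2
  obtain ⟨t, ht⟩ := hbad.exists_notMem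
  obtain ⟨a, rfl⟩ := hL.surj t
  -- lift a good `t`: two equal reductions would make it a root
  refine ⟨∑ i : Fin n, axO A M ι (Polynomial.C a) ^ (i : ℕ) * y i, fun g h heq => ?_⟩
  by_contra hne
  refine ht ?_
  simp only [bad, Set.mem_iUnion, Set.mem_ofPred_eq]
  refine ⟨g, h, hne, ?_⟩
  have hC : ∀ g : Gal M, rho ι hL (galO A M ι g (axO A M ι (Polynomial.C a))) =
      algebraMap k (LaurentSeries k) (π a) := fun g => by
    rw [galO_axO, rho_axO, map_C, aeval_C]
    exact (ModularCurve.qExpandAlgHomC k M).commutes _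
  simp only [map_sum, map_mul, map_pow, hC] at heq
  rw [← sub_eq_zero, ← Finset.sum_sub_distrib] at heq
  rw [← heq]
  simp only [d, eval_finsetSum, eval_mul, eval_C, eval_pow, eval_X]
  exact Finset.sum_congr rfl fun i _ => by ring

variable (ι) in
/-- The polynomial with the conjugates as roots. -/
def charO (w : intO M ι A) : (intO M ι A)[X] := ∏ g : Gal M, (X - Polynomial.C (galO A M ι g w))

/-- Invariant polynomials have coefficients in `A[j]`. -/
theorem exists_map_axO {P : (intO M ι A)[X]} (h : ∀ g, P.map (galO A M ι g) = P) :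
    ∃ Q : A[X][X], Q.map (axO A M ι) = P :=
  Polynomial.mem_lifts _ |>.mp ((Polynomial.lifts_iff_coeff_lifts P).mpr fun n =>
    exists_axO_of_fixed fun g => by conv_rhs => rw [← h g, coeff_map])

omit [IsAlgClosed L] in
/-- The characteristic polynomial is invariant. -/
theorem charO_fixed (w : intO M ι A) (g : Gal M) : (charO ι w).map (galO A M ι g) = charO ι w := by
  rw [charO, Polynomial.map_prod]
  refine Fintype.prod_equiv (Equiv.mulLeft g) _ _ fun h => ?_
  rw [Polynomial.map_sub, map_X, map_C]
  exact congrArg (fun x => X - Polynomial.C x) (galO_mul g h w).symm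

include hL in
/-- Two homomorphisms agreeing on `A[j]` differ by a group element. -/
theorem exists_gal_of_agree [IsAlgClosed k] {Ω : Type*} [Field Ω] (θ : LaurentSeries k →+* Ω)
    (e' : intO M ι A →+* Ω) (hR : ∀ D, e' (axO A M ι D) = θ (rho ι hL (axO A M ι D))) :
    ∃ g : Gal M, ∀ z, e' z = θ (rho ι hL (galO A M ι g z)) := by
  classical
  obtain ⟨w, hw⟩ := exists_generic (ι := ι) hL
  set e : intO M ι A →+* Ω := θ.comp (rho ι hL)
  have hagree : ∀ P : (intO M ι A)[X], (∀ g, P.map (galO A M ι g) = P) → P.map e' = P.map e :=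
    fun P hP => by
      obtain ⟨Q, rfl⟩ := exists_map_axO hP
      rw [map_map, map_map]
      exact congrArg (fun f => Q.map f) (RingHom.ext hR)
  have hroot : (charO ι w).eval w = 0 := by
    rw [charO, eval_prod]
    exact Finset.prod_eq_zero (Finset.mem_univ 1) (by simp [galO_one])
  have h0 : ((charO ι w).map e).eval (e' w) = 0 := by
    rw [← hagree _ (charO_fixed w), eval_map, eval₂_at_apply, hroot, map_zero]
  rw [charO, Polynomial.map_prod, eval_prod, Finset.prod_eq_zero_iff] at h0
  obtain ⟨g, -, hg⟩ := h0
  rw [Polynomial.map_sub, map_X, map_C, eval_sub, eval_X, eval_C, sub_eq_zero] at hg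
  refine ⟨g, fun z => ?_⟩
  set D : Gal M → (intO M ι A)[X] := fun h =>
    ∏ h' ∈ Finset.univ.erase h, (X - Polynomial.C (galO A M ι h' w))
  have hDmap : ∀ g h, (D h).map (galO A M ι g) = D (g * h) := fun g h => by
    simp only [D, Polynomial.map_prod, Polynomial.map_sub, map_X, map_C]
    refine Finset.prod_nbij' (fun x => g * x) (fun x => g⁻¹ * x) (fun x hx => ?_) (fun x hx => ?_)
      (fun x _ => by group) (fun x _ => by group) fun x _ => by rw [galO_mul]
    · simpa using hx
    · simp only [Finset.mem_erase, Finset.mem_univ, and_true] at hx ⊢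
      exact fun h' => hx (by rw [← h']; group)
  have hfix : ∀ (c : intO M ι A) g',
      (∑ h, Polynomial.C (galO A M ι h c) * D h).map (galO A M ι g') =
        ∑ h, Polynomial.C (galO A M ι h c) * D h := fun c g' => by
    rw [Polynomial.map_sum]
    refine Fintype.sum_equiv (Equiv.mulLeft g') _ _ fun h => ?_
    rw [Polynomial.map_mul, map_C, hDmap]
    simp [galO_mul]
  have hevD : ∀ h h₀ : Gal M, h ≠ h₀ → (D h).eval (galO A M ι h₀ w) = 0 := fun h h₀ hne => by
    simp only [D, eval_prod]
    exact Finset.prod_eq_zero (i := h₀) (by simp [hne.symm]) (by simp)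
  have key : ∀ (c : intO M ι A) h₀,
      (∑ h, Polynomial.C (galO A M ι h c) * D h).eval (galO A M ι h₀ w) =
        galO A M ι h₀ c * (D h₀).eval (galO A M ι h₀ w) := fun c h₀ => by
    rw [eval_finsetSum, Finset.sum_eq_single h₀ (fun h _ hne => by
      rw [eval_mul, hevD h h₀ hne, mul_zero]) (by simp), eval_mul, eval_C]
  -- Lagrange interpolation at the conjugates of `w`
  have hval : ∀ c : intO M ι A, e' (c * (D 1).eval w) =
      θ (rho ι hL (galO A M ι g c * (D g).eval (galO A M ι g w))) := fun c => by
    have h1 := key c 1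
    rw [galO_one, galO_one] at h1
    rw [← h1, ← eval₂_at_apply, ← eval_map, hagree _ (hfix c), hg, eval_map, eval₂_at_apply, key]
    rfl
  have h1 := hval z
  have h2 := hval 1
  rw [one_mul, map_one, one_mul] at h2
  rw [map_mul, h2, map_mul, map_mul] at h1
  refine mul_right_cancel₀ ?_ h1
  rw [_root_.map_ne_zero]
  simp only [D, eval_prod, map_prod, eval_sub, eval_X, eval_C, map_sub]
  exact Finset.prod_ne_zero_iff.mpr fun h hh =>
    sub_ne_zero.mpr fun h' => (Finset.mem_erase.mp hh).1 (hw h').symm

end Fermat.RED.Full
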